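import Fermat.Agent.Carayol.OddInf.Ints
import Fermat.Agent.Carayol.Field.Fixed
import Fermat.Agent.Carayol.Curve.Field

/-!
# An odd prime: `λ` is a coordinate of level two
-/

set_option autoImplicit false
set_option linter.unusedSectionVars false
set_option linter.style.haveILetI false

noncomputable section

namespace FA.Carayol

open CongruenceSubgroup HahnSeries ModularCurve FA.Level FA.ModField FA.Mazur.Wp Polynomial
open scoped MatrixGroups

local notation "Qb" => AlgebraicClosure ℚ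

/-- A series of positive order is transcendental over the coefficients. -/
theorem eval_ne_zero_of_ordGE {k : Type*} [Field k] {t : LaurentSeries k} (ht : OrdGE 1 t)
    (ht0 : t ≠ 0) {P : k[X]} (hP : P ≠ 0) : P.eval₂ HahnSeries.C t ≠ 0 := by
  have hord : ∀ Q : k[X], OrdGE 0 (Q.eval₂ HahnSeries.C t) := fun Q => by
    induction Q using Polynomial.induction_on' with
    | add a b ha hb => rw [eval₂_add]; exact ha.add hb
    | monomial n c =>
      rw [eval₂_monomial]
      exact ((ordGE_C c).mul (ht.pow n)).mono (by simp)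
  obtain ⟨R, hR, hR0⟩ := P.exists_eq_pow_rootMultiplicity_mul_and_not_dvd hP 0
  rw [hR, eval₂_mul, eval₂_pow, eval₂_sub, eval₂_X, eval₂_C, map_zero, sub_zero]
  refine mul_ne_zero (pow_ne_zero _ ht0) fun h0 => hR0 ?_
  rw [map_zero, sub_zero, X_dvd_iff]
  have e : R.eval₂ HahnSeries.C t = t * (R.divX).eval₂ HahnSeries.C t + HahnSeries.C (R.coeff 0) := by
    conv_lhs => rw [← X_mul_divX_add R]
    rw [eval₂_add, eval₂_mul, eval₂_X, eval₂_C]
  rw [h0] at e
  have e' := congrArg (fun s : LaurentSeries k => s.coeff 0) e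
  simp only [HahnSeries.coeff_zero, HahnSeries.coeff_add, HahnSeries.C_apply,
    coeff_single_same] at e'
  rw [(ht.mul (hord _)) 0 (by norm_num), zero_add] at e'
  exact e'.symm

/-- The quotients of the image of a domain in a field. -/
def quotField {R F : Type*} [CommRing R] [IsDomain R] [Field F] (f : R →+* F)
    (hf : Function.Injective f) : Subfield F where
  carrier := {S | ∃ a b, b ≠ 0 ∧ S * f b = f a}
  one_mem' := ⟨1, 1, one_ne_zero, by simp⟩
  zero_mem' := ⟨0, 1, one_ne_zero, by simp⟩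
  add_mem' := by
    rintro x y ⟨a, b, hb, h⟩ ⟨c, d, hd, h'⟩
    refine ⟨a * d + c * b, b * d, mul_ne_zero hb hd, ?_⟩
    simp only [map_add, map_mul, ← h, ← h']
    ring
  mul_mem' := by
    rintro x y ⟨a, b, hb, h⟩ ⟨c, d, hd, h'⟩
    refine ⟨a * c, b * d, mul_ne_zero hb hd, ?_⟩
    simp only [map_mul, ← h, ← h']
    ring
  neg_mem' := by
    rintro x ⟨a, b, hb, h⟩
    exact ⟨-a, b, hb, by rw [map_neg, neg_mul, h]⟩
  inv_mem' := by
    rintro x ⟨a, b, hb, h⟩
    rcases eq_or_ne x 0 with rfl | hx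
    · exact ⟨0, 1, one_ne_zero, by simp⟩
    refine ⟨b, a, fun ha => ?_, ?_⟩
    · rw [ha, map_zero, mul_eq_zero] at h
      exact h.elim hx ((map_ne_zero_iff _ hf).2 hb)
    · rw [← h, inv_mul_cancel_left₀ hx]

variable [Algebra Qb ℂ] {A : ValuationSubring Qb} {q : ℕ}

/-- The quotients of integral series. -/
def bddSer (A : ValuationSubring Qb) (q : ℕ) : Subfield (LaurentSeries (constK A q)) :=
  quotField (serO A q) serO_injective

theorem mem_bddSer {S : LaurentSeries (constK A q)} :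
    S ∈ bddSer A q ↔ ∃ a b, b ≠ 0 ∧ S * serO A q b = serO A q a := Iff.rfl

theorem C_mem_bddSer (c : constK A q) : HahnSeries.C c ∈ bddSer A q := by
  obtain ⟨a, b, hb, h⟩ := exists_base_fraction c
  exact mem_bddSer.2 ⟨HahnSeries.C a, HahnSeries.C b, (map_ne_zero_iff _ HahnSeries.C_injective).2 hb, by
    rw [serO_C, serO_C, ← map_mul, h]⟩

variable {N g : ℕ} [NeZero N] (hN : N = 4 * g) (hζ : ∀ b : ℤ, eta N b ∈ constK A q)

theorem xK_mem_bddSer (v : ℤ × ℤ) : xK (constK A q) hζ v ∈ bddSer A q := by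
  set c := (xK (constK A q) hζ v).coeff 0
  obtain ⟨a, ha, -⟩ := exists_serO_eq (S := xK (constK A q) hζ v - HahnSeries.C c) fun i => by
    rw [HahnSeries.coeff_sub, HahnSeries.C_apply]
    rcases lt_trichotomy i 0 with hi | rfl | hi
    · rw [coeff_single_of_ne hi.ne, sub_zero, xK, ModularCurve.ofPowerSeries_coeff_of_neg _ hi]
      exact zero_mem _
    · rw [coeff_single_same, sub_self]
      exact zero_mem _
    · obtain ⟨n, rfl⟩ : ∃ n : ℕ, i = ((n + 1 : ℕ) : ℤ) := ⟨(i - 1).toNat, by omega⟩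
      rw [coeff_single_of_ne hi.ne', sub_zero, xK, ofPowerSeries_apply_coeff, xSer,
        PowerSeries.coeff_mk]
      exact xCoeff_succ_mem _ (eta_mem_intK hζ v.2).1 (eta_mem_intK hζ v.2).2 _ n
  rw [← sub_add_cancel (xK (constK A q) hζ v) (HahnSeries.C c), ← ha]
  exact add_mem (mem_bddSer.2 ⟨a, 1, one_ne_zero, by rw [map_one, mul_one]⟩) (C_mem_bddSer c)

include hN hζ in
theorem ser_mem_bddSer (x : flN N (constK A q)) : ser x ∈ bddSer A q := by
  have h2 := two_g hN
  have hg := g_pos hN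
  have hx : x ∈ (⊤ : Subfield (flN N (constK A q))) := Subfield.mem_top x
  rw [← eq_top_xv h2 (hζ := hζ) (by omega)] at hx
  refine (Subfield.closure_le (t := (bddSer A q).comap ser)).2 ?_ hx
  have hser : ∀ f : rN N (constK A q), ser (toFl f) = rSer f := ser_rMer
  rintro _ ((⟨c, rfl⟩ | rfl) | ⟨v, hv, rfl⟩) <;> show ser (toFl _) ∈ bddSer A q <;> rw [hser]
  · rw [rSer_rC]; exact C_mem_bddSer c
  all_goals
    first | rw [xv] | rw [lam]
    rw [rSer_ratHol]
    exact mul_mem (sub_mem (xK_mem_bddSer hζ _) (xK_mem_bddSer hζ _))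
      (inv_mem (sub_mem (xK_mem_bddSer hζ _) (xK_mem_bddSer hζ _)))

include hN in
/-- **`λ` is a coordinate.** -/
theorem oddCoord [Fact q.Prime] (hA : A.LiesOverPrime q) (hq2 : q ≠ 2) :
    Coord A q 2 (lamF hN hζ) where
  dvd := ⟨2 * g, two_g hN⟩
  roots := hζ
  fix γ hγ := by
    rw [lamF, flAct_toFl, rAct_lam_gamma_two (two_g hN) _ hζ hγ]
  closed x hx := fixed_mem_closure (two_g hN) hζ fun φ hφ => by
    obtain ⟨γ, hγ, rfl⟩ := hφ
    exact hx γ⁻¹ (inv_mem hγ)
  bdd x := mem_bddSer.1 (ser_mem_bddSer hN hζ x)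
  transc := by
    obtain ⟨Λ, hΛ, -, -, -, hlow, hh⟩ := exists_lam_int hN hζ hA hq2
    refine ⟨Λ, 1, by simp, ?_, fun P hP => ?_⟩
    · rw [map_one, mul_one, hΛ]
      exact ser_rMer _
    rw [map_one, div_one]
    set s := redO A q (1 - Λ) with hs
    have hg := g_pos hN
    have hs1 : OrdGE 1 s := fun i hi => by
      rw [hs, redO, coeffMap_coeff, hlow i (by omega), map_zero]
    have hs0 : s ≠ 0 := fun h0 => hh (by
      simpa [hs, redO] using congrArg (fun S : LaurentSeries _ => S.coeff ((2 * g : ℕ) : ℤ)) h0)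
    have hP' : P.comp (1 - X) ≠ 0 := fun h0 => hP (by
      have := congrArg (fun p : Polynomial _ => p.comp (1 - X)) h0
      simpa [Polynomial.comp_assoc] using this)
    have h := eval_ne_zero_of_ordGE hs1 hs0 hP'
    rwa [eval₂_comp, eval₂_sub, eval₂_one, eval₂_X, hs, map_sub, map_one, sub_sub_cancel] at h

end FA.Carayol

end
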