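import Fermat.Agent.Carayol.OddInf.Frob
import Fermat.Agent.Carayol.Count.Export
import Fermat.Agent.Carayol.Model.OddDefs

/-!
# An odd prime: all cusps are like one over `λ = 1`
-/

set_option autoImplicit false
set_option linter.unusedSectionVars false
set_option linter.style.haveILetI false

noncomputable section

namespace FA.Carayol

open CongruenceSubgroup ModularCurve FA.Level FA.ModField FA.Mazur.Wp Polynomial
open scoped MatrixGroups

local notation "Qb" => AlgebraicClosure ℚ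

variable [Algebra Qb ℂ] {A : ValuationSubring Qb} {q : ℕ} {N g : ℕ} [NeZero N] (hN : N = 4 * g)
  (hζ : ∀ b : ℤ, eta N b ∈ constK A q) {ϖ : baseO A (constL A q).toSubfield}

include hN in
theorem flAct_S_lamF : flAct ModularGroup.S (lamF hN hζ) = 1 - lamF hN hζ := by
  rw [lamF, flAct_toFl, rAct_S_lam (two_g hN) _ hζ, map_sub, map_one]

variable (hC : ConstHyp A (constL A q).toSubfield ϖ) (hz : Coord A q 2 (lamF hN hζ))
include hC hz

/-- A point over `λ = 1` carries its properties to its translates. -/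
theorem cusp_of_infty_one {I J : Ideal (chartF A q (coordB A q (lamF hN hζ) false))}
    (hI : IsPtF ϖ (⟨false, I⟩ : Pt A q (lamF hN hζ)))
    (hJ : IsPtF ϖ (⟨false, J⟩ : Pt A q (lamF hN hζ)))
    (h1 : ∃ x ∈ I, (x : flN N (constK A q)) = 1 - lamF hN hζ)
    (h2 : ∃ x ∈ J, (x : flN N (constK A q)) = 1 - lamF hN hζ)
    (hloc : PtLocal ϖ (⟨false, I⟩ : Pt A q (lamF hN hζ)))
    (hu : (vertsAt A q ϖ (lamF hN hζ) ⟨false, I⟩).Subsingleton) :
    PtLocal ϖ (⟨false, J⟩ : Pt A q (lamF hN hζ)) ∧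
      (vertsAt A q ϖ (lamF hN hζ) ⟨false, J⟩).Subsingleton := by
  have hmem : ∀ K : Ideal (chartF A q (coordB A q (lamF hN hζ) false)),
      (∃ x ∈ K, (x : flN N (constK A q)) = 1 - lamF hN hζ) →
        toChart A q (lamF hN hζ) false (X - C 1) ∈ K := by
    rintro K ⟨x, hx, he⟩
    rw [show toChart A q (lamF hN hζ) false (X - C 1) = -x from Subtype.ext (by
      rw [coe_toChart, map_sub, phiB_X, phiB_C, map_one, NegMemClass.coe_neg, he, neg_sub]
      rfl)]
    exact K.neg_mem hx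
  obtain ⟨φ, hφ⟩ := exists_galLvl_point hC hz false hI hJ (hmem I h1) (hmem J h2)
  have hinv : ∀ c, (φ⁻¹ : galLvl (N := N) A q 2).1 (cF A q N c) = cF A q N c := galLvl_cF (φ⁻¹).2
  have hcoord := galLvl_coord false hC hz (φ⁻¹).2
  obtain ⟨I', -, hmove⟩ := exists_movePt (φ⁻¹ : galLvl (N := N) A q 2).1 hinv (fun W => by
      rw [isVertF_comap_iff _ hinv W,
        show (φ⁻¹ : galLvl (N := N) A q 2).1 (lamF hN hζ) = lamF hN hζ from hcoord])
    false (⟨false, J⟩ : Pt A q (lamF hN hζ)) hJ (Or.inl hcoord)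
  have he : I' = I := Ideal.ext fun x => by
    refine (hmove.ideal x (actB false hC hz φ⁻¹ x) rfl).symm.trans ((hφ _).trans ?_)
    rw [show actB false hC hz φ (actB false hC hz φ⁻¹ x) = x from
      Subtype.ext (RingEquiv.apply_symm_apply φ.1 _)]
  subst he
  exact ⟨hmove.ptLocal hloc, hmove.vertsAt_subsingleton hu⟩

/-- A point reached from one over `λ = 1` by an automorphism of the constants. -/
theorem cusp_of_infty_move {I : Ideal (chartF A q (coordB A q (lamF hN hζ) false))}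
    (hI : IsPtF ϖ (⟨false, I⟩ : Pt A q (lamF hN hζ)))
    (h1 : ∃ x ∈ I, (x : flN N (constK A q)) = 1 - lamF hN hζ)
    (hloc : PtLocal ϖ (⟨false, I⟩ : Pt A q (lamF hN hζ)))
    (hu : (vertsAt A q ϖ (lamF hN hζ) ⟨false, I⟩).Subsingleton)
    (γ : SL(2, ℤ)) {p : Pt A q (lamF hN hζ)} (hp : IsPtF ϖ p)
    (hγ : flAct γ (lamF hN hζ) = coordB A q (lamF hN hζ) p.1 ∨
      flAct γ (lamF hN hζ) = 1 - coordB A q (lamF hN hζ) p.1)
    (hx : ∃ x ∈ p.2, (x : flN N (constK A q)) = flAct γ (1 - lamF hN hζ)) :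
    PtLocal ϖ p ∧ (vertsAt A q ϖ (lamF hN hζ) p).Subsingleton := by
  have hb : ∀ W, IsVertF A q ϖ (coordB A q (lamF hN hζ) p.1) W ↔
      IsVertF A q ϖ (lamF hN hζ) W := fun W => by
    cases p.1 with
    | false => exact Iff.rfl
    | true => exact isVertF_inv_iff W
  obtain ⟨J, hJ, hmove⟩ := exists_movePt (flEquiv γ) (flAct_cF N γ) (fun W => by
      rw [isVertF_comap_iff (flEquiv γ) (flAct_cF N γ) W]
      show IsVertF A q ϖ (lamF hN hζ) W ↔ IsVertF A q ϖ (flAct γ (lamF hN hζ)) W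
      rcases hγ with h | h <;> rw [h]
      · exact (hb W).symm
      · exact ((isVertF_one_sub_iff hC W).trans (hb W)).symm)
    false p hp (show flEquiv γ (lamF hN hζ) = _ ∨ flEquiv γ (lamF hN hζ) = _ from hγ)
  obtain ⟨x, hx, hxe⟩ := hx
  obtain ⟨y, hy⟩ := hmove.exists_preimage x
  have hye : (y : flN N (constK A q)) = 1 - lamF hN hζ :=
    (flEquiv γ).injective (hy.symm.trans hxe)
  obtain ⟨hl, hs⟩ := cusp_of_infty_one hN hζ hC hz hI hJ h1
    ⟨y, (hmove.ideal y x hy).1 hx, hye⟩ hloc hu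
  exact ⟨hmove.ptLocal hl, hmove.vertsAt_subsingleton hs⟩

/-- **All cusps are like one over `λ = 1`.** -/
theorem cusp_of_infty [Fact q.Prime] (I : Ideal (chartF A q (lamF hN hζ)))
    (hI : IsPtF ϖ (⟨false, I⟩ : Pt A q (lamF hN hζ)))
    (h1 : ∃ x ∈ I, (x : flN N (constK A q)) = 1 - lamF hN hζ)
    (hloc : PtLocal ϖ (⟨false, I⟩ : Pt A q (lamF hN hζ)))
    (hu : (vertsAt A q ϖ (lamF hN hζ) ⟨false, I⟩).Subsingleton) :
    ∀ p : Pt A q (lamF hN hζ), IsPtF ϖ p → IsCuspPt A q p → PtLocal ϖ p ∧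
      ∀ W ∈ vertsAt A q ϖ (lamF hN hζ) p, ∀ W' ∈ vertsAt A q ϖ (lamF hN hζ) p, W = W' := by
  suffices h : ∀ p : Pt A q (lamF hN hζ), IsPtF ϖ p → IsCuspPt A q p →
      PtLocal ϖ p ∧ (vertsAt A q ϖ (lamF hN hζ) p).Subsingleton from
    fun p hp hc => ⟨(h p hp hc).1, fun W hW W' hW' => (h p hp hc).2 hW hW'⟩
  rintro ⟨b, J⟩ hp ⟨x, hx, hxe⟩
  have hS := flAct_S_lamF hN hζ
  have hT := flAct_T_lamF hN hζ
  -- either `w` or `1 - w` lies in the ideal
  set w := toChart A q (lamF hN hζ) b X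
  have hw : (w : flN N (constK A q)) = coordB A q (lamF hN hζ) b := phiB_X b
  have hprod : w * (1 - w) ∈ J := by
    rwa [show w * (1 - w) = x from Subtype.ext (by
      rw [hxe, Subring.coe_mul, AddSubgroupClass.coe_sub, OneMemClass.coe_one, hw])]
  have h1w : ((1 - w : chartF A q (coordB A q (lamF hN hζ) b)) : flN N (constK A q)) =
      1 - coordB A q (lamF hN hζ) b := by
    rw [AddSubgroupClass.coe_sub, OneMemClass.coe_one, hw]
  rcases hp.1.isPrime.mem_or_mem hprod with hJ | hJ <;> cases b with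
  | false =>
    first
    | exact cusp_of_infty_one hN hζ hC hz hI hp h1 ⟨_, hJ, h1w⟩ hloc hu
    | exact cusp_of_infty_move hN hζ hC hz hI h1 hloc hu ModularGroup.S hp (Or.inr hS)
        ⟨w, hJ, by rw [map_sub, map_one, hS, sub_sub_cancel]; exact hw⟩
  | true =>
    first
    | exact cusp_of_infty_move hN hζ hC hz hI h1 hloc hu ModularGroup.T hp (Or.inl hT)
        ⟨1 - w, hJ, by rw [map_sub, map_one, hT]; exact h1w⟩
    | exact cusp_of_infty_move hN hζ hC hz hI h1 hloc hu (ModularGroup.S * ModularGroup.T) hp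
        (Or.inr (by rw [flAct_mul, hS, map_sub, map_one, hT]; rfl))
        ⟨w, hJ, by
          rw [flAct_mul, map_sub, map_one, hS, sub_sub_cancel, hT]
          exact hw⟩

end FA.Carayol

end
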