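import Fermat.Agent.Carayol.OddInf.CuspCore
import Fermat.Agent.Carayol.OddInf.CuspMove

/-!
# An odd prime: the cusps
-/

set_option autoImplicit false
set_option linter.unusedSectionVars false

noncomputable section

namespace FA.Carayol

open CongruenceSubgroup ModularCurve FA.Level FA.ModField FA.Mazur.Wp
open scoped MatrixGroups

local notation "Qb" => AlgebraicClosure ℚ

variable [Algebra Qb ℂ] {A : ValuationSubring Qb} {q : ℕ} [hq : Fact q.Prime] {N g : ℕ} [NeZero N]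
  (hN : N = 4 * g) (hζ : ∀ b : ℤ, eta N b ∈ constK A q) {m : ℕ}
  (hA : A.LiesOverPrime q) (hNm : N = q * m) (hqm : ¬ q ∣ m) (h4 : 4 ∣ m)
  {ϖ : baseO A (constL A q).toSubfield} (hC : ConstHyp A (constL A q).toSubfield ϖ)
  (hϖv : A.valuation ((ϖ : Qb)) ^ (q - 1) = A.valuation (q : Qb))
  (hq2 : q ≠ 2)

include hN hA hNm hqm h4 hC hϖv hq2

/-- **Every cusp is regular and lies on one component.** -/
theorem oddCusp : ∀ p : Pt A q (lamF hN hζ), IsPtF ϖ p → IsCuspPt A q p →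
    PtLocal ϖ p ∧
      ∀ W ∈ vertsAt A q ϖ (lamF hN hζ) p, ∀ W' ∈ vertsAt A q ϖ (lamF hN hζ) p, W = W' := by
  obtain ⟨I, hI, h1, hloc, hu⟩ := exists_inftyPt_local hN hζ hA hNm hqm h4 hC hϖv hq2
  exact cusp_of_infty hN hζ hC (oddCoord hN hζ hA hq2) I hI h1 hloc hu

end FA.Carayol

end
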