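import Fermat.Agent.Carayol.Count.Chart

/-!
# Moving points by automorphisms fixing the constants
-/

set_option autoImplicit false
set_option linter.unusedSectionVars false
set_option linter.style.haveILetI false

noncomputable section

namespace FA.Carayol

open CongruenceSubgroup ModularCurve FA.Level FA.Mazur.Wp Polynomial
open scoped MatrixGroups

local notation "Qb" => AlgebraicClosure ℚ

variable [Algebra Qb ℂ] {A : ValuationSubring Qb} {q : ℕ} {N : ℕ} [NeZero N]
  {ϖ : baseO A (constL A q).toSubfield} {z z' : flN N (constK A q)}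

variable (ϖ) in
/-- An automorphism carrying a point to a point. -/
structure MovePt (ψ : flN N (constK A q) ≃+* flN N (constK A q)) (p : Pt A q z) (p' : Pt A q z') :
    Prop where
  const : ∀ c, ψ (cF A q N c) = cF A q N c
  chart : ∀ x, ψ x ∈ chartF A q (coordB A q z' p'.1) ↔ x ∈ chartF A q (coordB A q z p.1)
  ideal : ∀ (x : chartF A q (coordB A q z p.1)) (y : chartF A q (coordB A q z' p'.1)),
    (y : flN N (constK A q)) = ψ x → (y ∈ p'.2 ↔ x ∈ p.2)
  vert : ∀ W, IsVertF A q ϖ z' W ↔
    IsVertF A q ϖ z (W.comap (ψ : flN N (constK A q) →+* flN N (constK A q)))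

namespace MovePt

variable {ψ : flN N (constK A q) ≃+* flN N (constK A q)} {p : Pt A q z} {p' : Pt A q z'}
  (h : MovePt ϖ ψ p p')
include h

theorem exists_mem (x : chartF A q (coordB A q z p.1)) :
    ∃ y : chartF A q (coordB A q z' p'.1), (y : flN N (constK A q)) = ψ x :=
  ⟨⟨ψ x, (h.chart x).2 x.2⟩, rfl⟩

theorem exists_preimage (y : chartF A q (coordB A q z' p'.1)) :
    ∃ x : chartF A q (coordB A q z p.1), (y : flN N (constK A q)) = ψ x :=
  ⟨⟨ψ.symm y, (h.chart _).1 (by rw [ψ.apply_symm_apply]; exact y.2)⟩, (ψ.apply_symm_apply _).symm⟩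

theorem thru {W : ValuationSubring (flN N (constK A q))} :
    Thru p' W ↔ Thru p (W.comap (ψ : flN N (constK A q) →+* flN N (constK A q))) := by
  constructor
  · intro hW x hx
    obtain ⟨y, hy⟩ := h.exists_mem x
    exact (h.ideal x y hy).1 (hW y (by rw [hy]; exact val_comap_lt.1 hx))
  · intro hW y hy
    obtain ⟨x, hx⟩ := h.exists_preimage y
    exact (h.ideal x y hx).2 (hW x (val_comap_lt.2 (by rw [← show (y : flN N (constK A q)) =
      (ψ : flN N (constK A q) →+* flN N (constK A q)) x from hx]; exact hy)))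

theorem vertsAt_subsingleton (hu : (vertsAt A q ϖ z p).Subsingleton) :
    (vertsAt A q ϖ z' p').Subsingleton := fun W hW W' hW' => by
  have he := hu (x := W.comap (ψ : flN N (constK A q) →+* flN N (constK A q)))
    ⟨(h.vert W).1 hW.1, h.thru.1 hW.2⟩
    (y := W'.comap (ψ : flN N (constK A q) →+* flN N (constK A q)))
    ⟨(h.vert W').1 hW'.1, h.thru.1 hW'.2⟩
  ext x
  have hx := SetLike.ext_iff.1 he (ψ.symm x)
  simpa [ValuationSubring.mem_comap] using hx

theorem fix_rC (c : constK A q) : ψ (toFl (rC c)) = toFl (rC c) := by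
  obtain ⟨u, v, hv, huv⟩ := exists_base_fraction c
  have hne : cF A q N v ≠ 0 := (map_ne_zero_iff _ (cF_injective N)).2 hv
  have e : toFl (rC (N := N) c) * cF A q N v = cF A q N u := by
    show toFl (rC c) * toFl (rC (baseK A q v)) = toFl (rC (baseK A q u))
    rw [← map_mul, ← map_mul, huv]
  have e' := congrArg ψ e
  rw [map_mul, h.const, h.const, ← e] at e'
  exact mul_right_cancel₀ hne e'

theorem fix_rC' (c : constK A q) : ψ.symm (toFl (rC c)) = toFl (rC c) :=
  ψ.injective (by rw [ψ.apply_symm_apply, h.fix_rC])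

/-- **Everything used at a point moves.** -/
theorem ptLocal (hp : PtLocal ϖ p) : PtLocal ϖ p' where
  residue y := by
    obtain ⟨x, hx⟩ := h.exists_preimage y
    obtain ⟨a, c, hc, hmem⟩ := hp.residue x
    obtain ⟨c', hc'⟩ := h.exists_mem c
    refine ⟨a, c', by rw [hc', hc, h.const], (h.ideal (x - c) (y - c') ?_).2 hmem⟩
    push_cast
    rw [map_sub, hx, hc']
  branch W hW hth x hx := by
    rcases hp.branch _ ((h.vert W).1 hW) (h.thru.1 hth) (ψ.symm x)
      (by rw [ValuationSubring.mem_comap]; simpa using hx) with ⟨-, a, c, hc, hlt⟩ |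
      ⟨a, c, ha, hc, hlt⟩
    · obtain ⟨a', ha'⟩ := h.exists_mem a
      obtain ⟨c', hc'⟩ := h.exists_mem c
      refine Or.inl ⟨hx, a', c', fun hm => hc ((h.ideal c c' hc').1 hm), ?_⟩
      have := val_comap_lt.1 hlt
      simpa [ha', hc'] using this
    · obtain ⟨a', ha'⟩ := h.exists_mem a
      obtain ⟨c', hc'⟩ := h.exists_mem c
      refine Or.inr ⟨a', c', (h.ideal a a' ha').2 ha, fun hm => hc ((h.ideal c c' hc').1 hm), ?_⟩
      have := val_comap_lt.1 hlt
      simpa [ha', hc'] using this
  root n hn f hf hV := by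
    obtain ⟨π, hπ, b, c, hb, hc, e⟩ := hp.root n hn (ψ.symm f) (by simpa using hf) fun V hVc hVt => by
      set V' := V.comap (ψ.symm : flN N (constK A q) →+* flN N (constK A q))
      have hV'' : V'.comap (ψ : flN N (constK A q) →+* flN N (constK A q)) = V := by
        ext u
        simp [V', ValuationSubring.mem_comap]
      obtain ⟨g, hg, hfg⟩ := hV V' (fun y hy => by
          rw [ValuationSubring.mem_comap]
          exact hVc _ ((h.chart _).1 (by simpa using hy)))
        (hVt.imp (fun hk c => by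
            rw [ValuationSubring.mem_comap]
            show ψ.symm _ ∈ V
            rw [h.fix_rC']
            exact hk c)
          fun hv => (h.vert V').2 (hV''.symm ▸ hv))
      refine ⟨ψ.symm g, by simpa using hg, ?_⟩
      have h1 : V'.valuation (f / g ^ n) = 1 := by
        rw [map_div₀, map_pow, ← hfg, div_self ((Valuation.ne_zero_iff _).2 hf)]
      have h2 := val_comap_eq.1 h1
      rw [show (ψ.symm : flN N (constK A q) →+* flN N (constK A q)) (f / g ^ n) =
        ψ.symm f / ψ.symm g ^ n by simp, map_div₀, map_pow, div_eq_one_iff_eq] at h2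
      · exact h2
      · exact pow_ne_zero _ ((Valuation.ne_zero_iff _).2 (by simpa using hg))
    obtain ⟨b', hb'⟩ := h.exists_mem b
    obtain ⟨c', hc'⟩ := h.exists_mem c
    refine ⟨ψ π, by simpa using hπ, b', c', fun hm => hb ((h.ideal b b' hb').1 hm),
      fun hm => hc ((h.ideal c c' hc').1 hm), ?_⟩
    rw [hb', hc', ← ψ.apply_symm_apply f, ← map_mul, e, map_mul, map_pow]

end MovePt

/-- `w` and `1 - w` give the same chart. -/
theorem mem_chartF_of_eval {ψ : flN N (constK A q) →+* flN N (constK A q)}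
    (hψ : ∀ c, ψ (cF A q N c) = cF A q N c) {w w' : flN N (constK A q)}
    (hw : ψ w = w' ∨ ψ w = 1 - w') {x : flN N (constK A q)} (hx : x ∈ chartF A q w) :
    ψ x ∈ chartF A q w' := by
  obtain ⟨P, hP, he⟩ := hx
  obtain ⟨σ, hσ⟩ : ∃ σ : (baseO A (constL A q).toSubfield)[X] →+*
      (baseO A (constL A q).toSubfield)[X],
      ψ.comp (eval₂RingHom (cF A q N) w) = (eval₂RingHom (cF A q N) w').comp σ := by
    rcases hw with hw | hw
    · exact ⟨RingHom.id _, Polynomial.ringHom_ext (fun a => by simp [hψ]) (by simp [hw])⟩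
    · exact ⟨eval₂RingHom C (1 - X), Polynomial.ringHom_ext (fun a => by simp [hψ]) (by simp [hw])⟩
  refine ⟨P.map σ, hP.map _, ?_⟩
  have h := congrArg ψ he
  rw [hom_eval₂, map_zero, hσ, ← eval₂_map] at h
  exact h

/-- The point carried to a given one. -/
theorem exists_movePt (ψ : flN N (constK A q) ≃+* flN N (constK A q))
    (hψ : ∀ c, ψ (cF A q N c) = cF A q N c)
    (hvert : ∀ W, IsVertF A q ϖ z' W ↔
      IsVertF A q ϖ z (W.comap (ψ : flN N (constK A q) →+* flN N (constK A q))))
    (b : Bool) (p' : Pt A q z') (hp' : IsPtF ϖ p')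
    (hw : ψ (coordB A q z b) = coordB A q z' p'.1 ∨ ψ (coordB A q z b) = 1 - coordB A q z' p'.1) :
    ∃ I : Ideal (chartF A q (coordB A q z b)), IsPtF ϖ (⟨b, I⟩ : Pt A q z) ∧
      MovePt ϖ ψ ⟨b, I⟩ p' := by
  have hψ' : ∀ c, ψ.symm (cF A q N c) = cF A q N c := fun c => ψ.symm_apply_eq.2 (hψ c).symm
  have hw' : ψ.symm (coordB A q z' p'.1) = coordB A q z b ∨
      ψ.symm (coordB A q z' p'.1) = 1 - coordB A q z b := by
    refine hw.imp (fun h => ψ.symm_apply_eq.2 h.symm) fun h => ψ.symm_apply_eq.2 ?_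
    rw [map_sub, map_one, h, sub_sub_cancel]
  have hiff : ∀ x, ψ x ∈ chartF A q (coordB A q z' p'.1) ↔ x ∈ chartF A q (coordB A q z b) :=
    fun x => ⟨fun hx => by
      have := mem_chartF_of_eval (ψ := (ψ.symm : flN N (constK A q) →+* flN N (constK A q)))
        hψ' hw' hx
      simpa using this,
      mem_chartF_of_eval (ψ := (ψ : flN N (constK A q) →+* flN N (constK A q))) hψ hw⟩
  set θ : chartF A q (coordB A q z b) →+* chartF A q (coordB A q z' p'.1) :=
    ((ψ : flN N (constK A q) →+* flN N (constK A q)).comp (Subring.subtype _)).codRestrict _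
      fun x => (hiff x).2 x.2
  have hsurj : Function.Surjective θ := fun y => ⟨⟨ψ.symm y, (hiff _).1 (by
    rw [ψ.apply_symm_apply]; exact y.2)⟩, Subtype.ext (ψ.apply_symm_apply _)⟩
  haveI := hp'.1
  obtain ⟨u, hu, hu'⟩ := hp'.2
  obtain ⟨v, rfl⟩ := hsurj u
  refine ⟨p'.2.comap θ, ⟨Ideal.comap_isMaximal_of_surjective θ hsurj, v, hu,
    ψ.injective (hu'.trans (hψ ϖ).symm)⟩, hψ, hiff, fun x y hy => ?_, hvert⟩
  rw [show y = θ x from Subtype.ext hy]
  exact Ideal.mem_comap.symm

/-- The components in the coordinate `1 - z`. -/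
theorem isVertF_one_sub_iff (hC : ConstHyp A (constL A q).toSubfield ϖ)
    (W : ValuationSubring (flN N (constK A q))) :
    IsVertF A q ϖ (1 - z) W ↔ IsVertF A q ϖ z W := by
  have key : ∀ z₀ : flN N (constK A q), IsVertF A q ϖ z₀ W → IsVertF A q ϖ (1 - z₀) W := by
    intro z₀ h
    refine ⟨h.1, fun P hP => ?_⟩
    have he : P.eval₂ (cF A q N) (1 - z₀) = (P.comp (1 - X)).eval₂ (cF A q N) z₀ := by
      rw [eval₂_comp, eval₂_sub, eval₂_one, eval₂_X]
    rw [he]
    refine h.2 _ (exists_unit_coeff_of_map_ne hC fun h0 => ?_)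
    obtain ⟨i, hi⟩ := hP
    rw [Polynomial.map_comp, Polynomial.map_sub, Polynomial.map_one, map_X] at h0
    have h1 := congrArg (fun Q : Polynomial _ => Q.comp (1 - X)) h0
    simp only [comp_assoc, sub_comp, one_comp, X_comp, sub_sub_cancel, comp_X, zero_comp] at h1
    exact resO_ne_of_isUnit hi (by rw [← coeff_map, h1, coeff_zero])
  exact ⟨fun h => by simpa using key _ h, key z⟩

/-- The components in the coordinate `1 / z`. -/
theorem isVertF_inv_iff (W : ValuationSubring (flN N (constK A q))) :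
    IsVertF A q ϖ z⁻¹ W ↔ IsVertF A q ϖ z W := by
  rw [isVertF_iff (z := z) true W, IsVertV, phiB, coe_eval₂RingHom, eval₂_C]
  rfl

/-- Components move with the coordinate. -/
theorem isVertF_comap_iff (ψ : flN N (constK A q) ≃+* flN N (constK A q))
    (hψ : ∀ c, ψ (cF A q N c) = cF A q N c) (W : ValuationSubring (flN N (constK A q))) :
    IsVertF A q ϖ z (W.comap (ψ : flN N (constK A q) →+* flN N (constK A q))) ↔
      IsVertF A q ϖ (ψ z) W := by
  have he : ∀ P : (baseO A (constL A q).toSubfield)[X],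
      ψ (P.eval₂ (cF A q N) z) = P.eval₂ (cF A q N) (ψ z) := fun P => by
    show (ψ : flN N (constK A q) →+* flN N (constK A q)) _ = _
    rw [hom_eval₂]
    congr 1
    exact RingHom.ext hψ
  unfold IsVertF
  simp only [val_comap_lt, val_comap_eq, RingHom.coe_coe, he, hψ]

end FA.Carayol

end
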