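import Fermat.Agent.Carayol.OddInf.RlamInfty
import Fermat.Agent.Carayol.OddInf.Move

/-!
# An odd prime: the inseparable coordinate on every component
-/

set_option autoImplicit false
set_option linter.unusedSectionVars false
set_option linter.style.haveILetI false

noncomputable section

namespace FA.Carayol

open CongruenceSubgroup ModularCurve FA.Level FA.ModField FA.Mazur.Wp Polynomial
open scoped MatrixGroups

local notation "Qb" => AlgebraicClosure ℚ

variable [Algebra Qb ℂ] {A : ValuationSubring Qb} {q : ℕ} {N g : ℕ} [NeZero N] (hN : N = 4 * g)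
  (hζ : ∀ b : ℤ, eta N b ∈ constK A q) {ϖ : baseO A (constL A q).toSubfield}

include hN in
theorem flAct_T_lamF : flAct ModularGroup.T (lamF hN hζ) = (lamF hN hζ)⁻¹ := by
  refine eq_inv_of_mul_eq_one_left ?_
  rw [lamF, flAct_toFl, ← map_mul, ← map_one (toFl (N := N) (K := constK A q))]
  refine congrArg toFl (Subtype.ext (Subtype.ext (funext fun z => ?_)))
  show lamFun N (2 * g) (ModularGroup.T • z) * lamFun N (2 * g) z = 1
  rw [lamFun_T (two_g hN)]
  exact inv_mul_cancel₀ (lamFun_ne_zero (two_g hN) z)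

variable [hq : Fact q.Prime]

include hN in
/-- The case of the coordinate `λ`. -/
theorem exists_frob_lam {m : ℕ} (hq2 : q ≠ 2) (hm : N = q * m) (h4 : 4 ∣ m)
    (hA : A.LiesOverPrime q) (hC : ConstHyp A (constL A q).toSubfield ϖ)
    {W : ValuationSubring (flN N (constK A q))} (hW : IsVertF A q ϖ (lamF hN hζ) W) :
    ∃ r ∈ chartF A q (lamF hN hζ), W.valuation (r ^ q - lamF hN hζ) < 1 := by
  have hz := oddCoord hN hζ hA hq2
  obtain ⟨h1, h2⟩ := rlam_infty hN hζ hq2 (dvd_two_g hN hm h4) hA hC hz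
  obtain ⟨_, ⟨γ', hγ', rfl⟩, hW'⟩ := exists_translate_infty hC hz hW
  set γ := γ'⁻¹ with hγdef
  have hγ : γ ∈ Gamma 2 := inv_mem hγ'
  set r₀ := toFl (rlam (two_g hN) (constK A q) hζ hq2 (dvd_two_g hN hm h4))
  refine ⟨flAct γ⁻¹ r₀, mem_chartF_of_eval (ψ := flAct γ⁻¹) (flAct_cF N γ⁻¹)
    (Or.inl (hz.fix _ (inv_mem hγ))) h1, ?_⟩
  rw [← hW', val_comap_lt]
  show (inftyVal hz hC).valuation (flAct γ (flAct γ⁻¹ r₀ ^ q - lamF hN hζ)) < 1
  rw [map_sub, map_pow, hz.fix γ hγ, ← flAct_mul, inv_mul_cancel, flAct_one]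
  exact h2

include hN in
/-- **The inseparable coordinate.** -/
theorem oddFrob {m : ℕ} (hq2 : q ≠ 2) (hm : N = q * m) (h4 : 4 ∣ m)
    (hA : A.LiesOverPrime q) (hC : ConstHyp A (constL A q).toSubfield ϖ) :
    ∀ (b : Bool) W, IsVertF A q ϖ (lamF hN hζ) W →
      ∃ r ∈ chartF A q (coordB A q (lamF hN hζ) b),
        W.valuation (r ^ q - coordB A q (lamF hN hζ) b) < 1 := by
  intro b W hW
  cases b with
  | false => exact exists_frob_lam hN hζ hq2 hm h4 hA hC hW
  | true =>
    have hT := flAct_T_lamF hN hζ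
    have hW' : IsVertF A q ϖ (lamF hN hζ) (W.comap
        ((flEquiv ModularGroup.T : flN N (constK A q) ≃+* flN N (constK A q)) :
          flN N (constK A q) →+* flN N (constK A q))) := by
      refine (isVertF_comap_iff (flEquiv ModularGroup.T) (flAct_cF N _) W).2 ?_
      rw [flEquiv_apply, hT]
      exact (isVertF_inv_iff W).2 hW
    obtain ⟨r, hr, hlt⟩ := exists_frob_lam hN hζ hq2 hm h4 hA hC hW'
    refine ⟨flAct ModularGroup.T r, mem_chartF_of_eval (ψ := flAct ModularGroup.T)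
      (flAct_cF N _) (Or.inl hT) hr, ?_⟩
    rw [val_comap_lt] at hlt
    show W.valuation (flAct ModularGroup.T r ^ q - (lamF hN hζ)⁻¹) < 1
    rw [← hT, ← map_pow, ← map_sub]
    exact hlt

end FA.Carayol

end
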