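import Fermat.Agent.Carayol.OddInf.CuspStab
import Fermat.Agent.Carayol.OddInf.Frob
import Fermat.Agent.Carayol.Count.Main
import Fermat.Agent.Carayol.Count.Local

/-!
# The point at infinity is regular and lies on one component
-/

set_option autoImplicit false
set_option linter.unusedSectionVars false
set_option linter.style.haveILetI false

noncomputable section

namespace FA.Carayol

open CongruenceSubgroup ModularCurve FA.Level FA.ModField FA.Mazur.Wp
open scoped MatrixGroups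

local notation "Qb" => AlgebraicClosure ℚ

variable [Algebra Qb ℂ] {A : ValuationSubring Qb} {q : ℕ} [hq : Fact q.Prime] {N g : ℕ} [NeZero N]
  (hN : N = 4 * g) (hζ : ∀ b : ℤ, eta N b ∈ constK A q) {m : ℕ}
  (hA : A.LiesOverPrime q) (hNm : N = q * m) (hqm : ¬ q ∣ m) (h4 : 4 ∣ m)
  {ϖ : baseO A (constL A q).toSubfield} (hC : ConstHyp A (constL A q).toSubfield ϖ)
  (hϖv : A.valuation ((ϖ : Qb)) ^ (q - 1) = A.valuation (q : Qb))
  (hq2 : q ≠ 2)

include hN hA hNm hqm h4 hC hϖv hq2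

omit h4 hϖv in
/-- The difference of two abscissae with a simple zero at infinity. -/
theorem exists_par_series {cD : PowerSeries (baseO A (constL A q).toSubfield)}
    (hD : IsDen (g := g) hζ cD) :
    ∃ x : rN N (constK A q), (∀ γ ∈ Gamma 2, flAct γ (toFl x) ∈ intSerRing A q N) ∧
      ∃ P, ser (toFl x) = psO A q P ∧ resO A q (PowerSeries.constantCoeff P) = 0 ∧
        resO A q (PowerSeries.coeff 1 P) ≠ 0 := by
  have hg := g_pos hN
  have hN4 : 4 ≤ N := by omega
  have hm4 := four_le_m hN hNm hqm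
  have hN12 : 12 ≤ N := by
    have h3 : 3 ≤ q := by
      have := hq.out.two_le
      omega
    rw [hNm]
    nlinarith
  have hgen : ∀ (k : ℤ), (k = 1 ∨ k = 2) → ∀ γ ∈ Gamma 2, ¬ (N : ℤ) ∣ k * γ 0 0 := by
    intro k hk γ hγ hd
    obtain ⟨r, hr⟩ := (odd_entries hNm hγ).1
    obtain ⟨e, he⟩ := hd
    have hN' : (N : ℤ) = 4 * g := by rw [hN]; push_cast; ring
    rw [hN', mul_assoc] at he
    rcases hk with rfl | rfl <;> omega
  have hv : ∀ k : ℤ, (k = 1 ∨ k = 2) → IsVec N (k, (0 : ℤ)) := fun k hk h => by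
    have h1 := Int.le_of_dvd (by omega) h.1
    omega
  set x : rN N (constK A q) := xR hN hζ _ (hv 1 (Or.inl rfl)) - xR hN hζ _ (hv 2 (Or.inr rfl))
    with hx
  have hser : ∀ γ ∈ Gamma 2, ser (flAct γ (toFl x)) = psO A q
      (serX hζ cD g (γ 0 0, γ 0 1) - serX hζ cD g (2 * γ 0 0, 2 * γ 0 1)) := fun γ hγ => by
    rw [hx, map_sub, ← xF_of_isVec hN hζ, ← xF_of_isVec hN hζ, map_sub,
      flAct_xF hN hζ hγ (hv 1 (Or.inl rfl)), flAct_xF hN hζ hγ (hv 2 (Or.inr rfl)), map_sub,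
      map_sub, ← ser_xF hN hζ hA hNm hqm hC hq2 hD
        (Or.inl (by simpa using hgen 1 (Or.inl rfl) γ hγ)),
      ← ser_xF hN hζ hA hNm hqm hC hq2 hD (Or.inl (by simpa using hgen 2 (Or.inr rfl) γ hγ))]
    simp [vmul]
  refine ⟨x, fun γ hγ => mem_intSerRing.2 ⟨_, hser γ hγ⟩,
    serX hζ cD g (1, 0) - serX hζ cD g (2, 0), ?_, ?_⟩
  · have := hser 1 (one_mem _)
    rw [flAct_one] at this
    simpa using this
  have hgeo : ∀ k : ℤ, (k = 1 ∨ k = 2) → geoO hζ (k, (0 : ℤ)) = 0 := fun k hk => by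
    rw [geoO, if_neg]
    intro h
    have h1 := Int.le_of_dvd (by omega) h
    omega
  have hdiff : serX hζ cD g (1, 0) - serX hζ cD g (2, 0) =
      (posO hζ (1, 0) - posO hζ (2, 0)) * cD := by
    rw [serX, serX, hgeo 1 (Or.inl rfl), hgeo 2 (Or.inr rfl)]
    ring
  have hc0 : PowerSeries.constantCoeff (posO hζ (1, 0) - posO hζ (2, 0)) = 0 := by
    simp [posO, constantCoeff_xPos]
  have hc1 : PowerSeries.coeff 1 (posO hζ (1, 0) - posO hζ (2, 0)) = 1 := by
    have hnd : ∀ k : ℤ, k ≠ 0 → -4 < k → k < 4 → ¬ (N : ℤ) ∣ k := fun k hk h1 h2 hd => by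
      rcases lt_trichotomy k 0 with h | h | h
      · have := Int.le_of_dvd (by omega) (dvd_neg.2 hd); omega
      · exact hk h
      · have := Int.le_of_dvd h hd; omega
    have hnd' : ¬ (N : ℤ) ∣ ((1 : ℕ) : ℤ) := hnd _ (by norm_num) (by norm_num) (by norm_num)
    simp only [posO, map_sub, xPos, PowerSeries.coeff_mk, one_ne_zero, if_false, Nat.divisorsAntidiagonal_one,
      Finset.sum_singleton, Nat.cast_one, etaOI_zero, neg_zero, pow_one, one_mul, sub_self, dvd_zero,
      if_true, if_neg (hnd (1 + 1) (by norm_num) (by norm_num) (by norm_num)),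
      if_neg (hnd (1 - 2) (by norm_num) (by norm_num) (by norm_num)),
      if_neg (hnd (1 + 2) (by norm_num) (by norm_num) (by norm_num)),
      if_neg (hnd 1 (by norm_num) (by norm_num) (by norm_num))]
    ring
  rw [hdiff]
  refine ⟨by rw [map_mul, hc0, zero_mul, map_zero], ?_⟩
  rw [PowerSeries.coeff_mul, Finset.Nat.antidiagonal_eq_map]
  simp only [Finset.sum_map, Finset.sum_range_succ, Finset.sum_range_zero, zero_add]
  simp only [Function.Embedding.coeFn_mk, Nat.sub_zero, Nat.sub_self,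
    PowerSeries.coeff_zero_eq_constantCoeff, hc0, hc1, zero_mul, zero_add, one_mul,
    constantCoeff_den hN hζ hD]
  exact resO_ne_of_isUnit (isUnit_four hA hq2)

set_option maxHeartbeats 800000 in
/-- **The point at infinity.** -/
theorem exists_inftyPt_local : ∃ I : Ideal (chartF A q (lamF hN hζ)),
    IsPtF ϖ (⟨false, I⟩ : Pt A q (lamF hN hζ)) ∧
    (∃ x ∈ I, (x : flN N (constK A q)) = 1 - lamF hN hζ) ∧
    PtLocal ϖ (⟨false, I⟩ : Pt A q (lamF hN hζ)) ∧
    (vertsAt A q ϖ (lamF hN hζ) ⟨false, I⟩).Subsingleton := by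
  haveI := charP_resField (q := q) hA
  haveI := hC.dvr
  have hz := oddCoord hN hζ hA hq2
  obtain ⟨Λ, hΛ, -, hneg, -, hlow, htop⟩ := exists_lam_int hN hζ hA hq2
  set L : PowerSeries (baseO A (constL A q).toSubfield) := PowerSeries.mk fun n => Λ.coeff n
  have hΛL : HahnSeries.ofPowerSeries ℤ _ L = Λ := HahnSeries.ext (funext fun i => by
    rcases lt_or_ge i 0 with hi | hi
    · rw [ModularCurve.ofPowerSeries_coeff_of_neg _ hi, hneg i hi]
    · obtain ⟨n, rfl⟩ := Int.eq_ofNat_of_zero_le hi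
      rw [HahnSeries.ofPowerSeries_apply_coeff, PowerSeries.coeff_mk])
  have hL : ser (lamF hN hζ) = psO A q L := by
    rw [lamF, show ∀ f : rN N (constK A q), ser (toFl f) = rSer f from ser_rMer, ← hΛ, ← hΛL]
    rfl
  have hg := g_pos hN
  have hL1 : PowerSeries.constantCoeff L = 1 := by
    have h0 := hlow 0 (by positivity)
    rw [HahnSeries.coeff_sub, HahnSeries.coeff_one, if_pos rfl, sub_eq_zero] at h0
    rw [← PowerSeries.coeff_zero_eq_constantCoeff_apply, PowerSeries.coeff_mk, Nat.cast_zero, ← h0]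
  obtain ⟨hlmem, hlres⟩ := exists_inftyRes_of_ser hz hC hL
  have hz2 : lamF hN hζ ∈ inftyPlace hz hC := (mem_inftyPlace hz hC).2 ⟨hlmem, by
    rw [hlres]; exact fun i hi => ModularCurve.ofPowerSeries_coeff_of_neg _ hi⟩
  set p := inftyPt hz hC hz2 with hp
  have hpt : IsPtF ϖ p := isPtF_inftyPt hz hC hz2
  have hlchart : lamF hN hζ ∈ chartF A q (lamF hN hζ) :=
    ⟨Polynomial.X - Polynomial.C Polynomial.X, Polynomial.monic_X_sub_C _, by simp⟩
  have h1mem : (1 - ⟨_, hlchart⟩ : chartF A q (lamF hN hζ)) ∈ p.2 := by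
    show inftyConst hz hC hz2 _ = 0
    rw [map_sub, map_one, inftyConst_of_ser hz hC hz2 (x := ⟨_, hlchart⟩) hL, hL1, map_one,
      sub_self]
  -- the parameter
  obtain ⟨cD, hD⟩ := exists_isDen (g := g) hN hζ hA hq2
  obtain ⟨x, hx, P, hP, hP0, hP1⟩ := exists_par_series hN hζ hA hNm hqm hC hq2 hD
  obtain ⟨M, π, -, hπser⟩ := exists_chart_mul hN hζ hC hz hz2 hL hL1 x hx
  have hπ := hπser 1 (one_mem _) P (by rw [flAct_one]; exact hP)
  rw [flAct_one] at hπ
  obtain ⟨hπmem, hπres⟩ := exists_inftyRes_of_ser hz hC hπ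
  set Pb := PowerSeries.map (resO A q) (P * L ^ M) with hPb
  have hPb0 : PowerSeries.coeff 0 Pb = 0 := by
    rw [hPb, PowerSeries.coeff_map, PowerSeries.coeff_zero_eq_constantCoeff, map_mul, map_mul,
      hP0, zero_mul]
  have hPb1 : PowerSeries.coeff 1 Pb ≠ 0 := by
    rw [hPb, PowerSeries.coeff_map, PowerSeries.coeff_mul, Finset.Nat.antidiagonal_eq_map]
    simp only [Finset.sum_map, Finset.sum_range_succ, Finset.sum_range_zero, zero_add,
      Function.Embedding.coeFn_mk, Nat.sub_zero, Nat.sub_self, PowerSeries.coeff_zero_eq_constantCoeff,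
      map_add, map_mul, map_pow, hP0, hL1, one_pow, map_one, mul_one, zero_mul, zero_add]
    exact hP1
  set πb := inftyRes hz hC ⟨(π : flN N (constK A q)), hπmem⟩ with hπb
  have hπc : ∀ n : ℕ, πb.coeff n = PowerSeries.coeff n Pb := fun n => by
    rw [hπres, HahnSeries.ofPowerSeries_apply_coeff]
  have hπ0 : πb ≠ 0 := fun h0 => hPb1 (by
    rw [← hπc 1, h0, HahnSeries.coeff_zero])
  have hπord : πb.order = 1 := by
    refine le_antisymm (HahnSeries.order_le_of_coeff_ne_zero (g := ((1 : ℕ) : ℤ)) (by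
      rw [hπc]; exact hPb1)) ((ordGE_iff_le_order hπ0).1 fun i hi => ?_)
    rcases lt_or_ge i 0 with h | h
    · rw [hπres, ModularCurve.ofPowerSeries_coeff_of_neg _ h]
    · obtain ⟨n, rfl⟩ := Int.eq_ofNat_of_zero_le h
      rw [hπc, show n = 0 by omega, hPb0]
  -- the inseparable coordinate
  obtain ⟨r, hr, hfrob⟩ := exists_frob_lam hN hζ hq2 hNm h4 hA hC (isVertF_inftyVal hz hC)
  set r1 : chartF A q (lamF hN hζ) := ⟨r, hr⟩ - 1 with hr1
  set rb := inftyRes hz hC (toPlace hz hC hz2 r1) with hrb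
  set lb := inftyRes hz hC ⟨lamF hN hζ, hlmem⟩ with hlb
  haveI : CharP (LaurentSeries (IsLocalRing.ResidueField A)) q :=
    charP_of_injective_ringHom (f := HahnSeries.C) HahnSeries.C_injective q
  have hrq : rb ^ q = lb - 1 := by
    have h0 : inftyRes hz hC ((toPlace hz hC hz2 ⟨r, hr⟩) ^ q - ⟨lamF hN hζ, hlmem⟩) = 0 :=
      (val_lt_iff_inftyRes hz hC _).1 hfrob
    rw [map_sub, map_pow, sub_eq_zero] at h0
    rw [hrb, hr1, map_sub, map_one, map_sub, map_one, sub_pow_char, one_pow, h0]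
  have hlb1 : lb - 1 = -HahnSeries.ofPowerSeries ℤ _ (PowerSeries.map (resO A q) (1 - L)) := by
    rw [hlres, map_sub, map_sub, map_one, map_one, neg_sub]
  have hcl : ∀ n : ℕ, (lb - 1).coeff n = -resO A q ((1 - Λ).coeff n) := fun n => by
    rw [hlb1, HahnSeries.coeff_neg, HahnSeries.ofPowerSeries_apply_coeff, PowerSeries.coeff_map,
      ← hΛL, ← map_one (HahnSeries.ofPowerSeries ℤ (baseO A (constL A q).toSubfield)), ← map_sub,
      HahnSeries.ofPowerSeries_apply_coeff]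
  have hlord : lb - 1 ≠ 0 ∧ (lb - 1).order = ((2 * g : ℕ) : ℤ) := by
    have hne : lb - 1 ≠ 0 := fun h0 => htop (by
      have := hcl (2 * g)
      rwa [h0, HahnSeries.coeff_zero, eq_comm, neg_eq_zero] at this)
    refine ⟨hne, le_antisymm (HahnSeries.order_le_of_coeff_ne_zero (by
      rw [hcl]; exact neg_ne_zero.2 htop)) ((ordGE_iff_le_order hne).1 fun i hi => ?_)⟩
    rcases lt_or_ge i 0 with h | h
    · rw [hlb1, HahnSeries.coeff_neg, ModularCurve.ofPowerSeries_coeff_of_neg _ h, neg_zero]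
    · obtain ⟨n, rfl⟩ := Int.eq_ofNat_of_zero_le h
      rw [hcl, hlow _ hi, map_zero, neg_zero]
  have hrb0 : rb ≠ 0 := fun h0 => hlord.1 (by rw [← hrq, h0, zero_pow hq.out.ne_zero])
  obtain ⟨e, rfl⟩ : ∃ e, m = 2 * e := ⟨m / 2, by omega⟩
  have heq : e * q = 2 * g := by nlinarith
  have hrord : rb.order = (e : ℤ) := by
    have h1 := HahnSeries.order_pow rb q
    rw [hrq, hlord.2, nsmul_eq_mul] at h1
    have h2 : ((2 * g : ℕ) : ℤ) = (q : ℤ) * e := by rw [← heq]; push_cast; ring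
    rw [h2] at h1
    exact (mul_left_cancel₀ (by exact_mod_cast hq.out.ne_zero) h1).symm
  have he : 0 < e := Nat.pos_of_ne_zero fun h0 => by rw [h0, zero_mul] at heq; omega
  -- the data
  have hπ1 : (inftyVal hz hC).valuation (π : flN N (constK A q)) = 1 :=
    (val_eq_iff_inftyRes hz hC ⟨_, hπmem⟩).2 hπ0
  have hr1v : (inftyVal hz hC).valuation (r1 : flN N (constK A q)) = 1 :=
    (val_eq_iff_inftyRes hz hC (toPlace hz hC hz2 r1)).2 hrb0
  have hπp : π ∈ p.2 := by
    show inftyConst hz hC hz2 π = 0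
    show (inftyRes hz hC (toPlace hz hC hz2 π)).coeff 0 = 0
    exact (hπc 0).trans hPb0
  have hr1p : r1 ∈ p.2 := by
    show (rb).coeff 0 = 0
    exact HahnSeries.coeff_eq_zero_of_lt_order (by rw [hrord]; exact_mod_cast he)
  have hbr : BrPar A q (lamF hN hζ) p (inftyVal hz hC) e ⟨r, hr⟩ π 1 (inftyPlace hz hC) := by
    refine ⟨hfrob, inftyPlace_le hz hC, fun y hy => chart_le_inftyPlace hz hC hz2 hy,
      centre_inftyPt hz hC hz2, hπp, hπ1, ?_, ?_⟩
    · rw [map_one]
      exact (centre_inftyPt hz hC hz2 r1).2 hr1p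
    · rw [map_one]
      show _ = (inftyPlace hz hC).valuation (r1 : flN N (constK A q))
      have hr0 : (r1 : flN N (constK A q)) ≠ 0 := fun h0 => by rw [h0, map_zero] at hr1v; exact zero_ne_one hr1v
      have hmem : (π : flN N (constK A q)) ^ e / (r1 : flN N (constK A q)) ∈ inftyVal hz hC := by
        rw [← ValuationSubring.valuation_le_one_iff, map_div₀, map_pow, hπ1, one_pow, hr1v, div_one]
      have hprod : inftyRes hz hC ⟨_, hmem⟩ * rb = πb ^ e := by
        rw [hrb, hπb, ← map_mul, ← map_pow]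
        congr 1
        exact Subtype.ext (div_mul_cancel₀ _ hr0)
      have hne : inftyRes hz hC ⟨_, hmem⟩ ≠ 0 :=
        left_ne_zero_of_mul (hprod.symm ▸ pow_ne_zero e hπ0)
      have hord : (inftyRes hz hC ⟨_, hmem⟩).order = 0 := by
        have h1 := congrArg HahnSeries.order hprod
        rw [HahnSeries.order_mul hne hrb0, HahnSeries.order_pow, hπord, hrord, nsmul_eq_mul, mul_one] at h1
        omega
      have h1 := val_inftyPlace_eq_one hz hC hne hord
      rwa [map_div₀, map_pow, div_eq_one_iff_eq ((Valuation.ne_zero_iff _).2 hr0)] at h1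
  -- the counting
  have hW : inftyVal hz hC ∈ vertsAt A q ϖ (lamF hN hζ) p :=
    ⟨isVertF_inftyVal hz hC, thru_inftyPt hz hC hz2⟩
  haveI := finite_galLvl (A := A) (q := q) (N := N) (ℓ := 2)
  haveI : Finite ↥(stabSet (galLvl (N := N) A q 2) (ptSet p)) :=
    Finite.of_injective (fun x => (⟨x.1, x.2.1⟩ : galLvl (N := N) A q 2))
      fun a b hab => Subtype.ext (congrArg (fun y : galLvl (N := N) A q 2 => y.1) hab)
  have hS : Nat.card ↥(stabSet (galLvl (N := N) A q 2) (ptSet p)) ≤ 2 * g :=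
    card_stab_le hN hζ hA hNm hqm hC hϖv hq2 hz hz2 hL hL1
  obtain ⟨-, hcount⟩ := countHolds A q hA ϖ (lamF hN hζ) 2 hC hz
    (vertHolds A q N ϖ hC 2 _ hz) p hpt
  obtain ⟨-, -, hcard, hreg⟩ := hcount e he _ hW ⟨⟨r, hr⟩, π, 1, _, hbr⟩ (by
    rw [heq]
    refine le_trans ?_ hS
    exact Nat.card_le_card_of_injective (Subgroup.inclusion inf_le_left)
      (Subgroup.inclusion_injective _))
  have hone : Nat.card (vertsAt A q ϖ (lamF hN hζ) p) = 1 := by
    rw [heq] at hcard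
    have hpos : 0 < Nat.card ↥(stabSet (galLvl (N := N) A q 2) (ptSet p)) := Nat.card_pos
    rcases Nat.lt_or_ge (Nat.card (vertsAt A q ϖ (lamF hN hζ) p)) 2 with h | h
    · rcases Nat.eq_zero_or_pos (Nat.card (vertsAt A q ϖ (lamF hN hζ) p)) with h0 | h0
      · rw [h0, zero_mul] at hcard; omega
      · omega
    · nlinarith
  have hss : (vertsAt A q ϖ (lamF hN hζ) p).Subsingleton := by
    rw [Nat.card_eq_one_iff_unique] at hone
    intro a ha b hb
    exact congrArg Subtype.val (@Subsingleton.elim _ hone.1 ⟨a, ha⟩ ⟨b, hb⟩)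
  refine ⟨p.2, hpt, ⟨_, h1mem, by push_cast; rfl⟩, ?_, hss⟩
  have hϖc : cF A q N ϖ ∈ chartF A q (lamF hN hζ) :=
    ⟨Polynomial.X - Polynomial.C (Polynomial.C ϖ), Polynomial.monic_X_sub_C _, by simp⟩
  refine localHolds A q ϖ (lamF hN hζ) 2 hC hz (vertHolds A q N ϖ hC 2 _ hz) p hpt ⟨_, hW⟩
    fun W hWp => ?_
  rw [hss hWp hW]
  exact ⟨⟨_, hϖc⟩, π, rfl, fun W' hW' hne => absurd (hss hW' hW) hne,
    ⟨1, 1, 1, fun h => hpt.1.ne_top ((Ideal.eq_top_iff_one _).2 h),
      by rw [OneMemClass.coe_one, mul_one, pow_one, mul_one]⟩,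
    hπp, hπ1, hreg _ hW _ _ _ _ hbr⟩

end FA.Carayol

end
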