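import Fermat.Agent.Carayol.Vert.Main
import Fermat.Agent.Carayol.Model.PtDefs

/-!
# Functions with integral power series at the translates of infinity

If the translates of a holomorphic function by `Γ(2)` all have integral power series at infinity then
a power of `λ` times the function is integral over the integral constants and `λ`.
-/

set_option autoImplicit false
set_option linter.unusedSectionVars false
set_option linter.style.haveILetI false

noncomputable section

namespace FA.Carayol

open CongruenceSubgroup ModularCurve FA.Level FA.JTorsion FA.Mazur.Wp Polynomial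
open scoped MatrixGroups

local notation "Qb" => AlgebraicClosure ℚ

variable [Algebra Qb ℂ] (A : ValuationSubring Qb) (q : ℕ) (N : ℕ) [NeZero N]

/-- An integral power series as a series. -/
def psO : PowerSeries (baseO A (constL A q).toSubfield) →+* LaurentSeries (constK A q) :=
  (serO A q).comp (HahnSeries.ofPowerSeries ℤ _)

/-- The functions with an integral power series at infinity. -/
def intSerRing : Subring (flN N (constK A q)) := (psO A q).range.comap ser

variable {A q N}

theorem psO_C (c : baseO A (constL A q).toSubfield) :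
    psO A q (PowerSeries.C c) = HahnSeries.C (baseK A q c) := by
  show serO A q (HahnSeries.ofPowerSeries ℤ _ (PowerSeries.C c)) = _
  rw [HahnSeries.ofPowerSeries_C, serO_C]

theorem psO_injective : Function.Injective (psO A q) := fun _ _ h =>
  HahnSeries.ofPowerSeries_injective (serO_injective h)

theorem mem_intSerRing {x : flN N (constK A q)} :
    x ∈ intSerRing A q N ↔ ∃ P, ser x = psO A q P :=
  ⟨fun ⟨P, hP⟩ => ⟨P, hP.symm⟩, fun ⟨P, hP⟩ => ⟨P, hP.symm⟩⟩

theorem cF_mem_intSer (c : baseO A (constL A q).toSubfield) : cF A q N c ∈ intSerRing A q N :=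
  mem_intSerRing.2 ⟨PowerSeries.C c, by rw [ser_cF, psO_C]⟩

/-- An invertible constant term gives an inverse. -/
theorem inv_mem_intSer {x : flN N (constK A q)}
    {P : PowerSeries (baseO A (constL A q).toSubfield)} (hx : ser x = psO A q P)
    (hu : IsUnit (PowerSeries.constantCoeff P)) : x⁻¹ ∈ intSerRing A q N := by
  obtain ⟨u, hu⟩ := (PowerSeries.isUnit_iff_constantCoeff).2 hu
  refine mem_intSerRing.2 ⟨↑u⁻¹, ?_⟩
  rw [map_inv₀, hx, ← hu]
  exact inv_eq_of_mul_eq_one_right (by rw [← map_mul, Units.mul_inv, map_one])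

theorem ser_eval₂ {z : flN N (constK A q)} {L : PowerSeries (baseO A (constL A q).toSubfield)}
    (hL : ser z = psO A q L) (P : (baseO A (constL A q).toSubfield)[X]) :
    ser (P.eval₂ (cF A q N) z) = psO A q (P.eval₂ PowerSeries.C L) := by
  rw [hom_eval₂, hom_eval₂, hL]
  congr 1
  exact RingHom.ext fun c => (ser_cF N c).trans (psO_C c).symm

variable {h : ℕ} (hN : N = 2 * h) (hζ : ∀ b : ℤ, eta N b ∈ constK A q)
  {ϖ : baseO A (constL A q).toSubfield} (hC : ConstHyp A (constL A q).toSubfield ϖ)
  (hz : Coord A q 2 (toFl (lam hN (constK A q) hζ)))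
  {L : PowerSeries (baseO A (constL A q).toSubfield)}
  (hL : ser (toFl (lam hN (constK A q) hζ)) = psO A q L)
  (hL1 : PowerSeries.constantCoeff L = 1)
include hz hC hL hL1

set_option maxHeartbeats 800000 in
/-- An invariant with an integral power series is a polynomial in `λ` over a power of `λ`. -/
theorem exists_poly_of_invariant {c : rN N (constK A q)} (hinv : ∀ γ ∈ Gamma 2, rAct γ c = c)
    (hc : toFl c ∈ intSerRing A q N) : ∃ (a : ℕ) (P : (baseO A (constL A q).toSubfield)[X]),
      toFl c * toFl (lam hN (constK A q) hζ) ^ a =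
        P.eval₂ (cF A q N) (toFl (lam hN (constK A q) hζ)) := by
  haveI := hC.dvr
  set z := toFl (lam hN (constK A q) hζ) with hzdef
  obtain ⟨a, b, P₀, hP₀⟩ := exists_poly_lam hN (constK A q) hζ hinv
  obtain ⟨S, hS⟩ := mem_intSerRing.1 hc
  have hfrac : ∀ P : (constK A q)[X], ∃ (d : baseO A (constL A q).toSubfield)
      (P' : (baseO A (constL A q).toSubfield)[X]),
      d ≠ 0 ∧ Polynomial.C (baseK A q d) * P = P'.map (baseK A q) := by
    intro P
    induction P using Polynomial.induction_on' with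
    | add p r hp hr =>
      obtain ⟨d, p', hd, h1⟩ := hp
      obtain ⟨e, r', he, h2⟩ := hr
      refine ⟨d * e, Polynomial.C e * p' + Polynomial.C d * r', mul_ne_zero hd he, ?_⟩
      rw [Polynomial.map_add, Polynomial.map_mul, Polynomial.map_mul, ← h1, ← h2, map_C, map_C,
        map_mul, map_mul]
      ring
    | monomial n x =>
      obtain ⟨u, v, hv, huv⟩ := exists_base_fraction x
      refine ⟨v, monomial n u, hv, ?_⟩
      rw [map_monomial, C_mul_monomial, ← huv, mul_comm]
  obtain ⟨d, P₁, hd, hP₁⟩ := hfrac P₀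
  have h1 : cF A q N d * (toFl c * z ^ a) * (1 - z) ^ b = P₁.eval₂ (cF A q N) z := by
    have e := congrArg (toFl (N := N) (K := constK A q)) hP₀
    rw [map_mul, map_mul, map_pow, map_pow, map_sub, map_one, hom_eval₂, ← hzdef] at e
    have e2 := congrArg (fun p : (constK A q)[X] => p.eval₂ ((toFl (N := N)).comp rC) z) hP₁
    simp only [eval₂_mul, eval₂_C, eval₂_map] at e2
    rw [mul_assoc, e]
    exact e2
  have key : ∀ (b : ℕ) (P₁ : (baseO A (constL A q).toSubfield)[X]),
      cF A q N d * (toFl c * z ^ a) * (1 - z) ^ b = P₁.eval₂ (cF A q N) z →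
      ∃ P₂ : (baseO A (constL A q).toSubfield)[X],
        cF A q N d * (toFl c * z ^ a) = P₂.eval₂ (cF A q N) z := by
    intro b
    induction b with
    | zero => exact fun P₁ h => ⟨P₁, by rwa [pow_zero, mul_one] at h⟩
    | succ b ih =>
      intro P₁ h1
      have h2 := congrArg ser h1
      rw [ser_eval₂ hL, map_mul, map_mul, map_mul, map_pow, map_pow, map_sub, map_one, ser_cF,
        ← psO_C, hS, hL, ← map_pow, ← map_one (psO A q), ← map_sub, ← map_pow, ← map_mul,
        ← map_mul, ← map_mul] at h2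
      have h3 := congrArg PowerSeries.constantCoeff (psO_injective h2)
      simp only [map_mul, map_pow, map_sub, map_one, hL1, sub_self, ne_eq, Nat.succ_ne_zero,
        not_false_eq_true, zero_pow, mul_zero] at h3
      rw [hom_eval₂, hL1] at h3
      have hroot : P₁.IsRoot 1 := by
        rw [IsRoot.def, h3, eval]
        congr 1
      obtain ⟨Q, rfl⟩ := dvd_iff_isRoot.2 hroot
      refine ih (-Q) ?_
      have hne : (1 : flN N (constK A q)) - z ≠ 0 := fun h0 => by
        have h5 := congrArg ser (sub_eq_zero.1 h0).symm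
        obtain ⟨a', b', hb', hab, ht⟩ := hz.transc
        rw [h5, map_one, one_mul] at hab
        have : redO A q a' / redO A q b' = 1 := by
          rw [serO_injective hab.symm, div_self hb']
        exact ht (X - 1) (X_sub_C_ne_zero 1) (by
          rw [eval₂_sub, eval₂_X, eval₂_one, this, sub_self])
      refine mul_right_cancel₀ hne ?_
      rw [mul_assoc, ← pow_succ, h1, eval₂_mul, eval₂_sub, eval₂_X, eval₂_C, map_one, eval₂_neg]
      ring
  obtain ⟨P₂, hP₂⟩ := key b P₁ h1
  obtain ⟨i, u, rfl⟩ := IsDiscreteValuationRing.eq_unit_mul_pow_irreducible hd hC.irreducible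
  rcases eq_or_ne P₂ 0 with rfl | hne
  · refine ⟨a, 0, ?_⟩
    rw [eval₂_zero, mul_eq_zero] at hP₂
    rw [eval₂_zero]
    exact hP₂.resolve_left ((map_ne_zero_iff _ (cF_injective N)).2 hd)
  obtain ⟨k, P₃, hP₃, ⟨⟩, j, hj⟩ := exists_poly_content hC (fun _ : Unit => P₂) ⟨(), hne⟩
  have hle : i ≤ k := by
    by_contra hlt
    obtain ⟨e, he⟩ := Nat.exists_eq_add_of_lt (not_le.1 hlt)
    have h2 := congrArg ser hP₂
    rw [ser_eval₂ hL, map_mul ser, map_mul ser, map_pow ser, ser_cF, ← psO_C, hS, hL, ← map_pow,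
      ← map_mul, ← map_mul, show P₂ = Polynomial.C (ϖ ^ k) * P₃ () from hP₃ (), eval₂_mul, eval₂_C] at h2
    have h3 := psO_injective h2
    rw [he, show k + e + 1 = k + (e + 1) by omega, _root_.pow_add, mul_left_comm, map_mul, map_mul,
      map_pow, mul_assoc] at h3
    have h3' : PowerSeries.C ϖ ^ k * (S * PowerSeries.C (↑u : baseO A (constL A q).toSubfield) *
        PowerSeries.C (ϖ ^ (e + 1)) * L ^ a) = PowerSeries.C ϖ ^ k *
        (P₃ ()).eval₂ PowerSeries.C L := by
      rw [← h3]; ring
    have h4 := congrArg (fun s => redO A q (HahnSeries.ofPowerSeries ℤ _ s))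
      (mul_left_cancel₀ (pow_ne_zero k fun h0 : PowerSeries.C ϖ = 0 => hC.irreducible.ne_zero
        (by simpa using congrArg PowerSeries.constantCoeff h0)) h3')
    simp only [map_mul, map_pow, HahnSeries.ofPowerSeries_C, redO_C, resO_pi hC, map_zero,
      mul_zero, zero_mul, ne_eq, Nat.succ_ne_zero, not_false_eq_true, zero_pow] at h4
    obtain ⟨a', b', hb', hab, ht⟩ := hz.transc
    rw [hL, show psO A q L = serO A q (HahnSeries.ofPowerSeries ℤ _ L) from rfl,
      ← map_mul] at hab
    have hq : redO A q a' / redO A q b' = redO A q (HahnSeries.ofPowerSeries ℤ _ L) := by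
      rw [← serO_injective hab, map_mul, mul_div_cancel_right₀ _ hb']
    refine ht ((P₃ ()).map (resO A q)) (fun h0 => resO_ne_of_isUnit hj ?_) ?_
    · have := congrArg (fun p : Polynomial _ => p.coeff j) h0
      simpa using this
    · rw [hq, eval₂_map, h4, hom_eval₂, hom_eval₂]
      congr 1
      exact RingHom.ext fun c => by
        simp only [RingHom.comp_apply, HahnSeries.ofPowerSeries_C, redO_C]
  obtain ⟨e, rfl⟩ := Nat.exists_eq_add_of_le hle
  refine ⟨a, Polynomial.C (↑u⁻¹ * ϖ ^ e) * P₃ (), ?_⟩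
  refine mul_left_cancel₀ ((map_ne_zero_iff _ (cF_injective N)).2 hd) ?_
  rw [hP₂, show P₂ = Polynomial.C (ϖ ^ (i + e)) * P₃ () from hP₃ (), eval₂_mul, eval₂_mul,
    eval₂_C, eval₂_C, ← mul_assoc, ← map_mul]
  congr 2
  rw [_root_.pow_add]
  linear_combination -(ϖ ^ i * ϖ ^ e) * (Units.mul_inv u)

/-- **Integral conjugate series give integrality over `λ` and `1/λ`.** -/
theorem exists_pow_mul_mem_chartF {x : rN N (constK A q)}
    (hx : ∀ γ ∈ Gamma 2, flAct γ (toFl x) ∈ intSerRing A q N) :
    ∃ M : ℕ, toFl x * toFl (lam hN (constK A q) hζ) ^ M ∈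
      chartF A q (toFl (lam hN (constK A q) hζ)) := by
  classical
  set z := toFl (lam hN (constK A q) hζ)
  haveI := finite_galLvl (N := N) (A := A) (q := q) (ℓ := 2)
  haveI : Fintype (galLvl (N := N) A q 2) := Fintype.ofFinite _
  set S : Subring (flN N (constK A q)) :=
    intSerRing A q N ⊓ (toFl (N := N) (K := constK A q)).range
  have hmem : ∀ g : galLvl (N := N) A q 2, g.1 (toFl x) ∈ S := by
    rintro ⟨_, γ, hγ, rfl⟩
    exact ⟨hx γ⁻¹ (inv_mem hγ), rAct γ⁻¹ x, (flAct_toFl γ⁻¹ x).symm⟩
  set Q : S[X] := ∏ g : galLvl (N := N) A q 2, (X - Polynomial.C (⟨_, hmem g⟩ : S))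
  have hQ : Q.Monic := monic_prod_of_monic _ _ fun g _ => monic_X_sub_C _
  set Q' : (flN N (constK A q))[X] := Q.map S.subtype
  have hQ' : Q' = ∏ g : galLvl (N := N) A q 2, (X - Polynomial.C (g.1 (toFl x))) := by
    simp [Q', Q, Polynomial.map_prod]
  have hfix : ∀ g ∈ galLvl (N := N) A q 2, ∀ j, g (Q'.coeff j) = Q'.coeff j := by
    intro g hg j
    have h1 : Q'.map (g : flN N (constK A q) →+* flN N (constK A q)) = Q' := by
      rw [hQ', Polynomial.map_prod]
      simp only [Polynomial.map_sub, Polynomial.map_X, Polynomial.map_C, RingHom.coe_coe]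
      exact Fintype.prod_equiv (Equiv.mulLeft (⟨g, hg⟩ : galLvl (N := N) A q 2)) _ _
        fun g' => rfl
    conv_rhs => rw [← h1]
    exact (coeff_map (g : flN N (constK A q) →+* flN N (constK A q)) (p := Q') j).symm
  have hcoef : ∀ j, ∃ (a : ℕ) (P : (baseO A (constL A q).toSubfield)[X]),
      Q'.coeff j * z ^ a = P.eval₂ (cF A q N) z := fun j => by
    have hc : Q'.coeff j ∈ S := by rw [coeff_map]; exact (Q.coeff j).2
    obtain ⟨c, hc'⟩ := hc.2
    obtain ⟨a, P, h⟩ := exists_poly_of_invariant hN hζ hC hz hL hL1 (c := c) (fun γ hγ => by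
      refine toFl_injective ?_
      rw [← flAct_toFl, hc']
      have := hfix _ ⟨γ⁻¹, inv_mem hγ, rfl⟩ j
      rwa [show flHom N (constK A q) γ⁻¹ (Q'.coeff j) = flAct γ⁻¹⁻¹ (Q'.coeff j) from rfl,
        inv_inv] at this) (hc' ▸ hc.1)
    exact ⟨a, P, hc' ▸ h⟩
  choose a P hP using hcoef
  set M := (Finset.range Q'.natDegree).sup a
  have hQm : Q'.Monic := hQ.map _
  refine ⟨M, ?_⟩
  have hl : Q'.scaleRoots (z ^ M) ∈ lifts (eval₂RingHom (cF A q N) z) := by
    refine (lifts_iff_coeff_lifts _).2 fun j => ?_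
    rw [coeff_scaleRoots]
    rcases lt_trichotomy j Q'.natDegree with hj | hj | hj
    · have hle : a j ≤ M * (Q'.natDegree - j) := (Finset.le_sup (f := a)
        (Finset.mem_range.2 hj)).trans (Nat.le_mul_of_pos_right _ (Nat.sub_pos_of_lt hj))
      refine ⟨P j * X ^ (M * (Q'.natDegree - j) - a j), ?_⟩
      rw [coe_eval₂RingHom, eval₂_mul, eval₂_X_pow, ← hP j, mul_assoc, ← _root_.pow_add,
        Nat.add_sub_cancel' hle, pow_mul]
    · subst hj
      exact ⟨1, by rw [map_one, Nat.sub_self, pow_zero, mul_one, coeff_natDegree, hQm.leadingCoeff]⟩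
    · exact ⟨0, by rw [map_zero, coeff_eq_zero_of_natDegree_lt hj, zero_mul]⟩
  obtain ⟨R, hR, -, hRm⟩ := lifts_and_degree_eq_and_monic hl ((monic_scaleRoots_iff _).2 hQm)
  refine ⟨R, hRm, ?_⟩
  rw [← eval_map, hR]
  have hroot : Q'.eval₂ (RingHom.id _) (toFl x) = 0 := by
    rw [eval₂_id, hQ', eval_prod]
    exact Finset.prod_eq_zero (Finset.mem_univ 1) (by simp)
  have h := scaleRoots_eval₂_eq_zero (RingHom.id _) (s := z ^ M) hroot
  rwa [eval₂_id, RingHom.id_apply, mul_comm] at h

end FA.Carayol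

end
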