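import Fermat.Agent.Carayol.OddInf.Ints
import Fermat.Agent.Carayol.Count.Chart
import Fermat.Agent.Carayol.OddInf.Integral

/-!
# Roots of unity of level `N = q m` among the integral constants, and their reductions
-/

set_option autoImplicit false
set_option linter.unusedSectionVars false
set_option linter.style.haveILetI false

noncomputable section

namespace FA.Carayol

open CongruenceSubgroup ModularCurve FA.Level FA.Mazur.Wp
open scoped MatrixGroups

local notation "Qb" => AlgebraicClosure ℚ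

variable [Algebra Qb ℂ] {A : ValuationSubring Qb} {q : ℕ} {N : ℕ} [NeZero N]
  (hζ : ∀ b : ℤ, eta N b ∈ constK A q)

/-- A root of unity of level `N`. -/
def etaOI (b : ℤ) : baseO A (constL A q).toSubfield := (eta_mem_intK hζ b).1.choose

theorem baseK_etaOI (b : ℤ) : baseK A q (etaOI hζ b) = ⟨eta N b, hζ b⟩ :=
  (eta_mem_intK hζ b).1.choose_spec

theorem etaOI_zero : etaOI hζ 0 = 1 := baseK_injective (by
  rw [baseK_etaOI, map_one]
  exact Subtype.ext (by simp [eta]))

theorem etaOI_add (a b : ℤ) : etaOI hζ (a + b) = etaOI hζ a * etaOI hζ b := baseK_injective (by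
  rw [baseK_etaOI, map_mul, baseK_etaOI, baseK_etaOI]
  refine Subtype.ext ?_
  show eta N (a + b) = eta N a * eta N b
  rw [eta, eta, eta, ← Complex.exp_add, Int.cast_add, mul_add, add_div])

theorem etaO_neg_mul (b : ℤ) : etaOI hζ (-b) * etaOI hζ b = 1 := by
  rw [← etaOI_add, neg_add_cancel, etaOI_zero]

theorem isUnit_etaOI (b : ℤ) : IsUnit (etaOI hζ b) :=
  IsUnit.of_mul_eq_one_right _ (etaO_neg_mul hζ b)

theorem baseK_etaO_inv (b : ℤ) :
    baseK A q (etaOI hζ (-b)) = (⟨eta N b, hζ b⟩ : constK A q)⁻¹ := by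
  refine eq_inv_of_mul_eq_one_left ?_
  rw [← baseK_etaOI hζ b, ← map_mul, etaO_neg_mul, map_one]

theorem etaO_mul_nat (b : ℤ) (k : ℕ) : etaOI hζ (b * k) = etaOI hζ b ^ k := by
  induction k with
  | zero => rw [Nat.cast_zero, mul_zero, pow_zero, etaOI_zero]
  | succ k ih => rw [Nat.cast_succ, mul_add, mul_one, etaOI_add, ih, pow_succ]

theorem etaO_eq_one_iff (b : ℤ) : etaOI hζ b = 1 ↔ (N : ℤ) ∣ b := by
  constructor
  · intro h
    have h1 : eta N b = 1 := by
      have := congrArg (baseK A q) h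
      rw [baseK_etaOI, map_one] at this
      exact congrArg Subtype.val this
    obtain ⟨k, hk⟩ := Complex.exp_eq_one_iff.1 h1
    refine ⟨k, ?_⟩
    have hN : (N : ℂ) ≠ 0 := Nat.cast_ne_zero.mpr (NeZero.ne N)
    rw [tpi, div_eq_iff hN] at hk
    have hpi : (2 * Real.pi * Complex.I : ℂ) ≠ 0 := by
      simp [Real.pi_ne_zero, Complex.I_ne_zero]
    have h2 : ((b : ℤ) : ℂ) = (((N : ℤ) * k : ℤ) : ℂ) := by
      push_cast
      refine mul_left_cancel₀ hpi ?_
      linear_combination hk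
    exact_mod_cast h2
  · rintro ⟨k, rfl⟩
    refine baseK_injective ?_
    rw [baseK_etaOI, map_one]
    refine Subtype.ext ?_
    show eta N ((N : ℤ) * k) = 1
    rw [← zero_add ((N : ℤ) * k), eta_add_mul]
    simp [eta]

variable [hq : Fact q.Prime] (hA : A.LiesOverPrime q) {m : ℕ} (hNm : N = q * m) (hqm : ¬ q ∣ m)
include hA hNm hqm

/-- **The reduction of a root of unity is one only for multiples of `m`.** -/
theorem resO_etaO_eq_one_iff (b : ℤ) : resO A q (etaOI hζ b) = 1 ↔ (m : ℤ) ∣ b := by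
  haveI := charP_resField (q := q) hA
  constructor
  · intro h
    have hq0 : (q : ℤ) ≠ 0 := by exact_mod_cast hq.out.ne_zero
    by_contra hne
    set c := etaOI hζ (b * q) with hc
    have hc1 : c ≠ 1 := fun h1 => hne (by
      rw [etaO_eq_one_iff, hNm, Nat.cast_mul, mul_comm (q : ℤ) (m : ℤ)] at h1
      exact Int.dvd_of_mul_dvd_mul_right hq0 h1)
    have hcm : c ^ m = 1 := by
      rw [hc, ← etaO_mul_nat, etaO_eq_one_iff]
      exact ⟨b, by rw [hNm]; push_cast; ring⟩
    have hsum : ∑ i ∈ Finset.range m, c ^ i = 0 := by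
      have := geom_sum_mul c m
      rw [hcm, sub_self] at this
      exact (mul_eq_zero.1 this).resolve_right (sub_ne_zero.2 hc1)
    have h2 := congrArg (resO A q) hsum
    rw [map_sum, map_zero] at h2
    simp only [map_pow, hc, etaO_mul_nat, h, one_pow, Finset.sum_const, Finset.card_range,
      nsmul_one] at h2
    exact hqm ((CharP.cast_eq_zero_iff (IsLocalRing.ResidueField A) q m).1 h2)
  · rintro ⟨k, rfl⟩
    have h1 : etaOI hζ ((m : ℤ) * k) ^ q = 1 := by
      rw [← etaO_mul_nat, etaO_eq_one_iff]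
      exact ⟨k, by rw [hNm]; push_cast; ring⟩
    have h2 := congrArg (resO A q) h1
    rw [map_pow, map_one] at h2
    refine frobenius_inj (IsLocalRing.ResidueField A) q ?_
    rw [frobenius_def, frobenius_def, h2, one_pow]

theorem resO_etaO_congr {a b : ℤ} (h : (m : ℤ) ∣ a - b) :
    resO A q (etaOI hζ a) = resO A q (etaOI hζ b) := by
  rw [show a = (a - b) + b by ring, etaOI_add, map_mul,
    (resO_etaO_eq_one_iff hζ hA hNm hqm _).2 h, one_mul]

variable {ϖ : baseO A (constL A q).toSubfield} (hC : ConstHyp A (constL A q).toSubfield ϖ)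
include hC

theorem isUnit_of_resO_nezero {c : baseO A (constL A q).toSubfield} (h : resO A q c ≠ 0) :
    IsUnit c := by
  haveI := hC.dvr
  by_contra hu
  have hm : c ∈ IsLocalRing.maximalIdeal (baseO A (constL A q).toSubfield) :=
    (IsLocalRing.mem_maximalIdeal _).2 hu
  rw [hC.irreducible.maximalIdeal_eq, Ideal.mem_span_singleton] at hm
  exact h ((pi_dvd_iff hC).1 hm)

theorem isUnit_one_sub_etaO {b : ℤ} (h : ¬ (m : ℤ) ∣ b) : IsUnit (1 - etaOI hζ b) :=
  isUnit_of_resO_nezero hA hNm hqm hC (by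
    rw [map_sub, map_one, sub_ne_zero]
    exact fun e => h ((resO_etaO_eq_one_iff hζ hA hNm hqm b).1 e.symm))

variable (hϖv : A.valuation ((ϖ : Qb)) ^ (q - 1) = A.valuation (q : Qb))
include hϖv

/-- **`1 - η ^ m` is a uniformiser.** -/
theorem exists_one_sub_etaO : ∃ τ : baseO A (constL A q).toSubfield,
    1 - etaOI hζ m = ϖ * τ ∧ resO A q τ ≠ 0 := by
  set c := etaOI hζ (m : ℤ) with hc
  have h1 : c ^ q = 1 := by
    rw [hc, ← etaO_mul_nat, etaO_eq_one_iff]
    exact ⟨1, by rw [hNm]; push_cast; ring⟩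
  have hne : c ≠ 1 := by
    rw [hc, Ne, etaO_eq_one_iff, hNm]
    intro hd
    have hm0 : 0 < m := Nat.pos_of_ne_zero fun h0 => NeZero.ne N (by rw [hNm, h0, mul_zero])
    have := Nat.le_of_dvd hm0 (Int.natCast_dvd_natCast.1 hd)
    have := hq.out.two_le
    nlinarith
  have hp : IsPrimitiveRoot (c : Qb) q := by
    refine IsPrimitiveRoot.iff_def _ _ |>.2 ⟨?_, fun l hl => ?_⟩
    · exact congrArg Subtype.val h1
    · have hl' : c ^ l = 1 := Subtype.ext hl
      exact orderOf_eq_prime h1 hne ▸ orderOf_dvd_of_pow_eq_one hl'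
  have hv : A.valuation (1 - (c : Qb)) = A.valuation (ϖ : Qb) := by
    refine (pow_left_inj₀ zero_le zero_le (by have := hq.out.two_le; omega : q - 1 ≠ 0)).1 ?_
    rw [hϖv, FA.LocalDef.pow_map_one_sub A.valuation hq.out hp]
  obtain ⟨τ, hτ⟩ : ϖ ∣ 1 - c := (pi_dvd_iff hC).2 (by
    rw [map_sub, map_one, hc, (resO_etaO_eq_one_iff hζ hA hNm hqm _).2 dvd_rfl, sub_self])
  refine ⟨τ, hτ, fun h0 => ?_⟩
  have h2 : A.valuation (1 - (c : Qb)) = A.valuation (ϖ : Qb) * A.valuation (τ : Qb) := by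
    rw [← map_mul]
    exact congrArg (fun x : baseO A (constL A q).toSubfield => A.valuation (x : Qb)) hτ
  have hϖ0 : A.valuation (ϖ : Qb) ≠ 0 := (Valuation.ne_zero_iff _).2 fun e =>
    hC.irreducible.ne_zero (Subtype.ext e)
  rw [hv] at h2
  have h3 : A.valuation (τ : Qb) = 1 :=
    mul_left_cancel₀ hϖ0 (by rw [mul_one, ← h2])
  have h4 : A.valuation (τ : Qb) < 1 :=
    (A.valuation_lt_one_iff ⟨τ, τ.2.1⟩).1 ((IsLocalRing.residue_eq_zero_iff _).1 h0)
  exact h4.ne h3

end FA.Carayol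

end
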