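import Fermat.Agent.Carayol.OddInf.CuspRoots
import Fermat.Agent.Carayol.Curve.Field
import Fermat.Agent.Carayol.Field.Conj

/-!
# Integral series of the abscissae at infinity and their reductions, `N = 4 g = q m`
-/

set_option autoImplicit false
set_option linter.unusedSectionVars false
set_option linter.style.haveILetI false

noncomputable section

namespace FA.Carayol

open CongruenceSubgroup ModularCurve FA.Level FA.Mazur.Wp
open scoped MatrixGroups

local notation "Qb" => AlgebraicClosure ℚ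

/-- The coefficients of positive degree of `xSer`. -/
def xPos {R : Type*} [CommRing R] (p : ℕ) (a : ℤ) (u w : R) : PowerSeries R :=
  PowerSeries.mk fun n => if n = 0 then 0 else ∑ x ∈ Nat.divisorsAntidiagonal n, (x.1 : R) *
    ((if (p : ℤ) ∣ (x.2 : ℤ) - a then u ^ x.1 else 0) +
      (if (p : ℤ) ∣ (x.2 : ℤ) + a then w ^ x.1 else 0) -
      (if (p : ℤ) ∣ (x.2 : ℤ) then 2 else 0))

theorem map_xPos {R S : Type*} [CommRing R] [CommRing S] (f : R →+* S) (p : ℕ) (a : ℤ) (u w : R) :
    PowerSeries.map f (xPos p a u w) = xPos p a (f u) (f w) := by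
  ext n
  simp [xPos, apply_ite f, map_sum, map_ofNat]

theorem xPos_congr {R : Type*} [CommRing R] {p : ℕ} {a a' : ℤ} (h : (p : ℤ) ∣ a - a') (u w : R) :
    xPos p a u w = xPos p a' u w := by
  ext n
  have e1 : ∀ x : ℤ, (p : ℤ) ∣ x - a ↔ (p : ℤ) ∣ x - a' := fun x => by
    rw [show x - a' = (x - a) + (a - a') by ring]; exact (dvd_add_left h).symm
  have e2 : ∀ x : ℤ, (p : ℤ) ∣ x + a ↔ (p : ℤ) ∣ x + a' := fun x => by
    rw [show x + a = (x + a') + (a - a') by ring]; exact dvd_add_left h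
  simp [xPos, e1, e2]

theorem constantCoeff_xPos {R : Type*} [CommRing R] (p : ℕ) (a : ℤ) (u w : R) :
    PowerSeries.constantCoeff (xPos p a u w) = 0 := by
  rw [← PowerSeries.coeff_zero_eq_constantCoeff_apply, xPos, PowerSeries.coeff_mk, if_pos rfl]

variable [Algebra Qb ℂ] {A : ValuationSubring Qb} {q : ℕ} {N g : ℕ} [NeZero N]
  (hN : N = 4 * g) (hζ : ∀ b : ℤ, eta N b ∈ constK A q)

/-- The positive part of the series of an abscissa. -/
def posO (v : ℤ × ℤ) : PowerSeries (baseO A (constL A q).toSubfield) :=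
  xPos N v.1 (etaOI hζ v.2) (etaOI hζ (-v.2))

/-- The constant term of the series of an abscissa, without `1 / 12`. -/
def geoO (v : ℤ × ℤ) : baseO A (constL A q).toSubfield :=
  if (N : ℤ) ∣ v.1 then etaOI hζ v.2 * Ring.inverse (1 - etaOI hζ v.2) ^ 2 else 0

theorem xI_eq (v : ℤ × ℤ) : xI hζ v = PowerSeries.map (baseK A q) (posO hζ v) +
    PowerSeries.C (PowerSeries.coeff 0 (xI hζ v)) := by
  rw [posO, map_xPos, baseK_etaOI, baseK_etaO_inv]
  ext n
  cases n with
  | zero => simp [xPos]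
  | succ n =>
    rw [coeff_xI_succ, map_add, PowerSeries.coeff_C, if_neg (Nat.succ_ne_zero n), add_zero, xPos,
      PowerSeries.coeff_mk, if_neg (Nat.succ_ne_zero n), xCoeff]

/-- A power series inverse to the denominator of the abscissae. -/
def IsDen (cD : PowerSeries (baseO A (constL A q).toSubfield)) : Prop :=
  psO A q cD = (xK (constK A q) hζ (tA (2 * g)) - xK (constK A q) hζ (tB (2 * g)))⁻¹

variable [hq : Fact q.Prime]

include hN in
theorem exists_isDen (hA : A.LiesOverPrime q) (hq2 : q ≠ 2) :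
    ∃ cD, IsDen (g := g) hζ cD := by
  obtain ⟨u, hu⟩ := (isUnit_four (q := q) hA hq2).exists_right_inv
  obtain ⟨c, hc⟩ := exists_den_inv (intK A q) hζ (two_g hN) ⟨u, eq_inv_of_mul_eq_one_right (by
    rw [← map_ofNat (baseK A q) 4, ← map_mul, hu, map_one])⟩
  choose f hf using fun n => (PowerSeries.coeff n c).2
  refine ⟨PowerSeries.mk f, ?_⟩
  rw [IsDen, hc]
  show serO A q _ = _
  rw [serO, coeffMap_ofPowerSeries]
  congr 1
  ext n
  simp [hf]

include hN in
theorem constantCoeff_den {cD : PowerSeries (baseO A (constL A q).toSubfield)}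
    (hD : IsDen (g := g) hζ cD) : PowerSeries.constantCoeff cD = 4 := by
  have h0 : PowerSeries.coeff 0 (xI hζ (tA (2 * g)) - xI hζ (tB (2 * g))) = (4 : constK A q)⁻¹ :=
    coeff_den_zero hζ (two_g hN)
  have hne : xK (constK A q) hζ (tA (2 * g)) - xK (constK A q) hζ (tB (2 * g)) ≠ 0 := fun e => by
    rw [xK_sub_xK_ints, map_eq_zero_iff _ HahnSeries.ofPowerSeries_injective] at e
    rw [e, map_zero] at h0
    norm_num at h0
  have hps : psO A q cD =
      HahnSeries.ofPowerSeries ℤ _ (PowerSeries.map (baseK A q) cD) := by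
    show serO A q _ = _
    rw [serO, coeffMap_ofPowerSeries]
  have h1 : PowerSeries.map (baseK A q) cD * (xI hζ (tA (2 * g)) - xI hζ (tB (2 * g))) = 1 := by
    refine HahnSeries.ofPowerSeries_injective (Γ := ℤ) ?_
    rw [map_mul, map_one, ← hps, hD, ← xK_sub_xK_ints, inv_mul_cancel₀ hne]
  have h2 := congrArg (PowerSeries.coeff 0) h1
  rw [PowerSeries.coeff_zero_eq_constantCoeff, map_mul, map_one,
    ← PowerSeries.coeff_zero_eq_constantCoeff, h0, PowerSeries.coeff_map,
    PowerSeries.coeff_zero_eq_constantCoeff] at h2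
  refine baseK_injective ?_
  rw [map_ofNat]
  have := eq_inv_of_mul_eq_one_left h2
  rwa [inv_inv] at this

include hN in
theorem xI_coeff_zero_tB : PowerSeries.coeff 0 (xI hζ (tB (2 * g))) = -(4 : constK A q)⁻¹ := by
  rw [coeff_xI_zero, if_pos (show (N : ℤ) ∣ (tB (2 * g)).1 from dvd_zero _),
    show (⟨eta N (tB (2 * g)).2, hζ _⟩ : constK A q) = -1 from
      Subtype.ext (by simp only [tB]; rw [eta_half (two_g hN)]; rfl)]
  norm_num

/-- The series of a scaled abscissa. -/
theorem ser_scaled_xF (hA : A.LiesOverPrime q) (hq2 : q ≠ 2) {v : ℤ × ℤ} (hv : IsVec N v)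
    {cD : PowerSeries (baseO A (constL A q).toSubfield)} (hD : IsDen (g := g) hζ cD)
    {s G : baseO A (constL A q).toSubfield}
    (hG : baseK A q G = baseK A q s * PowerSeries.coeff 0 (xI hζ v)) :
    ser (cF A q N s * xF hN hζ v) = psO A q ((PowerSeries.C s * (posO hζ v -
      posO hζ (tB (2 * g))) + PowerSeries.C (G + s * Ring.inverse 4)) * cD) := by
  have hps : ∀ P : PowerSeries (baseO A (constL A q).toSubfield), psO A q P =
      HahnSeries.ofPowerSeries ℤ _ (PowerSeries.map (baseK A q) P) := fun P => by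
    show serO A q _ = _
    rw [serO, coeffMap_ofPowerSeries]
  rw [map_mul, map_mul, ser_cF, xF_of_isVec hN hζ hv,
    show ∀ f : rN N (constK A q), ser (toFl f) = rSer f from ser_rMer, xR, xv, rSer_ratHol,
    ← hD, ← mul_assoc]
  congr 1
  rw [xK_sub_xK_ints, hps, ← HahnSeries.ofPowerSeries_C, ← map_mul]
  congr 1
  have e1 := xI_eq hζ v
  have e2 := xI_eq hζ (tB (2 * g))
  rw [xI_coeff_zero_tB hN hζ] at e2
  generalize PowerSeries.coeff 0 (xI hζ v) = c at hG e1
  rw [map_add, map_mul, map_sub, PowerSeries.map_C, PowerSeries.map_C, map_add, map_mul, hG,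
    e1, e2,
    show baseK A q (Ring.inverse 4) = (4 : constK A q)⁻¹ from eq_inv_of_mul_eq_one_right (by
      rw [← map_ofNat (baseK A q) 4, ← map_mul,
        Ring.mul_inverse_cancel _ (isUnit_four hA hq2), map_one])]
  simp only [map_add, map_mul, map_neg]
  ring

variable {m : ℕ} (hA : A.LiesOverPrime q) (hNm : N = q * m) (hqm : ¬ q ∣ m)
  {ϖ : baseO A (constL A q).toSubfield} (hC : ConstHyp A (constL A q).toSubfield ϖ)
include hA hNm hqm hC

/-- The vectors whose abscissa is integral at infinity. -/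
def GenVec (N m : ℕ) (v : ℤ × ℤ) : Prop := ¬ (N : ℤ) ∣ v.1 ∨ ¬ (m : ℤ) ∣ v.2

omit hA hqm hC in
theorem GenVec.isVec {v : ℤ × ℤ} (h : GenVec N m v) : IsVec N v := fun hd => by
  rcases h with h | h
  · exact h hd.1
  · exact h ((show (m : ℤ) ∣ (N : ℤ) from ⟨q, by rw [hNm]; push_cast; ring⟩).trans hd.2)

theorem baseK_geoO {v : ℤ × ℤ} (h : GenVec N m v) :
    baseK A q (geoO hζ v) = PowerSeries.coeff 0 (xI hζ v) := by
  rw [coeff_xI_zero, geoO]
  by_cases h1 : (N : ℤ) ∣ v.1
  · rw [if_pos h1, if_pos h1, map_mul, map_pow, baseK_etaOI, div_eq_mul_inv, ← inv_pow]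
    congr 2
    refine eq_inv_of_mul_eq_one_right ?_
    rw [← baseK_etaOI, ← map_one (baseK A q), ← map_sub, ← map_mul,
      Ring.mul_inverse_cancel _ (isUnit_one_sub_etaO hζ hA hNm hqm hC (h.resolve_left (not_not_intro h1))),
      map_one]
  · rw [if_neg h1, if_neg h1, map_zero]

/-- The reduced constant term. -/
theorem resO_geoO {v : ℤ × ℤ} (h : GenVec N m v) : resO A q (geoO hζ v) =
    if (N : ℤ) ∣ v.1 then resO A q (etaOI hζ v.2) / (1 - resO A q (etaOI hζ v.2)) ^ 2 else 0 := by
  rw [geoO]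
  by_cases h1 : (N : ℤ) ∣ v.1
  · rw [if_pos h1, if_pos h1, map_mul, map_pow, div_eq_mul_inv, ← inv_pow]
    congr 2
    refine eq_inv_of_mul_eq_one_right ?_
    rw [← map_one (resO A q), ← map_sub, ← map_mul,
      Ring.mul_inverse_cancel _ (isUnit_one_sub_etaO hζ hA hNm hqm hC (h.resolve_left (not_not_intro h1))),
      map_one]
  · rw [if_neg h1, if_neg h1, map_zero]

/-- The series of an abscissa which is integral at infinity. -/
def serX (cD : PowerSeries (baseO A (constL A q).toSubfield)) (g : ℕ) (v : ℤ × ℤ) :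
    PowerSeries (baseO A (constL A q).toSubfield) :=
  (posO hζ v - posO hζ (tB (2 * g)) + PowerSeries.C (geoO hζ v + Ring.inverse 4)) * cD

variable (hq2 : q ≠ 2) {cD : PowerSeries (baseO A (constL A q).toSubfield)}
  (hD : IsDen (g := g) hζ cD)
include hN hq2 hD

theorem ser_xF {v : ℤ × ℤ} (h : GenVec N m v) :
    ser (xF hN hζ v) = psO A q (serX hζ cD g v) := by
  have := ser_scaled_xF hN hζ hA hq2 (GenVec.isVec hNm h) hD (s := 1) (G := geoO hζ v)
    (by rw [map_one, one_mul, baseK_geoO hζ hA hNm hqm hC h])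
  simpa [serX] using this

omit hq2 hD in
/-- Congruent vectors have congruent series. -/
theorem map_serX_congr {v w : ℤ × ℤ} (hv : GenVec N m v) (h1 : (N : ℤ) ∣ v.1 - w.1)
    (h2 : (m : ℤ) ∣ v.2 - w.2) :
    PowerSeries.map (resO A q) (serX hζ cD g v) = PowerSeries.map (resO A q) (serX hζ cD g w) := by
  have hw : GenVec N m w := hv.imp (fun hn hd => hn (by simpa using dvd_add h1 hd))
    fun hn hd => hn (by simpa using dvd_add h2 hd)
  have e1 := resO_etaO_congr hζ hA hNm hqm h2
  have e2 := resO_etaO_congr hζ hA hNm hqm (a := -v.2) (b := -w.2)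
    (by rw [neg_sub_neg, ← dvd_neg, neg_sub]; exact h2)
  have e3 : (N : ℤ) ∣ v.1 ↔ (N : ℤ) ∣ w.1 :=
    ⟨fun hd => by simpa using dvd_sub hd h1, fun hd => by simpa using dvd_add h1 hd⟩
  simp only [serX, map_mul, map_add, map_sub, PowerSeries.map_C,
    resO_geoO hζ hA hNm hqm hC hv, resO_geoO hζ hA hNm hqm hC hw, posO, map_xPos, e1, e2,
    xPos_congr h1, e3]

/-- The reduced constant term of the series. -/
theorem resO_const_serX {v : ℤ × ℤ} (h : GenVec N m v) :
    resO A q (PowerSeries.constantCoeff (serX hζ cD g v)) =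
      if (N : ℤ) ∣ v.1 then ((1 + resO A q (etaOI hζ v.2)) / (1 - resO A q (etaOI hζ v.2))) ^ 2
      else 1 := by
  have h4 : resO A q (Ring.inverse 4) * 4 = 1 := by
    rw [← map_ofNat (resO A q) 4, ← map_mul,
      Ring.inverse_mul_cancel _ (isUnit_four hA hq2), map_one]
  simp only [serX, posO, map_mul, map_add, map_sub, constantCoeff_xPos, sub_zero, zero_add,
    map_zero, PowerSeries.constantCoeff_C, constantCoeff_den hN hζ hD, map_ofNat,
    resO_geoO hζ hA hNm hqm hC h]
  by_cases h1 : (N : ℤ) ∣ v.1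
  · rw [if_pos h1, if_pos h1]
    have hne : (1 : IsLocalRing.ResidueField A) - resO A q (etaOI hζ v.2) ≠ 0 := by
      rw [sub_ne_zero]
      exact fun e => (h.resolve_left (not_not_intro h1))
        ((resO_etaO_eq_one_iff hζ hA hNm hqm _).1 e.symm)
    rw [add_mul, h4]
    field_simp
    ring
  · rw [if_neg h1, if_neg h1, zero_add, h4]

end FA.Carayol

end
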