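import Fermat.Agent.Carayol.OddInf.Units

/-!
# An odd prime: the values at infinity of `dF` and of the abscissa of `(0, m)`
-/

set_option autoImplicit false
set_option linter.unusedSectionVars false
set_option linter.style.haveILetI false

noncomputable section

namespace FA.Carayol

open CongruenceSubgroup HahnSeries ModularCurve FA.Level FA.ModField FA.Mazur.Wp
open scoped MatrixGroups

local notation "Qb" => AlgebraicClosure ℚ

variable [Algebra Qb ℂ] {A : ValuationSubring Qb} {q : ℕ} [hq : Fact q.Prime] {N g : ℕ} [NeZero N]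
  (hN : N = 4 * g) (hζ : ∀ b : ℤ, eta N b ∈ constK A q)
  (hA : A.LiesOverPrime q) (hq2 : q ≠ 2)
  {ϖ : baseO A (constL A q).toSubfield} {z : flN N (constK A q)} {ℓ : ℕ}
  (hz : Coord A q ℓ z) (hC : ConstHyp A (constL A q).toSubfield ϖ)

include hN in
theorem coeff_xI_half_top :
    PowerSeries.coeff (2 * g) (xI hζ (tA (2 * g))) = 2 ∧
      PowerSeries.coeff (2 * g) (xI hζ (tC (2 * g))) = -2 ∧
      PowerSeries.coeff 0 (xI hζ (tA (2 * g))) = 0 ∧
      PowerSeries.coeff 0 (xI hζ (tC (2 * g))) = 0 ∧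
      PowerSeries.coeff 0 (xI hζ (tB (2 * g))) = -(4 : constK A q)⁻¹ := by
  have hg := g_pos hN
  have h2 := two_g hN
  have e1 : (⟨eta N ((2 * g : ℕ) : ℤ), hζ _⟩ : constK A q) = -1 :=
    Subtype.ext (by simpa using eta_half h2)
  have e0 : (⟨eta N 0, hζ 0⟩ : constK A q) = 1 := Subtype.ext (by simp [eta_zero' h2])
  have hsucc : ∀ v : ℤ × ℤ, PowerSeries.coeff (2 * g) (xI hζ v) =
      xCoeff N v.1 (⟨eta N v.2, hζ v.2⟩ : constK A q) (2 * g) := fun v => by
    obtain ⟨k, hk⟩ : ∃ k, 2 * g = k + 1 := ⟨2 * g - 1, by omega⟩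
    rw [hk, coeff_xI_succ]
  refine ⟨?_, ?_, ?_, ?_, ?_⟩
  · rw [hsucc]
    simp only [tA]
    rw [e0, xCoeff_half h2 (constK A q) (le_refl (2 * g)), if_neg (by omega), if_pos rfl]
    norm_num
  · rw [hsucc]
    simp only [tC]
    rw [e1, xCoeff_half h2 (constK A q) (le_refl (2 * g)), if_neg (by omega), if_pos rfl]
    norm_num
  · rw [coeff_xI_zero, if_neg (show ¬ (N : ℤ) ∣ (tA (2 * g)).1 from not_dvd_half h2)]
  · rw [coeff_xI_zero, if_neg (show ¬ (N : ℤ) ∣ (tC (2 * g)).1 from not_dvd_half h2)]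
  · rw [coeff_xI_zero, if_pos (show (N : ℤ) ∣ (tB (2 * g)).1 from dvd_zero _)]
    simp only [tB]
    rw [e1]
    norm_num

include hN hA hq2 in
theorem inftyVal_cubic_g {a s : ℤ} (ha : a = 0 ∨ a = ((2 * g : ℕ) : ℤ)) (hs : ¬ 2 ∣ s) :
    (inftyVal hz hC).valuation (xF hN hζ (a, (g : ℤ) * s) * (xF hN hζ (a, (g : ℤ) * s) - 1) *
      (xF hN hζ (a, (g : ℤ) * s) - lamF hN hζ)) = 1 := by
  set v : ℤ × ℤ := (a, (g : ℤ) * s) with hv
  have hvec : IsVec N v := fun hd => not_dvd_g hN (k := s)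
    (fun h4 => hs (dvd_trans (by norm_num) h4)) hd.2
  obtain ⟨c1, c2, c3⟩ := coeff_xI_g hN hζ hs
  obtain ⟨dA, dC, dA0, dC0, dB0⟩ := coeff_xI_half_top hN hζ
  obtain ⟨u, hu, hu'⟩ := exists_quarter (q := q) hA hq2
  have hu2 : IsUnit (2 : baseO A (constL A q).toSubfield) := by
    simpa using isUnit_natCast_base (q := q) hA (n := 2)
      (fun h => hq2 ((Nat.prime_dvd_prime_iff_eq hq.out Nat.prime_two).1 h))
  have hint : ∀ n, PowerSeries.coeff n (xI hζ v) ∈ intK A q := fun n => by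
    refine coeff_xI_mem _ hζ (eta_mem_intK hζ v.2).1 (eta_mem_intK hζ v.2).2 ?_ n
    rcases ha with rfl | rfl
    · rw [c1]; exact neg_mem (mul_mem ⟨2, map_ofNat _ 2⟩ (quarter_mem hA hq2))
    · rw [c2]; exact zero_mem _
  have hsub : ∀ P, (P = tA (2 * g) ∨ P = tB (2 * g) ∨ P = tC (2 * g)) → ∀ n,
      PowerSeries.coeff n (xI hζ v - xI hζ P) ∈ intK A q := fun P hP n => by
    rw [map_sub]; exact sub_mem (hint n) (coeff_xI_half_int hN hζ hA hq2 hP n)
  rw [map_mul, map_mul]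
  have r1 : (inftyVal hz hC).valuation (xF hN hζ v) = 1 := by
    rcases ha with rfl | rfl
    · exact inftyVal_ratio_eq_one hN hζ hA hq2 hz hC (hsub _ (Or.inr (Or.inl rfl)))
        (by rw [← xK_sub_xK_ints]; exact (ser_xF_mul hN hζ hvec).1)
        (n := 0) (u := -u) (resO_ne_of_isUnit hu.neg)
        (by rw [map_sub, c1, dB0, map_neg, hu']; ring)
    · exact inftyVal_ratio_eq_one hN hζ hA hq2 hz hC (hsub _ (Or.inr (Or.inl rfl)))
        (by rw [← xK_sub_xK_ints]; exact (ser_xF_mul hN hζ hvec).1)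
        (n := 0) (u := u) (resO_ne_of_isUnit hu)
        (by rw [map_sub, c2, dB0, hu']; ring)
  have r2 : (inftyVal hz hC).valuation (xF hN hζ v - 1) = 1 := by
    rcases ha with rfl | rfl
    · exact inftyVal_ratio_eq_one hN hζ hA hq2 hz hC (hsub _ (Or.inl rfl))
        (by rw [← xK_sub_xK_ints]; exact (ser_xF_mul hN hζ hvec).2.1)
        (n := 0) (u := -(2 * u)) (resO_ne_of_isUnit (hu2.mul hu).neg)
        (by rw [map_sub, c1, dA0, map_neg, map_mul, map_ofNat, hu']; ring)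
    · exact inftyVal_ratio_eq_one hN hζ hA hq2 hz hC (hsub _ (Or.inl rfl))
        (by rw [← xK_sub_xK_ints]; exact (ser_xF_mul hN hζ hvec).2.1)
        (n := 2 * g) (u := -2) (resO_ne_of_isUnit hu2.neg)
        (by rw [map_sub, c3, dA, map_neg, map_ofNat]; ring)
  have r3 : (inftyVal hz hC).valuation (xF hN hζ v - lamF hN hζ) = 1 := by
    rcases ha with rfl | rfl
    · exact inftyVal_ratio_eq_one hN hζ hA hq2 hz hC (hsub _ (Or.inr (Or.inr rfl)))
        (by rw [← xK_sub_xK_ints]; exact (ser_xF_mul hN hζ hvec).2.2)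
        (n := 0) (u := -(2 * u)) (resO_ne_of_isUnit (hu2.mul hu).neg)
        (by rw [map_sub, c1, dC0, map_neg, map_mul, map_ofNat, hu']; ring)
    · exact inftyVal_ratio_eq_one hN hζ hA hq2 hz hC (hsub _ (Or.inr (Or.inr rfl)))
        (by rw [← xK_sub_xK_ints]; exact (ser_xF_mul hN hζ hvec).2.2)
        (n := 2 * g) (u := 2) (resO_ne_of_isUnit hu2)
        (by rw [map_sub, c3, dC, map_ofNat]; ring)
  rw [r1, r2, r3, one_mul, one_mul]

include hN hA hq2 in
/-- **The values of `dF` at the translates are units.** -/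
theorem inftyVal_dF_translate {γ : SL(2, ℤ)} (hγ : γ ∈ Gamma 2) :
    (inftyVal hz hC).valuation (xF hN hζ (vmul (qV g) γ) * (xF hN hζ (vmul (qV g) γ) - 1) *
      (xF hN hζ (vmul (qV g) γ) - lamF hN hζ)) = 1 := by
  rw [Gamma_mem] at hγ
  obtain ⟨t, ht⟩ := (ZMod.intCast_zmod_eq_zero_iff_dvd _ 2).mp hγ.2.2.1
  have hs : ¬ (2 : ℤ) ∣ γ 1 1 := fun hd => by
    have h1 := (ZMod.intCast_zmod_eq_zero_iff_dvd (γ 1 1) 2).mpr hd
    rw [hγ.2.2.2] at h1
    exact one_ne_zero h1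
  rcases Int.even_or_odd' t with ⟨k, rfl | rfl⟩
  · rw [show xF hN hζ (vmul (qV g) γ) = xF hN hζ ((0 : ℤ), (g : ℤ) * γ 1 1) from
      xF_congr hN hζ (not_not.2 ⟨⟨k, by
        simp only [vmul, qV, Prod.fst_sub, ht]; rw [hN]; push_cast; ring⟩,
        ⟨0, by simp [vmul, qV]⟩⟩)]
    exact inftyVal_cubic_g hN hζ hA hq2 hz hC (Or.inl rfl) hs
  · rw [show xF hN hζ (vmul (qV g) γ) = xF hN hζ (((2 * g : ℕ) : ℤ), (g : ℤ) * γ 1 1) from
      xF_congr hN hζ (not_not.2 ⟨⟨k, by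
        simp only [vmul, qV, Prod.fst_sub, ht]; rw [hN]; push_cast; ring⟩,
        ⟨0, by simp [vmul, qV]⟩⟩)]
    exact inftyVal_cubic_g hN hζ hA hq2 hz hC (Or.inr rfl) hs

/-- An element of valuation one is a unit among the integral constants. -/
theorem isUnit_base_of_val {u : baseO A (constL A q).toSubfield}
    (hu : A.valuation (u : Qb) = 1) : IsUnit u := by
  have hu0 : (u : Qb) ≠ 0 := A.valuation.ne_zero_iff.mp (by rw [hu]; exact one_ne_zero)
  refine isUnit_iff_exists_inv.2 ⟨⟨(u : Qb)⁻¹, (A.valuation_le_one_iff _).1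
    (by rw [map_inv₀, hu, inv_one]), (constL A q).toSubfield.inv_mem u.2.2⟩, Subtype.ext ?_⟩
  exact mul_inv_cancel₀ hu0

variable {m : ℕ} (hm : N = q * m) (hϖ : A.valuation ((ϖ : Qb)) ^ (q - 1) = A.valuation (q : Qb))

include hm hϖ in
/-- The constant term at `(0, m)` is a unit times `ϖ ^ (-2)`. -/
theorem exists_const_v0 : ∃ U : baseO A (constL A q).toSubfield, IsUnit U ∧
    baseK A q U = baseK A q ϖ ^ 2 * PowerSeries.coeff 0 (xI hζ ((0 : ℤ), (m : ℤ))) := by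
  obtain ⟨x, hx, hxe⟩ := hζ (m : ℤ)
  have hm0 : (m : ℂ) ≠ 0 := by
    have := NeZero.ne N
    rw [hm] at this
    exact Nat.cast_ne_zero.2 (right_ne_zero_of_mul this)
  have hprim : IsPrimitiveRoot x q := by
    refine IsPrimitiveRoot.of_map_of_injective (f := algebraMap Qb ℂ) ?_ (algebraMap Qb ℂ).injective
    rw [hxe]
    convert Complex.isPrimitiveRoot_exp q hq.out.ne_zero using 1
    rw [eta, tpi, hm]
    congr 1
    push_cast
    field_simp
  have hval : A.valuation (1 - x) = A.valuation ((ϖ : Qb)) := by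
    refine (pow_left_inj₀ zero_le zero_le (by have := hq.out.two_le; omega : q - 1 ≠ 0)).1 ?_
    rw [hϖ]
    exact FA.LocalDef.pow_map_one_sub A.valuation hq.out hprim
  have hx1 : (1 - x) ≠ 0 := sub_ne_zero.2 (hprim.ne_one hq.out.one_lt).symm
  have hvx : A.valuation x = 1 :=
    FA.LocalDef.map_eq_one_of_pow_eq_one A.valuation hq.out.ne_zero hprim.pow_eq_one
  set w : Qb := x * ((ϖ : Qb) / (1 - x)) ^ 2 with hw
  have hvw : A.valuation w = 1 := by
    have hne : A.valuation (1 - x) ≠ 0 := (Valuation.ne_zero_iff _).2 hx1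
    rw [hw, map_mul, map_pow, map_div₀, hvx, one_mul, ← hval, div_self hne, one_pow]
  refine ⟨⟨w, (A.valuation_le_one_iff _).1 hvw.le, (mul_mem (show x ∈ constL A q from hx) (pow_mem (div_mem (show (ϖ : Qb) ∈ constL A q from ϖ.2.2)
    (sub_mem (one_mem _) (show x ∈ constL A q from hx))) 2) : w ∈ constL A q)⟩, isUnit_base_of_val hvw, Subtype.ext ?_⟩
  rw [coeff_xI_zero, if_pos (show (N : ℤ) ∣ ((0 : ℤ), (m : ℤ)).1 from dvd_zero _)]
  show algebraMap Qb ℂ w = algebraMap Qb ℂ (ϖ : Qb) ^ 2 * (eta N m / (1 - eta N m) ^ 2)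
  rw [hw, ← hxe, map_mul, map_pow, map_div₀, map_sub, map_one, div_pow]
  ring

include hN hA hq2 hm hϖ in
/-- **`X` at `(0, m)` has the value of `ϖ ^ (-2)`.** -/
theorem inftyVal_xF_v0 : (inftyVal hz hC).valuation
    (cF A q N ϖ ^ 2 * xF hN hζ ((0 : ℤ), (m : ℤ))) = 1 := by
  set v : ℤ × ℤ := ((0 : ℤ), (m : ℤ)) with hv
  obtain ⟨U, hU, hU'⟩ := exists_const_v0 hζ hm hϖ
  obtain ⟨u, -, hu'⟩ := exists_quarter (q := q) hA hq2
  obtain ⟨-, -, -, -, dB0⟩ := coeff_xI_half_top hN hζ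
  have hvec : IsVec N v := fun hd => by
    have h1 : N ∣ m := Int.natCast_dvd_natCast.1 hd.2
    have hm0 : 0 < m := Nat.pos_of_ne_zero fun h0 => NeZero.ne N (by rw [hm, h0, mul_zero])
    have h3 := Nat.le_of_dvd hm0 h1
    rw [hm] at h3
    nlinarith [hq.out.two_le]
  set P : PowerSeries (constK A q) :=
    PowerSeries.C (baseK A q ϖ ^ 2) * (xI hζ v - xI hζ (tB (2 * g))) with hP
  have h0 : PowerSeries.coeff 0 P = baseK A q (U + ϖ ^ 2 * u) := by
    rw [hP, PowerSeries.coeff_C_mul, map_sub, dB0, map_add, map_mul, map_pow, hU', hu']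
    ring
  have hPint : ∀ n, PowerSeries.coeff n P ∈ intK A q := fun n => by
    cases n with
    | zero => rw [h0]; exact ⟨_, rfl⟩
    | succ n =>
      rw [hP, PowerSeries.coeff_C_mul, map_sub, coeff_xI_succ]
      exact mul_mem (pow_mem (⟨ϖ, rfl⟩ : baseK A q ϖ ∈ intK A q) 2)
        (sub_mem (xCoeff_succ_mem _ (eta_mem_intK hζ v.2).1 (eta_mem_intK hζ v.2).2 _ n)
          (coeff_xI_half_int hN hζ hA hq2 (Or.inr (Or.inl rfl)) _))
  refine inftyVal_ratio_eq_one hN hζ hA hq2 hz hC hPint ?_ (n := 0) (u := U + ϖ ^ 2 * u) ?_ h0.symm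
  · rw [map_mul, map_pow, ser_cF, mul_assoc, (ser_xF_mul hN hζ hvec).1, xK_sub_xK_ints, hP,
      map_mul, HahnSeries.ofPowerSeries_C, map_pow HahnSeries.C]
  · rw [map_add, map_mul, map_pow, resO_pi hC, zero_pow two_ne_zero, zero_mul, add_zero]
    exact resO_ne_of_isUnit hU

end FA.Carayol

end
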