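import Fermat.Agent.Carayol.OddInf.Coord
import Fermat.Agent.Carayol.OddInf.LineInfty
import Fermat.Agent.Carayol.Vert.Main

/-!
# An odd prime: on every component a line of points of order `q` reduces to the origin
-/

set_option autoImplicit false
set_option linter.unusedSectionVars false
set_option linter.style.haveILetI false

noncomputable section

namespace FA.Carayol

open CongruenceSubgroup ModularCurve FA.Level FA.ModField FA.Mazur.Wp Polynomial
open scoped MatrixGroups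

local notation "Qb" => AlgebraicClosure ℚ

theorem flAct_xF {N g : ℕ} [NeZero N] {K : Subfield ℂ} (hN : N = 4 * g)
    (hζ : ∀ b : ℤ, eta N b ∈ K) {γ : SL(2, ℤ)} (hγ : γ ∈ Gamma 2) {v : ℤ × ℤ} (hv : IsVec N v) :
    flAct γ (xF hN hζ v) = xF hN hζ (vmul v γ) := by
  rw [xF_of_isVec hN hζ hv, xF_of_isVec hN hζ (hv.vmul γ), flAct_toFl,
    rAct_xv (two_g hN) hζ hγ]

/-- The valuation of a parameter from that of the abscissa. -/
theorem val_param_eq {F : Type*} [Field F] {W : ValuationSubring F} {X Y d l p : F}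
    (hd : W.valuation d = 1) (hl : l ∈ W) (hp : W.valuation p < 1)
    (hX : W.valuation (p ^ 2 * X) = 1) (he : d * Y ^ 2 = X * (X - 1) * (X - l)) :
    1 < W.valuation X ∧ W.valuation (-X / Y) = W.valuation p := by
  rw [map_mul, map_pow] at hX
  have hp0 : W.valuation p ≠ 0 := fun h0 => by
    rw [h0, zero_pow two_ne_zero, zero_mul] at hX; exact zero_ne_one hX
  have hX0 : W.valuation X ≠ 0 := fun h0 => by
    rw [h0, mul_zero] at hX; exact zero_ne_one hX
  have hlt : W.valuation p ^ 2 < 1 := pow_lt_one₀ zero_le hp two_ne_zero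
  have hX1 : 1 < W.valuation X := by
    by_contra hc
    rw [not_lt] at hc
    exact ((mul_le_of_le_one_right' hc).trans_lt hlt).ne hX
  refine ⟨hX1, ?_⟩
  have e1 : W.valuation (X - 1) = W.valuation X :=
    W.valuation.map_sub_eq_of_lt_left (by rwa [map_one])
  have e2 : W.valuation (X - l) = W.valuation X :=
    W.valuation.map_sub_eq_of_lt_left (((W.valuation_le_one_iff l).2 hl).trans_lt hX1)
  have h := congrArg W.valuation he
  rw [map_mul, map_mul, map_mul, map_pow, hd, one_mul, e1, e2] at h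
  have hY0 : W.valuation Y ≠ 0 := fun h0 => by
    rw [h0, zero_pow two_ne_zero] at h
    exact mul_ne_zero (mul_ne_zero hX0 hX0) hX0 h.symm
  refine (pow_left_inj₀ zero_le zero_le two_ne_zero).1 ?_
  rw [map_div₀, Valuation.map_neg, div_pow, h]
  refine (div_eq_iff (mul_ne_zero (mul_ne_zero hX0 hX0) hX0)).2 ?_
  calc W.valuation X ^ 2 = W.valuation X ^ 2 * (W.valuation p ^ 2 * W.valuation X) := by
        rw [hX, mul_one]
    _ = W.valuation p ^ 2 * (W.valuation X * W.valuation X * W.valuation X) := by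
        simp only [sq]; ac_rfl

variable [Algebra Qb ℂ] {A : ValuationSubring Qb} {q : ℕ} [hq : Fact q.Prime] {N g : ℕ} [NeZero N]
  (hN : N = 4 * g) (hζ : ∀ b : ℤ, eta N b ∈ constK A q) {ϖ : baseO A (constL A q).toSubfield}

include hN in
/-- **The line reducing to the origin.** -/
theorem oddLine {m : ℕ} (hq2 : q ≠ 2) (hm : N = q * m) (hA : A.LiesOverPrime q)
    (hC : ConstHyp A (constL A q).toSubfield ϖ)
    (hϖ : A.valuation ((ϖ : Qb)) ^ (q - 1) = A.valuation (q : Qb)) :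
    ∀ W, IsVertF A q ϖ (lamF hN hζ) W → ∃ v : ℤ × ℤ, IsVec N v ∧ ¬ IsVec N ((q : ℤ) • v) ∧
      InKer hN hζ W v ∧ W.valuation (zF hN hζ v) = W.valuation (cF A q N ϖ) := by
  intro W hW
  have hz := oddCoord hN hζ hA hq2
  obtain ⟨_, ⟨γ', hγ', rfl⟩, hW'⟩ := exists_translate_infty hC hz hW
  set γ := γ'⁻¹ with hγdef
  have hγ : γ ∈ Gamma 2 := inv_mem hγ'
  have hval : ∀ x, (inftyVal hz hC).valuation (flAct γ x) = 1 → W.valuation x = 1 := fun x hx => by
    rw [← hW']
    exact val_comap_eq.2 hx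
  set v₀ : ℤ × ℤ := ((0 : ℤ), (m : ℤ)) with hv₀
  have hv₀' : IsVec N v₀ := fun hd => by
    have hm0 : 0 < m := Nat.pos_of_ne_zero fun h0 => NeZero.ne N (by rw [hm, h0, mul_zero])
    have h3 := Nat.le_of_dvd hm0 (Int.natCast_dvd_natCast.1 hd.2)
    rw [hm] at h3
    nlinarith [hq.out.two_le]
  set v : ℤ × ℤ := vmul v₀ γ⁻¹ with hv
  have hvec : IsVec N v := hv₀'.vmul _
  have hvv : vmul v γ = v₀ := by rw [hv, ← vmul_mul, inv_mul_cancel, vmul_one]
  refine ⟨v, hvec, fun h => ?_, ?_⟩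
  · refine h ⟨⟨(γ⁻¹ : SL(2, ℤ)) 1 0, ?_⟩, ⟨(γ⁻¹ : SL(2, ℤ)) 1 1, ?_⟩⟩ <;>
      simp [hv, hv₀, vmul, hm] <;> ring
  have hd : W.valuation (dF hN hζ) = 1 := hval _ (by
    simp only [dF, map_mul, map_sub, map_one, flAct_xF hN hζ hγ (isVec_qV hN),
      hz.fix γ hγ]
    simpa only [map_mul] using inftyVal_dF_translate hN hζ hA hq2 hz hC hγ)
  have hX : W.valuation (cF A q N ϖ ^ 2 * xF hN hζ v) = 1 := hval _ (by
    rw [map_mul, map_pow (flAct γ), flAct_cF, flAct_xF hN hζ hγ hvec, hvv]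
    exact inftyVal_xF_v0 hN hζ hA hq2 hz hC hm hϖ)
  have hl : lamF hN hζ ∈ W := by
    have h1 := poly_mem hC hW Polynomial.X
    rwa [eval₂_X] at h1
  obtain ⟨h1, h2⟩ := val_param_eq hd hl hW.1 hX (yF_sq hN hζ hvec)
  exact ⟨fun _ => h1, h2⟩

end FA.Carayol

end
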