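import Fermat.Agent.Carayol.OddInf.CuspSeries
import Fermat.Agent.Carayol.OddInf.Line

/-!
# A function telling the cusps `(0 : d)` apart, `d` modulo `q` and up to a common sign
-/

set_option autoImplicit false
set_option linter.unusedSectionVars false
set_option linter.style.haveILetI false

noncomputable section

namespace FA.Carayol

open CongruenceSubgroup ModularCurve FA.Level FA.Mazur.Wp
open scoped MatrixGroups

local notation "Qb" => AlgebraicClosure ℚ

variable [Algebra Qb ℂ] {A : ValuationSubring Qb} {q : ℕ} [hq : Fact q.Prime] {N g : ℕ} [NeZero N]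
  (hN : N = 4 * g) (hζ : ∀ b : ℤ, eta N b ∈ constK A q) {m : ℕ}
  (hA : A.LiesOverPrime q) (hNm : N = q * m) (hqm : ¬ q ∣ m)
  {ϖ : baseO A (constL A q).toSubfield} (hC : ConstHyp A (constL A q).toSubfield ϖ)
  (hq2 : q ≠ 2) {cD : PowerSeries (baseO A (constL A q).toSubfield)}
  (hD : IsDen (g := g) hζ cD) {τ : baseO A (constL A q).toSubfield}
  (hτ : 1 - etaOI hζ m = ϖ * τ) (hτ0 : resO A q τ ≠ 0)
include hN hA hNm hqm hC hq2 hD hτ hτ0

omit hN hq2 hD in
/-- `1 - η ^ (m n)` for `n` prime to `q`. -/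
theorem exists_one_sub_etaO_mul {n : ℕ} (hn : ¬ q ∣ n) : ∃ S : baseO A (constL A q).toSubfield,
    1 - etaOI hζ ((m : ℤ) * n) = ϖ * S ∧ IsUnit S ∧ resO A q S = (n : IsLocalRing.ResidueField A) *
      resO A q τ := by
  haveI := charP_resField (q := q) hA
  refine ⟨τ * ∑ i ∈ Finset.range n, etaOI hζ (m : ℤ) ^ i, ?_, ?_, ?_⟩
  · rw [← mul_assoc, ← hτ, etaO_mul_nat, mul_neg_geom_sum]
  · refine isUnit_of_resO_nezero hA hNm hqm hC ?_
    rw [map_mul, map_sum]
    refine mul_ne_zero hτ0 ?_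
    simp only [map_pow, (resO_etaO_eq_one_iff hζ hA hNm hqm _).2 dvd_rfl, one_pow,
      Finset.sum_const, Finset.card_range, nsmul_one]
    exact fun e => hn ((CharP.cast_eq_zero_iff (IsLocalRing.ResidueField A) q n).1 e)
  · rw [map_mul, map_sum]
    simp only [map_pow, (resO_etaO_eq_one_iff hζ hA hNm hqm _).2 dvd_rfl, one_pow,
      Finset.sum_const, Finset.card_range, nsmul_one]
    ring

/-- The abscissa of a vector of the kernel, scaled. -/
theorem exists_ser_kernel {n : ℕ} (hn : ¬ q ∣ n) :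
    ∃ P, ser (cF A q N ϖ ^ 2 * xF hN hζ (0, (m : ℤ) * n)) = psO A q P ∧
      resO A q (PowerSeries.constantCoeff P) =
        4 / ((n : IsLocalRing.ResidueField A) * resO A q τ) ^ 2 := by
  obtain ⟨S, hS, hSu, hS0⟩ := exists_one_sub_etaO_mul hζ hA hNm hqm hC hτ hτ0 hn
  set v : ℤ × ℤ := (0, (m : ℤ) * n) with hv
  set u := etaOI hζ v.2 with hu
  have hS' : 1 - u = ϖ * S := hS
  have hvec : IsVec N v := fun hd => by
    have h1 : etaOI hζ v.2 = 1 := (etaO_eq_one_iff hζ _).2 hd.2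
    rw [← hu] at h1
    rw [h1, sub_self, eq_comm, mul_eq_zero] at hS'
    exact hS'.elim hC.irreducible.ne_zero hSu.ne_zero
  have hG : baseK A q (u * Ring.inverse S ^ 2) =
      baseK A q (ϖ ^ 2) * PowerSeries.coeff 0 (xI hζ v) := by
    have hi : baseK A q (Ring.inverse S) = (baseK A q S)⁻¹ := eq_inv_of_mul_eq_one_right (by
      rw [← map_mul, Ring.mul_inverse_cancel _ hSu, map_one])
    have hne : baseK A q ϖ ≠ 0 :=
      (map_ne_zero_iff _ baseK_injective).2 hC.irreducible.ne_zero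
    rw [coeff_xI_zero, if_pos (show (N : ℤ) ∣ v.1 from dvd_zero _), ← baseK_etaOI, ← hu,
      ← map_one (baseK A q), ← map_sub, hS', map_mul, map_mul, map_pow, map_pow, hi, mul_pow]
    field_simp
  have h := ser_scaled_xF hN hζ hA hq2 hvec hD hG
  rw [map_pow] at h
  refine ⟨_, h, ?_⟩
  have hu1 : resO A q u = 1 := (resO_etaO_eq_one_iff hζ hA hNm hqm _).2 ⟨n, rfl⟩
  have hinv : resO A q (Ring.inverse S) = (resO A q S)⁻¹ := eq_inv_of_mul_eq_one_right (by
    rw [← map_mul, Ring.mul_inverse_cancel _ hSu, map_one])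
  simp only [posO, map_mul, map_add, map_sub, map_pow, constantCoeff_xPos, sub_zero, mul_zero,
    zero_add, PowerSeries.constantCoeff_C, constantCoeff_den hN hζ hD, map_ofNat, hu1, hinv, hS0,
    resO_pi hC, ne_eq, OfNat.ofNat_ne_zero, not_false_eq_true, zero_pow, zero_mul, add_zero]
  ring

/-- A root of unity of order four. -/
theorem resO_etaO_sq_g {d : ℤ} (hd : Odd d) :
    resO A q (etaOI hζ ((g : ℤ) * d)) ^ 2 = -1 := by
  obtain ⟨k, rfl⟩ := hd
  rw [← map_pow, ← etaO_mul_nat,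
    show (g : ℤ) * (2 * k + 1) * ((2 : ℕ) : ℤ) = ((2 * g : ℕ) : ℤ) + (N : ℤ) * k by
      rw [hN]; push_cast; ring]
  have h1 : etaOI hζ (((2 * g : ℕ) : ℤ) + (N : ℤ) * k) = -1 := baseK_injective (by
    rw [baseK_etaOI, map_neg, map_one]
    refine Subtype.ext ?_
    show eta N (((2 * g : ℕ) : ℤ) + (N : ℤ) * k) = -1
    rw [eta_add_mul, eta_half (two_g hN)])
  rw [h1, map_neg, map_one]

omit hC hq2 hD hτ hτ0 in
theorem genVec_shift {c d : ℤ} (hd : Odd d) (t : ℤ) :
    GenVec N m (((g : ℤ) + t * m) * c, ((g : ℤ) + t * m) * d) := Or.inr fun h => by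
  have h1 : (m : ℤ) ∣ (g : ℤ) * d := by
    have h2 : (m : ℤ) ∣ t * m * d := ⟨t * d, by ring⟩
    simpa [add_mul] using dvd_sub h h2
  obtain ⟨e, he⟩ := h1
  have h4 : (4 : ℤ) * ((g : ℤ) * d) = (q : ℤ) * ((m : ℤ) * d) := by
    have : (N : ℤ) = 4 * g := by rw [hN]; push_cast; ring
    have h5 : (N : ℤ) = q * m := by rw [hNm]; push_cast; ring
    linear_combination (d : ℤ) * (h5 - this)
  have hm0 : (m : ℤ) ≠ 0 := by
    intro h0
    exact NeZero.ne N (by rw [hNm, show m = 0 from by exact_mod_cast h0, mul_zero])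
  have h6 : (4 : ℤ) * e = (q : ℤ) * d := mul_left_cancel₀ hm0 (by
    linear_combination h4 - 4 * he)
  have hqodd : Odd (q : ℤ) := by
    rcases hq.out.eq_two_or_odd' with h | h
    · exfalso
      subst h
      obtain ⟨r, hr⟩ := hd
      omega
    · exact_mod_cast h
  obtain ⟨r, hr⟩ := hqodd.mul hd
  omega

/-- The test function. -/
def signR (N g m : ℕ) [NeZero N] (hN : N = 4 * g) (hζ : ∀ b : ℤ, eta N b ∈ constK A q)
    (ϖ : baseO A (constL A q).toSubfield) : flN N (constK A q) :=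
  cF A q N ϖ * (xF hN hζ (qV g + (0, (m : ℤ))) - xF hN hζ (qV g - (0, (m : ℤ)))) *
    xF hN hζ (0, (m : ℤ))

theorem exists_ser_signR {γ : SL(2, ℤ)} (hγ : γ ∈ Gamma 2) :
    ∃ P, ser (flAct γ (signR N g m hN hζ ϖ)) = psO A q P ∧ ((N : ℤ) ∣ γ 1 0 →
      resO A q (PowerSeries.constantCoeff P) = 16 * resO A q (etaOI hζ ((g : ℤ) * γ 1 1)) /
        ((γ 1 1 : IsLocalRing.ResidueField A) * resO A q τ)) := by
  haveI := charP_resField (q := q) hA
  have hd : Odd (γ 1 1) := by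
    rw [Gamma_mem] at hγ
    rw [Int.odd_iff, ← Int.two_dvd_ne_zero]
    intro h
    have h1 := (ZMod.intCast_zmod_eq_zero_iff_dvd (γ 1 1) 2).mpr h
    rw [hγ.2.2.2] at h1
    exact one_ne_zero h1
  set c := γ 1 0 with hc
  set d := γ 1 1 with hd'
  set a : ℤ × ℤ := (((g : ℤ) + m) * c, ((g : ℤ) + m) * d) with ha
  set b : ℤ × ℤ := (((g : ℤ) - m) * c, ((g : ℤ) - m) * d) with hb
  have hga : GenVec N m a := by simpa using genVec_shift hN hA hNm hqm (c := c) hd 1
  have hgb : GenVec N m b := by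
    simpa [← sub_eq_add_neg] using genVec_shift hN hA hNm hqm (c := c) hd (-1)
  have hv0 : IsVec N ((0 : ℤ), (m : ℤ)) := fun h => by
    have h1 : N ∣ m := Int.natCast_dvd_natCast.1 h.2
    have hm0 : 0 < m := Nat.pos_of_ne_zero fun h0 => NeZero.ne N (by rw [hNm, h0, mul_zero])
    have h3 := Nat.le_of_dvd hm0 h1
    rw [hNm] at h3
    nlinarith [hq.out.two_le]
  have hea : vmul (qV g + (0, (m : ℤ))) γ = a := by
    simp [vmul, qV, ha, hc, hd']
  have heb : vmul (qV g - (0, (m : ℤ))) γ = b := by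
    simp [vmul, qV, hb, hc, hd']
  have hva : IsVec N (qV g + ((0 : ℤ), (m : ℤ))) := by
    have := GenVec.isVec hNm (v := qV g + ((0 : ℤ), (m : ℤ))) (by
      simpa [qV] using genVec_shift hN hA hNm hqm (c := 0) odd_one 1)
    exact this
  have hvb : IsVec N (qV g - ((0 : ℤ), (m : ℤ))) := by
    have := GenVec.isVec hNm (v := qV g - ((0 : ℤ), (m : ℤ))) (by
      simpa [qV, ← sub_eq_add_neg] using genVec_shift hN hA hNm hqm (c := 0) odd_one (-1))
    exact this
  have hE : flAct γ (signR N g m hN hζ ϖ) =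
      cF A q N ϖ * (xF hN hζ a - xF hN hζ b) * xF hN hζ (vmul (0, (m : ℤ)) γ) := by
    rw [signR, map_mul, map_mul, map_sub, flAct_cF, flAct_xF hN hζ hγ hv0, flAct_xF hN hζ hγ hva,
      flAct_xF hN hζ hγ hvb, hea, heb]
  have hXa := ser_xF hN hζ hA hNm hqm hC hq2 hD hga
  have hXb := ser_xF hN hζ hA hNm hqm hC hq2 hD hgb
  have hvm : vmul ((0 : ℤ), (m : ℤ)) γ = ((m : ℤ) * c, (m : ℤ) * d) := by simp [vmul, hc, hd']
  rw [hE, hvm]
  by_cases hqc : (q : ℤ) ∣ c
  swap
  · have hgen : GenVec N m ((m : ℤ) * c, (m : ℤ) * d) := Or.inl fun h => hqc (by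
      obtain ⟨e, he⟩ := h
      refine ⟨e, mul_left_cancel₀ (a := (m : ℤ)) (fun h0 => NeZero.ne N (by
        rw [hNm, show m = 0 from by exact_mod_cast h0, mul_zero])) ?_⟩
      rw [show (m : ℤ) * c = (N : ℤ) * e from he, hNm]; push_cast; ring)
    refine ⟨PowerSeries.C ϖ * (serX hζ cD g a - serX hζ cD g b) *
      serX hζ cD g ((m : ℤ) * c, (m : ℤ) * d), ?_,
      fun h => absurd ((show (q : ℤ) ∣ (N : ℤ) from ⟨m, by rw [hNm]; push_cast; rfl⟩).trans h)
        hqc⟩
    rw [map_mul, map_mul, map_sub, hXa, hXb, ser_xF hN hζ hA hNm hqm hC hq2 hD hgen, ser_cF,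
      ← psO_C, ← map_sub, ← map_mul, ← map_mul]
  have hqd : ¬ (q : ℤ) ∣ d := fun h => by
    have hdet := Matrix.SpecialLinearGroup.det_coe γ
    rw [Matrix.det_fin_two, ← hc, ← hd'] at hdet
    have h1 : (q : ℤ) ∣ 1 := hdet ▸ dvd_sub (h.mul_left _) (hqc.mul_left _)
    exact hq.out.one_lt.ne' (by exact_mod_cast Int.eq_one_of_dvd_one (by positivity) h1)
  have hq0 : (q : ℤ) ≠ 0 := by exact_mod_cast hq.out.ne_zero
  set n : ℕ := (d % q).toNat with hn
  have hnd : (q : ℤ) ∣ d - n := by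
    rw [hn, Int.toNat_of_nonneg (Int.emod_nonneg _ hq0)]
    exact Int.dvd_self_sub_emod
  have hnq : ¬ q ∣ n := fun h => hqd (by
    simpa using dvd_add hnd (Int.natCast_dvd_natCast.2 h))
  have hnk : ((n : ℕ) : IsLocalRing.ResidueField A) = (d : IsLocalRing.ResidueField A) := by
    rw [← Int.cast_natCast n, eq_comm, ← sub_eq_zero, ← Int.cast_sub]
    exact (CharP.intCast_eq_zero_iff _ q _).2 hnd
  have hxv : xF hN hζ ((m : ℤ) * c, (m : ℤ) * d) = xF hN hζ (0, (m : ℤ) * n) := by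
    refine xF_congr hN hζ (not_not.2 ⟨?_, ?_⟩)
    · simp only [Prod.fst_sub, sub_zero]
      rw [hNm, Nat.cast_mul, mul_comm (q : ℤ)]
      exact mul_dvd_mul_left _ hqc
    · simp only [Prod.snd_sub, ← mul_sub]
      rw [hNm, Nat.cast_mul, mul_comm (q : ℤ)]
      exact mul_dvd_mul_left _ hnd
  obtain ⟨P, hP, hP0⟩ := exists_ser_kernel hN hζ hA hNm hqm hC hq2 hD hτ hτ0 hnq
  have hcong := map_serX_congr hN hζ hA hNm hqm hC (cD := cD) hga (w := b)
    (by
      simp only [ha, hb]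
      rw [show ((g : ℤ) + m) * c - ((g : ℤ) - m) * c = 2 * (m * c) by ring, hNm, Nat.cast_mul,
        mul_comm (q : ℤ)]
      exact (mul_dvd_mul_left _ hqc).mul_left 2)
    (by
      simp only [ha, hb]
      exact ⟨2 * d, by ring⟩)
  have hdvd : ∀ k, ϖ ∣ PowerSeries.coeff k (serX hζ cD g a - serX hζ cD g b) := fun k => by
    rw [pi_dvd_iff hC, map_sub, map_sub, ← PowerSeries.coeff_map, ← PowerSeries.coeff_map, hcong,
      sub_self]
  choose f hf using hdvd
  have hD' : serX hζ cD g a - serX hζ cD g b = PowerSeries.C ϖ * PowerSeries.mk f := by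
    ext k
    rw [PowerSeries.coeff_C_mul, PowerSeries.coeff_mk, hf]
  refine ⟨PowerSeries.mk f * P, ?_, fun hNc => ?_⟩
  · rw [map_mul, map_mul, map_sub, hXa, hXb, ser_cF, ← psO_C, ← map_sub, hD', hxv, map_mul (psO A q),
      map_mul (psO A q), ← hP, map_mul, map_pow, ser_cF, ← psO_C]
    ring
  have hNa : ∀ t : ℤ, (N : ℤ) ∣ ((g : ℤ) + t * m) * c := fun t => hNc.mul_left _
  obtain ⟨S, hS, hSu, hS0⟩ := exists_one_sub_etaO_mul hζ hA hNm hqm hC hτ hτ0 hnq
  set x := etaOI hζ a.2 with hx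
  set y := etaOI hζ b.2 with hy
  set u := etaOI hζ ((m : ℤ) * n) with hu
  have hxy : x = y * (u * u) := by
    rw [hx, hy, hu, ← etaOI_add, ← etaOI_add]
    refine baseK_injective ?_
    rw [baseK_etaOI, baseK_etaOI]
    refine Subtype.ext (eta_congr ?_)
    simp only [ha, hb]
    rw [show ((g : ℤ) + m) * d - (((g : ℤ) - m) * d + ((m : ℤ) * n + m * n)) =
      2 * (m * (d - n)) by ring, hNm, Nat.cast_mul, mul_comm (q : ℤ)]
    exact (mul_dvd_mul_left _ hnd).mul_left 2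
  have hua : IsUnit (1 - x) := isUnit_one_sub_etaO hζ hA hNm hqm hC
    (hga.resolve_left (not_not_intro (by simpa [ha] using hNa 1)))
  have hub : IsUnit (1 - y) := isUnit_one_sub_etaO hζ hA hNm hqm hC
    (hgb.resolve_left (not_not_intro (by simpa [hb, ← sub_eq_add_neg] using hNa (-1))))
  have hf0 : f 0 = -(4 * y * (1 + u) * S * (1 - x * y) *
      Ring.inverse (1 - x) ^ 2 * Ring.inverse (1 - y) ^ 2) := by
    refine mul_left_cancel₀ hC.irreducible.ne_zero ?_
    have hNa1 : (N : ℤ) ∣ a.1 := by simpa [ha] using hNa 1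
    have hNb1 : (N : ℤ) ∣ b.1 := by simpa [hb, ← sub_eq_add_neg] using hNa (-1)
    rw [← hf 0, serX, serX, map_sub, PowerSeries.coeff_zero_eq_constantCoeff]
    simp only [posO, map_mul, map_add, map_sub, constantCoeff_xPos, sub_zero, zero_add,
      PowerSeries.constantCoeff_C, constantCoeff_den hN hζ hD, geoO, if_pos hNa1, if_pos hNb1,
      ← hx, ← hy]
    have e1 := Ring.inverse_mul_cancel _ hua
    have e2 := Ring.inverse_mul_cancel _ hub
    linear_combination
      (4 * y * (1 + u) * (1 - x * y) * Ring.inverse (1 - x) ^ 2 * Ring.inverse (1 - y) ^ 2) * -hS +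
      (-4 * x * Ring.inverse (1 - x) ^ 2 * (1 + Ring.inverse (1 - y) * (1 - y))) * e2 +
      (4 * y * Ring.inverse (1 - y) ^ 2 * (1 + Ring.inverse (1 - x) * (1 - x))) * e1 +
      (4 * (1 - x * y) * Ring.inverse (1 - x) ^ 2 * Ring.inverse (1 - y) ^ 2) * hxy
  rw [map_mul, map_mul, hP0, ← PowerSeries.coeff_zero_eq_constantCoeff_apply, PowerSeries.coeff_mk,
    hf0]
  have hj : resO A q x = resO A q (etaOI hζ ((g : ℤ) * d)) :=
    resO_etaO_congr hζ hA hNm hqm ⟨d, by simp [ha]; ring⟩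
  have hj' : resO A q y = resO A q (etaOI hζ ((g : ℤ) * d)) :=
    resO_etaO_congr hζ hA hNm hqm ⟨-d, by simp [hb]; ring⟩
  have hu1 : resO A q u = 1 := (resO_etaO_eq_one_iff hζ hA hNm hqm _).2 ⟨n, rfl⟩
  have hinv : ∀ w, IsUnit w → resO A q (Ring.inverse w) = (resO A q w)⁻¹ := fun w hw =>
    eq_inv_of_mul_eq_one_right (by rw [← map_mul, Ring.mul_inverse_cancel _ hw, map_one])
  simp only [map_neg, map_mul, map_add, map_sub, map_one, map_pow, map_ofNat, hinv _ hua,
    hinv _ hub, hu1, hS0, hj, hj', hnk]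
  set j := resO A q (etaOI hζ ((g : ℤ) * d))
  have hj2 : j ^ 2 = -1 := resO_etaO_sq_g hN hζ hA hNm hqm hC hq2 hD hτ hτ0 hd
  have hdk : (d : IsLocalRing.ResidueField A) ≠ 0 := fun e =>
    hqd ((CharP.intCast_eq_zero_iff _ q _).1 e)
  have h2k : (2 : IsLocalRing.ResidueField A) ≠ 0 := fun e => by
    have h2' : ((2 : ℕ) : IsLocalRing.ResidueField A) = 0 := by exact_mod_cast e
    exact hq2 ((Nat.prime_dvd_prime_iff_eq hq.out Nat.prime_two).1
      ((CharP.cast_eq_zero_iff (IsLocalRing.ResidueField A) q 2).1 h2'))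
  have h1j : (1 : IsLocalRing.ResidueField A) - j ≠ 0 := fun e => h2k (by
    rw [sub_eq_zero] at e
    rw [← e, one_pow] at hj2
    linear_combination hj2)
  field_simp
  linear_combination (-16 * j * (j ^ 2 - 4 * j + 3)) * hj2

end FA.Carayol

end
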