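import Fermat.Agent.Carayol.OddInf.Integral
import Fermat.Agent.Carayol.Count.Chart

/-!
# Reduced series at infinity, and the point at infinity
-/

set_option autoImplicit false
set_option linter.unusedSectionVars false
set_option linter.style.haveILetI false

noncomputable section

namespace FA.Carayol

open CongruenceSubgroup ModularCurve FA.Level FA.ModField FA.Mazur.Wp Polynomial
open scoped MatrixGroups

local notation "Qb" => AlgebraicClosure ℚ

variable [Algebra Qb ℂ] {A : ValuationSubring Qb} {q : ℕ} {N : ℕ} [NeZero N] {ℓ : ℕ}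
  {z : flN N (constK A q)} {ϖ : baseO A (constL A q).toSubfield}
  (hz : Coord A q ℓ z) (hC : ConstHyp A (constL A q).toSubfield ϖ)

/-- The reduced series. -/
def resFun (x : inftyVal hz hC) : LaurentSeries (IsLocalRing.ResidueField A) :=
  redO A q ((mem_inftyVal hz hC).1 x.2).choose /
    redO A q ((mem_inftyVal hz hC).1 x.2).choose_spec.choose

theorem resFun_eq {x : inftyVal hz hC} {a b : LaurentSeries (baseO A (constL A q).toSubfield)}
    (hb : redO A q b ≠ 0) (h : ser (x : flN N (constK A q)) * serO A q b = serO A q a) :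
    resFun hz hC x = redO A q a / redO A q b := by
  obtain ⟨hb', h'⟩ := ((mem_inftyVal hz hC).1 x.2).choose_spec.choose_spec
  rw [resFun, div_eq_div_iff hb' hb, ← map_mul, ← map_mul]
  refine congrArg (redO A q) (serO_injective ?_)
  rw [map_mul, map_mul]
  linear_combination serO A q ((mem_inftyVal hz hC).1 x.2).choose_spec.choose * h -
    serO A q b * h'

/-- The reduced series as a homomorphism. -/
def inftyRes : inftyVal hz hC →+* LaurentSeries (IsLocalRing.ResidueField A) where
  toFun := resFun hz hC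
  map_one' := by rw [resFun_eq hz hC (a := 1) (b := 1) (by simp) (by simp)]; simp
  map_zero' := by rw [resFun_eq hz hC (a := 0) (b := 1) (by simp) (by simp)]; simp
  map_add' x y := by
    obtain ⟨a, b, hb, h⟩ := (mem_inftyVal hz hC).1 x.2
    obtain ⟨c, d, hd, h'⟩ := (mem_inftyVal hz hC).1 y.2
    rw [resFun_eq hz hC hb h, resFun_eq hz hC hd h',
      resFun_eq hz hC (a := a * d + c * b) (b := b * d)
        (by rw [map_mul]; exact mul_ne_zero hb hd) (by
          push_cast
          simp only [map_add, map_mul, ← h, ← h']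
          ring)]
    simp only [map_add, map_mul]
    field_simp
  map_mul' x y := by
    obtain ⟨a, b, hb, h⟩ := (mem_inftyVal hz hC).1 x.2
    obtain ⟨c, d, hd, h'⟩ := (mem_inftyVal hz hC).1 y.2
    rw [resFun_eq hz hC hb h, resFun_eq hz hC hd h',
      resFun_eq hz hC (a := a * c) (b := b * d)
        (by rw [map_mul]; exact mul_ne_zero hb hd) (by
          push_cast
          simp only [map_mul, ← h, ← h']
          ring)]
    simp only [map_mul]
    field_simp

theorem inftyRes_eq {x : inftyVal hz hC} {a b : LaurentSeries (baseO A (constL A q).toSubfield)}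
    (hb : redO A q b ≠ 0) (h : ser (x : flN N (constK A q)) * serO A q b = serO A q a) :
    inftyRes hz hC x = redO A q a / redO A q b := resFun_eq hz hC hb h

theorem val_lt_iff_inftyRes (x : inftyVal hz hC) :
    (inftyVal hz hC).valuation (x : flN N (constK A q)) < 1 ↔ inftyRes hz hC x = 0 := by
  obtain ⟨a, b, hb, h⟩ := (mem_inftyVal hz hC).1 x.2
  rw [inftyVal_lt_iff hz hC hb h, inftyRes_eq hz hC hb h, div_eq_zero_iff, or_iff_left hb]

theorem val_eq_iff_inftyRes (x : inftyVal hz hC) :
    (inftyVal hz hC).valuation (x : flN N (constK A q)) = 1 ↔ inftyRes hz hC x ≠ 0 := by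
  rw [Ne, ← val_lt_iff_inftyRes]
  exact ⟨fun h => h ▸ lt_irrefl _, fun h => le_antisymm (((inftyVal hz hC).valuation_le_one_iff _).2 x.2)
    (not_lt.1 h)⟩

/-- An integral power series gives an element of the ring at infinity. -/
theorem exists_inftyRes_of_ser {x : flN N (constK A q)}
    {P : PowerSeries (baseO A (constL A q).toSubfield)} (hx : ser x = psO A q P) :
    ∃ hmem : x ∈ inftyVal hz hC, inftyRes hz hC ⟨x, hmem⟩ =
      HahnSeries.ofPowerSeries ℤ _ (PowerSeries.map (resO A q) P) := by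
  have h : ser x * serO A q 1 = serO A q (HahnSeries.ofPowerSeries ℤ _ P) := by
    rw [map_one, mul_one, hx]; rfl
  have hmem : x ∈ inftyVal hz hC := (mem_inftyVal hz hC).2 ⟨_, 1, by simp, h⟩
  refine ⟨hmem, ?_⟩
  rw [inftyRes_eq hz hC (x := ⟨x, hmem⟩) (by simp) h, map_one, div_one]
  exact coeffMap_ofPowerSeries _ _

theorem cF_mem_infty (c : baseO A (constL A q).toSubfield) : cF A q N c ∈ inftyVal hz hC :=
  (mem_inftyVal hz hC).2 ⟨HahnSeries.C c, 1, by simp, by rw [map_one, mul_one, serO_C, ser_cF]⟩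

theorem inftyRes_cF (c : baseO A (constL A q).toSubfield) :
    inftyRes hz hC ⟨cF A q N c, cF_mem_infty hz hC c⟩ = HahnSeries.C (resO A q c) := by
  rw [inftyRes_eq hz hC (a := HahnSeries.C c) (b := 1) (by simp)
    (by rw [map_one, mul_one, serO_C]; exact ser_cF N c), redO_C, map_one, div_one]

/-- The reduced series without pole. -/
def holPart : Subring (inftyVal hz hC) where
  carrier := {x | OrdGE 0 (inftyRes hz hC x)}
  one_mem' := by rw [Set.mem_ofPred_eq, map_one]; exact ordGE_one
  zero_mem' := by rw [Set.mem_ofPred_eq, map_zero]; exact ordGE_zero 0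
  add_mem' ha hb := by rw [Set.mem_ofPred_eq, map_add]; exact ha.add hb
  mul_mem' ha hb := by rw [Set.mem_ofPred_eq, map_mul]; simpa using ha.mul hb
  neg_mem' ha := by rw [Set.mem_ofPred_eq, map_neg]; exact ha.neg

/-- The place at infinity. -/
def inftyPlace : ValuationSubring (flN N (constK A q)) :=
  { (holPart hz hC).map (inftyVal hz hC).toSubring.subtype with
    mem_or_inv_mem' := fun x => by
      show x ∈ (holPart hz hC).map _ ∨ x⁻¹ ∈ (holPart hz hC).map _
      rcases eq_or_ne x 0 with rfl | hx0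
      · exact Or.inl (zero_mem _)
      have key : ∀ y : flN N (constK A q), y ≠ 0 → ∀ hy : y ∈ inftyVal hz hC,
          y ∈ (holPart hz hC).map (inftyVal hz hC).toSubring.subtype ∨
            y⁻¹ ∈ (holPart hz hC).map (inftyVal hz hC).toSubring.subtype := by
        intro y hy0 hy
        rcases eq_or_ne (inftyRes hz hC ⟨y, hy⟩) 0 with h0 | h0
        · exact Or.inl ⟨⟨y, hy⟩, by
            show OrdGE 0 (inftyRes hz hC ⟨y, hy⟩); rw [h0]; exact ordGE_zero 0, rfl⟩
        rcases le_or_gt 0 (inftyRes hz hC ⟨y, hy⟩).order with ho | ho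
        · exact Or.inl ⟨⟨y, hy⟩, (ordGE_order _).mono ho, rfl⟩
        have h1 := (val_eq_iff_inftyRes hz hC ⟨y, hy⟩).2 h0
        have hinv : y⁻¹ ∈ inftyVal hz hC := by
          rw [← ValuationSubring.valuation_le_one_iff, map_inv₀, h1, inv_one]
        have hm : inftyRes hz hC ⟨y⁻¹, hinv⟩ * inftyRes hz hC ⟨y, hy⟩ = 1 := by
          rw [← map_mul, show (⟨y⁻¹, hinv⟩ : inftyVal hz hC) * ⟨y, hy⟩ = 1 from
            Subtype.ext (inv_mul_cancel₀ hy0), map_one]
        have ho' := congrArg HahnSeries.order hm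
        rw [HahnSeries.order_mul (left_ne_zero_of_mul_eq_one hm) h0, HahnSeries.order_one] at ho'
        exact Or.inr ⟨⟨y⁻¹, hinv⟩, (ordGE_order _).mono (by omega), rfl⟩
      rcases (inftyVal hz hC).mem_or_inv_mem x with hx | hx
      · exact key x hx0 hx
      · have := key _ (inv_ne_zero hx0) hx
        rwa [inv_inv, or_comm] at this }

theorem mem_inftyPlace {x : flN N (constK A q)} : x ∈ inftyPlace hz hC ↔
    ∃ hmem : x ∈ inftyVal hz hC, OrdGE 0 (inftyRes hz hC ⟨x, hmem⟩) := by
  constructor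
  · rintro ⟨y, hy, rfl⟩
    exact ⟨y.2, hy⟩
  · rintro ⟨hmem, h⟩
    exact ⟨⟨x, hmem⟩, h, rfl⟩

theorem inftyPlace_le : inftyPlace hz hC ≤ inftyVal hz hC := fun _ hx =>
  ((mem_inftyPlace hz hC).1 hx).1

/-- The valuation of an element with reduced series of given order. -/
theorem val_inftyPlace_eq_one {x : inftyVal hz hC}
    (h0 : inftyRes hz hC x ≠ 0) (ho : (inftyRes hz hC x).order = 0) :
    (inftyPlace hz hC).valuation (x : flN N (constK A q)) = 1 := by
  have hx : (x : flN N (constK A q)) ∈ inftyPlace hz hC :=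
    (mem_inftyPlace hz hC).2 ⟨x.2, (ordGE_order _).mono ho.ge⟩
  refine le_antisymm (((inftyPlace hz hC).valuation_le_one_iff _).2 hx) (not_lt.1 fun hlt => ?_)
  rcases val_lt_one_iff_inv.1 hlt with h | h
  · exact h0 (by rw [show x = 0 from Subtype.ext h, map_zero])
  refine h ((mem_inftyPlace hz hC).2 ?_)
  have h1 := (val_eq_iff_inftyRes hz hC x).2 h0
  have hinv : (x : flN N (constK A q))⁻¹ ∈ inftyVal hz hC := by
    rw [← ValuationSubring.valuation_le_one_iff, map_inv₀, h1, inv_one]
  refine ⟨hinv, ?_⟩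
  have hm : inftyRes hz hC ⟨(x : flN N (constK A q))⁻¹, hinv⟩ * inftyRes hz hC x = 1 := by
    rw [← map_mul, show (⟨(x : flN N (constK A q))⁻¹, hinv⟩ : inftyVal hz hC) * x = 1 from
      Subtype.ext (inv_mul_cancel₀ fun e => h0 (by rw [show x = 0 from Subtype.ext e, map_zero])),
      map_one]
  have ho' := congrArg HahnSeries.order hm
  rw [HahnSeries.order_mul (left_ne_zero_of_mul_eq_one hm) h0, HahnSeries.order_one, ho,
    add_zero] at ho'
  exact (ordGE_order _).mono ho'.ge

theorem val_inftyPlace_lt_iff {x : flN N (constK A q)} (hx : x ∈ inftyPlace hz hC) :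
    (inftyPlace hz hC).valuation x < 1 ↔
      (inftyRes hz hC ⟨x, inftyPlace_le hz hC hx⟩).coeff 0 = 0 := by
  obtain ⟨hmem, ho⟩ := (mem_inftyPlace hz hC).1 hx
  constructor
  · intro hlt
    by_contra h0
    have hne : inftyRes hz hC ⟨x, hmem⟩ ≠ 0 := fun e => h0 (by rw [e, HahnSeries.coeff_zero])
    have := val_inftyPlace_eq_one hz hC hne (le_antisymm (HahnSeries.order_le_of_coeff_ne_zero h0)
      ((ordGE_iff_le_order hne).1 ho))
    exact hlt.ne this
  · intro h0
    rw [val_lt_one_iff_inv]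
    by_contra hc
    push Not at hc
    obtain ⟨hx0, hinv⟩ := hc
    obtain ⟨hmem', ho'⟩ := (mem_inftyPlace hz hC).1 hinv
    have hm : inftyRes hz hC ⟨x⁻¹, hmem'⟩ * inftyRes hz hC ⟨x, hmem⟩ = 1 := by
      rw [← map_mul, show (⟨x⁻¹, hmem'⟩ : inftyVal hz hC) * ⟨x, hmem⟩ = 1 from
        Subtype.ext (inv_mul_cancel₀ hx0), map_one]
    have ho1 : OrdGE 1 (inftyRes hz hC ⟨x, hmem⟩) := fun i hi => by
      rcases lt_or_eq_of_le (Int.lt_add_one_iff.1 (show i < 0 + 1 by omega)) with h | h
      · exact ho i h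
      · exact h ▸ h0
    have := (ho'.mul ho1) 0 (by norm_num)
    rw [hm] at this
    simp at this

variable (hz2 : z ∈ inftyPlace hz hC)
include hz2

theorem chart_le_inftyPlace {x : flN N (constK A q)} (hx : x ∈ chartF A q z) :
    x ∈ inftyPlace hz hC := by
  obtain ⟨P, hP, he⟩ := hx
  let φ := (eval₂RingHom (cF A q N) z).codRestrict (inftyPlace hz hC).toSubring fun Q => by
    rw [coe_eval₂RingHom, eval₂_eq_sum_range]
    exact sum_mem fun i _ => mul_mem ((mem_inftyPlace hz hC).2 ⟨cF_mem_infty hz hC _, by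
      rw [inftyRes_cF]; exact ordGE_C _⟩) (pow_mem hz2 i)
  have hint : IsIntegral (inftyPlace hz hC) x := ⟨P.map φ, hP.map _, by rw [eval₂_map]; exact he⟩
  obtain ⟨y, hy⟩ := IsIntegrallyClosed.isIntegral_iff.1 hint
  exact hy ▸ y.2

/-- The chart inside the place at infinity. -/
def toPlace : chartF A q z →+* inftyVal hz hC :=
  (Subring.subtype _).codRestrict (inftyVal hz hC).toSubring fun x =>
    inftyPlace_le hz hC (chart_le_inftyPlace hz hC hz2 x.2)

/-- The constant term of the reduced series. -/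
def inftyConst : chartF A q z →+* IsLocalRing.ResidueField A where
  toFun x := (inftyRes hz hC (toPlace hz hC hz2 x)).coeff 0
  map_one' := by rw [map_one, map_one]; simp
  map_zero' := by rw [map_zero, map_zero]; simp
  map_add' x y := by rw [map_add, map_add, HahnSeries.coeff_add]
  map_mul' x y := by
    rw [map_mul, map_mul]
    have hh : ∀ u, OrdGE 0 (inftyRes hz hC (toPlace hz hC hz2 u)) := fun u =>
      ((mem_inftyPlace hz hC).1 (chart_le_inftyPlace hz hC hz2 u.2)).2
    have hps : ∀ S : LaurentSeries (IsLocalRing.ResidueField A), OrdGE 0 S →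
        ∃ P : PowerSeries (IsLocalRing.ResidueField A), S = HahnSeries.ofPowerSeries ℤ _ P ∧
          S.coeff 0 = PowerSeries.constantCoeff P := fun S hS => by
      refine ⟨PowerSeries.mk fun n => S.coeff n, HahnSeries.ext (funext fun i => ?_), ?_⟩
      · rcases lt_or_ge i 0 with hi | hi
        · rw [ModularCurve.ofPowerSeries_coeff_of_neg _ hi, hS i hi]
        · obtain ⟨n, rfl⟩ := Int.eq_ofNat_of_zero_le hi
          rw [HahnSeries.ofPowerSeries_apply_coeff, PowerSeries.coeff_mk]
      · rw [← PowerSeries.coeff_zero_eq_constantCoeff, PowerSeries.coeff_mk, Nat.cast_zero]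
    obtain ⟨P, hP, hP0⟩ := hps _ (hh x)
    obtain ⟨Q, hQ, hQ0⟩ := hps _ (hh y)
    rw [hP0, hQ0, hP, hQ, ← map_mul, ← map_mul, show (0 : ℤ) = ((0 : ℕ) : ℤ) from rfl,
      HahnSeries.ofPowerSeries_apply_coeff, PowerSeries.coeff_zero_eq_constantCoeff]

theorem inftyConst_cF (c : baseO A (constL A q).toSubfield) (h : cF A q N c ∈ chartF A q z) :
    inftyConst hz hC hz2 ⟨cF A q N c, h⟩ = resO A q c := by
  show (inftyRes hz hC _).coeff 0 = _
  rw [show toPlace hz hC hz2 ⟨cF A q N c, h⟩ = ⟨cF A q N c, cF_mem_infty hz hC c⟩ from rfl,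
    inftyRes_cF]
  simp

theorem inftyConst_of_ser {x : chartF A q z}
    {P : PowerSeries (baseO A (constL A q).toSubfield)}
    (hx : ser (x : flN N (constK A q)) = psO A q P) :
    inftyConst hz hC hz2 x = resO A q (PowerSeries.constantCoeff P) := by
  obtain ⟨hmem, h⟩ := exists_inftyRes_of_ser hz hC hx
  show (inftyRes hz hC _).coeff 0 = _
  rw [show toPlace hz hC hz2 x = ⟨(x : flN N (constK A q)), hmem⟩ from rfl, h,
    show (0 : ℤ) = ((0 : ℕ) : ℤ) from rfl, HahnSeries.ofPowerSeries_apply_coeff,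
    PowerSeries.coeff_map, PowerSeries.coeff_zero_eq_constantCoeff]

/-- **The point at infinity.** -/
def inftyPt : Pt A q z := ⟨false, RingHom.ker (inftyConst hz hC hz2)⟩

theorem inftyConst_surjective : Function.Surjective (inftyConst hz hC hz2) := fun t => by
  obtain ⟨c, rfl⟩ := resO_surjective hC t
  exact ⟨⟨cF A q N c, ⟨X - C (C c), monic_X_sub_C _, by simp⟩⟩, inftyConst_cF hz hC hz2 c _⟩

theorem isPtF_inftyPt : IsPtF ϖ (inftyPt hz hC hz2) := by
  refine ⟨RingHom.ker_isMaximal_of_surjective _ (inftyConst_surjective hz hC hz2),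
    ⟨cF A q N ϖ, ⟨X - C (C ϖ), monic_X_sub_C _, by simp⟩⟩, ?_, rfl⟩
  show inftyConst hz hC hz2 _ = 0
  refine (inftyConst_cF hz hC hz2 ϖ ?_).trans (resO_pi hC)

theorem mem_inftyPt {x : chartF A q z} :
    x ∈ (inftyPt hz hC hz2).2 ↔ inftyConst hz hC hz2 x = 0 := Iff.rfl

theorem thru_inftyPt : Thru (inftyPt hz hC hz2) (inftyVal hz hC) := fun x hx => by
  show (inftyRes hz hC _).coeff 0 = 0
  rw [(val_lt_iff_inftyRes hz hC (toPlace hz hC hz2 x)).1 hx, HahnSeries.coeff_zero]

theorem centre_inftyPt (x : chartF A q z) :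
    (inftyPlace hz hC).valuation (x : flN N (constK A q)) < 1 ↔ x ∈ (inftyPt hz hC hz2).2 :=
  val_inftyPlace_lt_iff hz hC (chart_le_inftyPlace hz hC hz2 x.2)

end FA.Carayol

end
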