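import Fermat.Agent.Carayol.OddInf.CuspSign
import Fermat.Agent.Carayol.OddInf.Residual

/-!
# The stabiliser of the point at infinity is the translations
-/

set_option autoImplicit false
set_option linter.unusedSectionVars false
set_option linter.style.haveILetI false

noncomputable section

namespace FA.Carayol

open CongruenceSubgroup ModularCurve FA.Level FA.Mazur.Wp
open scoped MatrixGroups

local notation "Qb" => AlgebraicClosure ℚ

variable [Algebra Qb ℂ] {A : ValuationSubring Qb} {q : ℕ} [hq : Fact q.Prime] {N g : ℕ} [NeZero N]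
  (hN : N = 4 * g) (hζ : ∀ b : ℤ, eta N b ∈ constK A q) {m : ℕ}
  (hA : A.LiesOverPrime q) (hNm : N = q * m) (hqm : ¬ q ∣ m)
  {ϖ : baseO A (constL A q).toSubfield} (hC : ConstHyp A (constL A q).toSubfield ϖ)
  (hϖv : A.valuation ((ϖ : Qb)) ^ (q - 1) = A.valuation (q : Qb))
  (hq2 : q ≠ 2) (hz : Coord A q 2 (lamF hN hζ))
  (hz2 : lamF hN hζ ∈ inftyPlace hz hC)
  {L : PowerSeries (baseO A (constL A q).toSubfield)}
  (hL : ser (lamF hN hζ) = psO A q L) (hL1 : PowerSeries.constantCoeff L = 1)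

include hA hNm hqm hC hϖv hq2 hz2 hL hL1

omit hA hNm hqm hϖv hq2 in
/-- A function with integral translates gives elements of the chart. -/
theorem exists_chart_mul (x : rN N (constK A q))
    (hx : ∀ γ ∈ Gamma 2, flAct γ (toFl x) ∈ intSerRing A q N) :
    ∃ (M : ℕ) (y : chartF A q (lamF hN hζ)),
      (y : flN N (constK A q)) = toFl x * lamF hN hζ ^ M ∧
      ∀ γ ∈ Gamma 2, ∀ P, ser (flAct γ (toFl x)) = psO A q P →
        ser (flAct γ (y : flN N (constK A q))) = psO A q (P * L ^ M) := by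
  obtain ⟨M, hM⟩ := exists_pow_mul_mem_chartF (two_g hN) hζ hC hz hL hL1 hx
  refine ⟨M, ⟨_, hM⟩, rfl, fun γ hγ P hP => ?_⟩
  show ser (flAct γ (toFl x * lamF hN hζ ^ M)) = _
  rw [map_mul, map_pow, hz.fix γ hγ, map_mul, map_pow, hP, hL, ← map_pow, ← map_mul]

omit hA hNm hqm hϖv hq2 in
/-- An automorphism fixing the point preserves constant terms. -/
theorem const_eq_of_stab {γ : SL(2, ℤ)} (hγ : γ ∈ Gamma 2)
    (hst : flEquiv γ ∈ stabSet (galLvl A q 2) (ptSet (inftyPt hz hC hz2)))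
    (x : rN N (constK A q)) (hx : ∀ γ ∈ Gamma 2, flAct γ (toFl x) ∈ intSerRing A q N)
    {P P₁ : PowerSeries (baseO A (constL A q).toSubfield)}
    (hP : ser (flAct γ (toFl x)) = psO A q P) (hP₁ : ser (toFl x) = psO A q P₁) :
    resO A q (PowerSeries.constantCoeff P) = resO A q (PowerSeries.constantCoeff P₁) := by
  obtain ⟨M, y, -, hser⟩ := exists_chart_mul hN hζ hC hz hz2 hL hL1 x hx
  have h1 := hser 1 (one_mem _) P₁ (by rw [flAct_one]; exact hP₁)
  rw [flAct_one] at h1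
  have c1 := inftyConst_of_ser hz hC hz2 h1
  have hg : flEquiv γ ∈ galLvl (N := N) A q 2 := hst.1
  obtain ⟨y', hy'⟩ : ∃ y' : chartF A q (lamF hN hζ), (y' : flN N (constK A q)) =
      flAct γ (y : flN N (constK A q)) :=
    ⟨⟨_, galLvl_mem_chart false hC hz hg y.2⟩, rfl⟩
  have c2 := inftyConst_of_ser hz hC hz2 (x := y') (by rw [hy']; exact hser γ hγ P hP)
  have key : inftyConst hz hC hz2 y' = inftyConst hz hC hz2 y := by
    obtain ⟨a, ha⟩ := resO_surjective hC (inftyConst hz hC hz2 y)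
    have hcm : cF A q N a ∈ chartF A q (lamF hN hζ) :=
      ⟨Polynomial.X - Polynomial.C (Polynomial.C a), Polynomial.monic_X_sub_C _, by simp⟩
    have hmem : inftyConst hz hC hz2 (y - ⟨_, hcm⟩) = 0 := by
      rw [map_sub, inftyConst_cF, ha, sub_self]
    obtain ⟨w₀, hw, hw'⟩ := (hst.2 ((y - ⟨_, hcm⟩ : chartF A q (lamF hN hζ)) :
      flN N (constK A q))).2 ⟨_, hmem, rfl⟩
    set w : chartF A q (lamF hN hζ) := w₀
    have e : w = y' - ⟨_, hcm⟩ := Subtype.ext (by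
      refine hw'.trans ?_
      push_cast
      rw [hy', map_sub, flEquiv_apply, flEquiv_apply, flAct_cF])
    have hw2 : inftyConst hz hC hz2 w = 0 := hw
    rwa [e, map_sub, inftyConst_cF, ha, sub_eq_zero] at hw2
  rw [key, c1] at c2
  simpa [map_mul, map_pow, hL1] using c2.symm

omit hz2 hL hL1 hC hϖv hq2 hA hqm in
theorem odd_entries {γ : SL(2, ℤ)} (hγ : γ ∈ Gamma 2) : Odd (γ 0 0) ∧ Odd (γ 1 1) := by
  rw [Gamma_mem] at hγ
  constructor <;>
  · rw [Int.odd_iff, ← Int.two_dvd_ne_zero]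
    intro h
    have h1 := (ZMod.intCast_zmod_eq_zero_iff_dvd _ 2).mpr h
    first
      | rw [hγ.1] at h1
      | rw [hγ.2.2.2] at h1
    exact one_ne_zero h1

omit hz2 hL hL1 hC hϖv hq2 hA in
include hN in
theorem four_le_m : 4 ≤ m := by
  have h4 : 4 ∣ q * m := ⟨g, by rw [← hNm, hN]⟩
  have hm0 : 0 < m := Nat.pos_of_ne_zero fun h0 => NeZero.ne N (by rw [hNm, h0, mul_zero])
  rcases hq.out.eq_two_or_odd' with rfl | ho
  · have hm : ¬ 2 ∣ m := hqm
    omega
  · exact Nat.le_of_dvd hm0 ((Nat.Coprime.dvd_of_dvd_mul_left (by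
      rw [show (4 : ℕ) = 2 ^ 2 from rfl]
      exact Nat.Coprime.pow_left _ (Nat.coprime_two_left.2 ho))) h4)

set_option maxHeartbeats 800000 in
/-- **The stabiliser consists of translations up to sign.** -/
theorem dvd_of_stab {γ : SL(2, ℤ)} (hγ : γ ∈ Gamma 2)
    (hst : flEquiv γ ∈ stabSet (galLvl A q 2) (ptSet (inftyPt hz hC hz2))) :
    (N : ℤ) ∣ γ 1 0 ∧ ∃ s : ℤ, (s = 1 ∨ s = -1) ∧ (N : ℤ) ∣ γ 1 1 - s := by
  haveI := charP_resField (q := q) hA
  obtain ⟨cD, hD⟩ := exists_isDen (g := g) hN hζ hA hq2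
  obtain ⟨τ, hτ, hτ0⟩ := exists_one_sub_etaO hζ hA hNm hqm hC hϖv
  have hm4 := four_le_m hN hNm hqm
  have hgen : ∀ δ : SL(2, ℤ), GenVec N m (δ 1 0, δ 1 1) := fun δ => by
    by_contra hc
    rw [GenVec, not_or, not_not, not_not] at hc
    have hdet := Matrix.SpecialLinearGroup.det_coe δ
    rw [Matrix.det_fin_two] at hdet
    have h1 : (m : ℤ) ∣ 1 := hdet ▸ dvd_sub (hc.2.mul_left _)
      (((show (m : ℤ) ∣ (N : ℤ) from ⟨q, by rw [hNm]; push_cast; ring⟩).trans hc.1).mul_left _)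
    have := Int.le_of_dvd one_pos h1
    omega
  have hv01 : IsVec N ((0 : ℤ), (1 : ℤ)) := fun h => by
    have h1 := Int.le_of_dvd one_pos h.2
    have := hq.out.two_le
    rw [hNm] at h1
    push_cast at h1
    nlinarith
  have hx01 : ∀ δ ∈ Gamma 2, ser (flAct δ (toFl (xR hN hζ (0, 1) hv01))) =
      psO A q (serX hζ cD g (δ 1 0, δ 1 1)) := fun δ hδ => by
    rw [← xF_of_isVec hN hζ hv01, flAct_xF hN hζ hδ hv01, ← ser_xF hN hζ hA hNm hqm hC hq2 hD (hgen δ)]
    simp [vmul]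
  have e := const_eq_of_stab hN hζ hC hz hz2 hL hL1 hγ hst _
    (fun δ hδ => mem_intSerRing.2 ⟨_, hx01 δ hδ⟩) (hx01 γ hγ)
    (P₁ := serX hζ cD g (0, 1)) (by
      have := hx01 1 (one_mem _)
      rw [flAct_one] at this
      simpa using this)
  have hg1 : GenVec N m ((0 : ℤ), (1 : ℤ)) := Or.inr fun h => by
    have := Int.le_of_dvd one_pos h
    omega
  rw [resO_const_serX hN hζ hA hNm hqm hC hq2 hD (hgen γ),
    resO_const_serX hN hζ hA hNm hqm hC hq2 hD hg1, if_pos (dvd_zero _)] at e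
  set y := resO A q (etaOI hζ ((0 : ℤ), (1 : ℤ)).2) with hy
  have hy0 : y ≠ 0 := resO_ne_of_isUnit (isUnit_etaOI hζ _)
  have hy1 : (1 : IsLocalRing.ResidueField A) - y ≠ 0 := by
    rw [sub_ne_zero]
    exact fun h => (hg1.resolve_left (not_not_intro (dvd_zero _)))
      ((resO_etaO_eq_one_iff hζ hA hNm hqm _).1 h.symm)
  have h4k : (4 : IsLocalRing.ResidueField A) ≠ 0 := by
    have := resO_ne_of_isUnit (isUnit_four (q := q) hA hq2)
    rwa [map_ofNat] at this
  by_cases hc : (N : ℤ) ∣ γ 1 0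
  swap
  · exfalso
    rw [if_neg (show ¬ (N : ℤ) ∣ (γ 1 0, γ 1 1).1 from hc), div_pow, eq_div_iff (pow_ne_zero 2 hy1)] at e
    exact mul_ne_zero h4k hy0 (by linear_combination -e)
  refine ⟨hc, ?_⟩
  rw [if_pos (show (N : ℤ) ∣ (γ 1 0, γ 1 1).1 from hc)] at e
  set x := resO A q (etaOI hζ (γ 1 0, γ 1 1).2) with hx
  have hx1 : (1 : IsLocalRing.ResidueField A) - x ≠ 0 := by
    rw [sub_ne_zero]
    exact fun h => ((hgen γ).resolve_left (not_not_intro hc))
      ((resO_etaO_eq_one_iff hζ hA hNm hqm _).1 h.symm)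
  have h2 : (x - y) * (1 - x * y) = 0 := by
    rw [div_pow, div_pow, div_eq_div_iff (pow_ne_zero 2 hx1) (pow_ne_zero 2 hy1)] at e
    exact (mul_eq_zero.1 (show 4 * ((x - y) * (1 - x * y)) = 0 by linear_combination e)).resolve_left h4k
  obtain ⟨s, hs, hsm⟩ : ∃ s : ℤ, (s = 1 ∨ s = -1) ∧ (m : ℤ) ∣ γ 1 1 - s := by
    rcases mul_eq_zero.1 h2 with h | h
    · refine ⟨1, Or.inl rfl, (resO_etaO_eq_one_iff hζ hA hNm hqm _).1 ?_⟩
      rw [sub_eq_add_neg, etaOI_add, map_mul]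
      show x * _ = 1
      rw [sub_eq_zero.1 h, hy, ← map_mul, ← etaOI_add]
      simp [etaOI_zero]
    · refine ⟨-1, Or.inr rfl, (resO_etaO_eq_one_iff hζ hA hNm hqm _).1 ?_⟩
      rw [sub_neg_eq_add, etaOI_add, map_mul]
      exact (sub_eq_zero.1 h).symm
  refine ⟨s, hs, ?_⟩
  have hd := (odd_entries hNm hγ).2
  have hv0 : IsVec N ((0 : ℤ), (m : ℤ)) := fun h => by
    have := Int.le_of_dvd (by omega) h.2
    rw [hNm] at this
    push_cast at this
    have := hq.out.two_le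
    nlinarith
  have hva : IsVec N (qV g + ((0 : ℤ), (m : ℤ))) := GenVec.isVec hNm (by
    simpa [qV] using genVec_shift hN hA hNm hqm (c := 0) odd_one 1)
  have hvb : IsVec N (qV g - ((0 : ℤ), (m : ℤ))) := GenVec.isVec hNm (by
    simpa [qV, ← sub_eq_add_neg] using genVec_shift hN hA hNm hqm (c := 0) odd_one (-1))
  set r : rN N (constK A q) := rC (baseK A q ϖ) *
    (xR hN hζ _ hva - xR hN hζ _ hvb) * xR hN hζ _ hv0 with hr
  have hr' : toFl r = signR N g m hN hζ ϖ := by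
    rw [hr, map_mul, map_mul, map_sub, signR, xF_of_isVec hN hζ hva, xF_of_isVec hN hζ hvb,
      xF_of_isVec hN hζ hv0]
    rfl
  obtain ⟨P, hP, hPc⟩ := exists_ser_signR hN hζ hA hNm hqm hC hq2 hD hτ hτ0 hγ
  obtain ⟨P₁, hP₁, hPc₁⟩ := exists_ser_signR hN hζ hA hNm hqm hC hq2 hD hτ hτ0 (one_mem (Gamma 2))
  rw [flAct_one] at hP₁
  have e2 := const_eq_of_stab hN hζ hC hz hz2 hL hL1 hγ hst r (fun δ hδ => by
      obtain ⟨P', hP', -⟩ := exists_ser_signR hN hζ hA hNm hqm hC hq2 hD hτ hτ0 hδ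
      rw [hr']
      exact mem_intSerRing.2 ⟨P', hP'⟩) (by rw [hr']; exact hP) (by rw [hr']; exact hP₁)
  rw [hPc hc, hPc₁ (by simp)] at e2
  have hdk : (γ 1 1 : IsLocalRing.ResidueField A) ≠ 0 := fun h0 => by
    have hdet := Matrix.SpecialLinearGroup.det_coe γ
    rw [Matrix.det_fin_two] at hdet
    have h1 : (q : ℤ) ∣ 1 := hdet ▸ dvd_sub (((CharP.intCast_eq_zero_iff _ q _).1 h0).mul_left _)
      (((show (q : ℤ) ∣ (N : ℤ) from ⟨m, by rw [hNm]; push_cast; rfl⟩).trans hc).mul_left _)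
    exact hq.out.one_lt.ne' (by exact_mod_cast Int.eq_one_of_dvd_one (by positivity) h1)
  set j := resO A q (etaOI hζ ((g : ℤ) * γ 1 1))
  set i := resO A q (etaOI hζ (g : ℤ)) with hi
  have h16 : (16 : IsLocalRing.ResidueField A) ≠ 0 := by
    rw [show (16 : IsLocalRing.ResidueField A) = 4 * 4 by norm_num]
    exact mul_ne_zero h4k h4k
  simp only [Matrix.SpecialLinearGroup.coe_one, Matrix.one_apply_eq, Int.cast_one, one_mul, mul_one,
    ← hi] at e2
  rw [div_eq_div_iff (mul_ne_zero hdk hτ0) hτ0] at e2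
  have e3 : j = i * (γ 1 1 : IsLocalRing.ResidueField A) :=
    mul_left_cancel₀ (mul_ne_zero h16 hτ0) (by linear_combination e2)
  have hi2 : i ^ 2 = -1 := by
    simpa [hi] using resO_etaO_sq_g hN hζ hA hNm hqm hC hq2 hD hτ hτ0 odd_one
  have hi0 : i ≠ 0 := resO_ne_of_isUnit (isUnit_etaOI hζ _)
  have hj : j = i * (s : IsLocalRing.ResidueField A) := by
    rw [show j = resO A q (etaOI hζ ((g : ℤ) * s)) from resO_etaO_congr hζ hA hNm hqm (by
      rw [← mul_sub]; exact hsm.mul_left _)]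
    rcases hs with rfl | rfl
    · simp [hi]
    · have h1 : resO A q (etaOI hζ (-(g : ℤ))) * i = 1 := by
        rw [hi, ← map_mul, etaO_neg_mul, map_one]
      rw [mul_neg_one, Int.cast_neg, Int.cast_one, mul_neg_one]
      exact mul_right_cancel₀ hi0 (by linear_combination h1 + hi2)
  have hsq : (q : ℤ) ∣ γ 1 1 - s := by
    refine (CharP.intCast_eq_zero_iff (IsLocalRing.ResidueField A) q _).1 ?_
    rw [Int.cast_sub, sub_eq_zero]
    exact mul_left_cancel₀ hi0 (e3.symm.trans hj)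
  rw [hNm, Nat.cast_mul]
  exact Int.natCast_dvd.2 (by
    have := Nat.Coprime.mul_dvd_of_dvd_of_dvd ((Nat.Prime.coprime_iff_not_dvd hq.out).2 hqm)
      (Int.natCast_dvd.1 hsq) (Int.natCast_dvd.1 hsm)
    simpa using this)

/-- **The stabiliser has at most `N / 2` elements.** -/
theorem card_stab_le :
    Nat.card ↥(stabSet (galLvl A q 2) (ptSet (inftyPt hz hC hz2))) ≤ 2 * g := by
  classical
  let f : Fin (2 * g) → (flN N (constK A q) ≃+* flN N (constK A q)) :=
    fun j => flEquiv (upU (2 * (j : ℤ)))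
  have hsub : (stabSet (galLvl A q 2) (ptSet (inftyPt hz hC hz2)) : Set _) ⊆ Set.range f := by
    intro φ hφ
    obtain ⟨δ, hδ, rfl⟩ := hφ.1
    have hδ' : δ⁻¹ ∈ Gamma 2 := inv_mem hδ
    obtain ⟨hc, s, hs, hd⟩ := dvd_of_stab hN hζ hA hNm hqm hC hϖv hq2 hz hz2 hL hL1 hδ' hφ
    set γ := δ⁻¹ with hγdef
    have hs1 : s * s = 1 := by rcases hs with rfl | rfl <;> norm_num
    have hg0 : 0 < g := g_pos hN
    obtain ⟨e, he⟩ : (2 : ℤ) ∣ γ 0 1 := (ZMod.intCast_zmod_eq_zero_iff_dvd _ 2).mp (Gamma_mem.1 hδ').2.1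
    have h2g : ((2 * g : ℕ) : ℤ) ≠ 0 := by positivity
    set j := ((s * e) % ((2 * g : ℕ) : ℤ)).toNat with hj
    have hj' : (j : ℤ) = (s * e) % ((2 * g : ℕ) : ℤ) :=
      Int.toNat_of_nonneg (Int.emod_nonneg _ h2g)
    have hjlt : j < 2 * g := by
      have := Int.emod_lt_of_pos (s * e) (show (0 : ℤ) < ((2 * g : ℕ) : ℤ) by positivity)
      omega
    refine ⟨⟨j, hjlt⟩, RingEquiv.ext fun x => ?_⟩
    show flAct (upU (2 * (j : ℤ))) x = flAct γ x
    set γ' := γ * upU (-(2 * (j : ℤ)))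
    have hU : γ = γ' * upU (2 * (j : ℤ)) := by
      rw [mul_assoc, show upU (-(2 * (j : ℤ))) * upU (2 * (j : ℤ)) = 1 from by
        ext a b; fin_cases a <;> fin_cases b <;> simp [upU, Matrix.mul_apply, Fin.sum_univ_two],
        mul_one]
    obtain ⟨k0, hk0⟩ := hc
    obtain ⟨k1, hk1⟩ := hd
    have hdet := Matrix.SpecialLinearGroup.det_coe γ
    rw [Matrix.det_fin_two] at hdet
    have ha : (N : ℤ) ∣ γ 0 0 - s := by
      refine ⟨s * (γ 0 1 * k0 - γ 0 0 * k1), ?_⟩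
      linear_combination s * hdet - γ 0 0 * hs1 - s * γ 0 0 * hk1 + s * γ 0 1 * hk0
    obtain ⟨k2, hk2⟩ := ha
    obtain ⟨k3, hk3⟩ : ((2 * g : ℕ) : ℤ) ∣ s * e - j := by
      rw [hj']; exact Int.dvd_self_sub_emod
    have hN' : (N : ℤ) = 2 * ((2 * g : ℕ) : ℤ) := by rw [hN]; push_cast; ring
    have hz' : ∀ x : ℤ, (N : ℤ) ∣ x → ((x : ℤ) : ZMod N) = 0 := fun x hx =>
      (ZMod.intCast_zmod_eq_zero_iff_dvd _ _).mpr hx
    have e00 : γ' 0 0 = γ 0 0 := by
      simp [γ', upU, Matrix.mul_apply, Fin.sum_univ_two]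
    have e01 : γ' 0 1 = γ 0 1 - 2 * j * γ 0 0 := by
      simp [γ', upU, Matrix.mul_apply, Fin.sum_univ_two]; ring
    have e10 : γ' 1 0 = γ 1 0 := by
      simp [γ', upU, Matrix.mul_apply, Fin.sum_univ_two]
    have e11 : γ' 1 1 = γ 1 1 - 2 * j * γ 1 0 := by
      simp [γ', upU, Matrix.mul_apply, Fin.sum_univ_two]; ring
    have d00 : (N : ℤ) ∣ γ' 0 0 - s := ⟨k2, by rw [e00]; exact hk2⟩
    have d01 : (N : ℤ) ∣ γ' 0 1 := ⟨s * k3 - 2 * j * k2, by
      rw [e01]
      linear_combination he - 2 * e * hs1 + 2 * s * hk3 - 2 * (j : ℤ) * hk2 - s * k3 * hN'⟩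
    have d10 : (N : ℤ) ∣ γ' 1 0 := ⟨k0, by rw [e10]; exact hk0⟩
    have d11 : (N : ℤ) ∣ γ' 1 1 - s := ⟨k1 - 2 * j * k0, by
      rw [e11]; linear_combination hk1 - 2 * (j : ℤ) * hk0⟩
    have hfix : flAct γ' x = x := by
      refine Subtype.ext ?_
      rw [coe_flAct]
      rcases hs with rfl | rfl
      · refine merSL_eq_self (Gamma_mem.2 ⟨?_, ?_, ?_, ?_⟩) x.2
        · simpa [sub_eq_zero] using hz' _ d00
        · exact hz' _ d01
        · exact hz' _ d10
        · simpa [sub_eq_zero] using hz' _ d11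
      · rw [show merSL γ' = merSL (-γ') from
          merComp_congr _ _ (funext fun z => (ModularGroup.SL_neg_smul γ' z).symm)]
        refine merSL_eq_self (Gamma_mem.2 ⟨?_, ?_, ?_, ?_⟩) x.2
        · have := hz' _ d00
          simp only [Int.cast_sub, Int.cast_add, Int.cast_neg, Int.cast_one, sub_neg_eq_add] at this
          simp only [Matrix.SpecialLinearGroup.coe_neg, Matrix.neg_apply, Int.cast_neg]
          linear_combination -this
        · simpa using hz' _ d01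
        · simpa using hz' _ d10
        · have := hz' _ d11
          simp only [Int.cast_sub, Int.cast_add, Int.cast_neg, Int.cast_one, sub_neg_eq_add] at this
          simp only [Matrix.SpecialLinearGroup.coe_neg, Matrix.neg_apply, Int.cast_neg]
          linear_combination -this
    rw [hU, flAct_mul, hfix]
  calc Nat.card ↥(stabSet (galLvl A q 2) (ptSet (inftyPt hz hC hz2)))
      ≤ Nat.card (Set.range f) := Nat.card_mono (Set.finite_range f) hsub
    _ ≤ Nat.card (Fin (2 * g)) := Finite.card_range_le f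
    _ = 2 * g := Nat.card_fin _

end FA.Carayol

end
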