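import Fermat.Agent.Carayol.Model.OddDefs
import Fermat.Agent.Carayol.Vert.Content
import Fermat.Agent.Carayol.Const.Basic

/-!
# An odd prime: integrality of the expansions at infinity

Integral constants, the series of the abscissae with their constant term removed, and the series of
`λ`, whose coefficients lie in any subring of the constants containing `1 / 4`.
-/

set_option autoImplicit false
set_option linter.unusedSectionVars false
set_option linter.style.haveILetI false

noncomputable section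

namespace FA.Carayol

open CongruenceSubgroup HahnSeries ModularCurve FA.Level FA.ModField FA.Mazur.Wp
open scoped MatrixGroups

local notation "Qb" => AlgebraicClosure ℚ

section ring

variable {N : ℕ} [NeZero N] {K : Subfield ℂ} (R : Subring K)

/-- The positive coefficients are polynomials in the root of unity and its inverse. -/
theorem xCoeff_succ_mem {η : K} (h1 : η ∈ R) (h2 : η⁻¹ ∈ R) (a : ℤ) (n : ℕ) :
    xCoeff N a η (n + 1) ∈ R := by
  rw [xCoeff]
  refine sum_mem fun x _ => mul_mem (natCast_mem R _) (sub_mem (add_mem ?_ ?_) ?_) <;> split_ifs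
  · exact pow_mem h1 _
  · exact zero_mem R
  · exact pow_mem h2 _
  · exact zero_mem R
  · rw [show (2 : K) = ((2 : ℕ) : K) from Nat.cast_ofNat.symm]; exact natCast_mem R 2
  · exact zero_mem R

/-- A series with coefficients in a subring comes from the subring. -/
theorem exists_power_of_mem (P : PowerSeries K) (h : ∀ n, PowerSeries.coeff n P ∈ R) :
    ∃ P' : PowerSeries R, PowerSeries.map R.subtype P' = P :=
  ⟨PowerSeries.mk fun n => ⟨_, h n⟩, PowerSeries.ext fun n => by simp⟩

theorem coeff_ofPowerSeries_mem (P : PowerSeries R) (i : ℤ) :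
    (ofPowerSeries ℤ K (PowerSeries.map R.subtype P)).coeff i ∈ R := by
  rcases lt_or_ge i 0 with hi | hi
  · rw [ModularCurve.ofPowerSeries_coeff_of_neg _ hi]; exact zero_mem R
  · obtain ⟨n, rfl⟩ := Int.eq_ofNat_of_zero_le hi
    rw [ofPowerSeries_apply_coeff, PowerSeries.coeff_map]
    exact SetLike.coe_mem _

variable (hζ : ∀ b : ℤ, eta N b ∈ K)

/-- `xSer` with `1 / 12` removed. -/
def xI (v : ℤ × ℤ) : PowerSeries K :=
  xSer N v.1 (⟨eta N v.2, hζ v.2⟩ : K) - PowerSeries.C (1 / 12 : K)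

theorem xK_sub_xK_ints (v w : ℤ × ℤ) :
    xK K hζ v - xK K hζ w = ofPowerSeries ℤ K (xI hζ v - xI hζ w) := by
  rw [xK, xK, xI, xI, sub_sub_sub_cancel_right, map_sub]

theorem coeff_xI_zero (v : ℤ × ℤ) : PowerSeries.coeff 0 (xI hζ v) =
    if (N : ℤ) ∣ v.1 then (⟨eta N v.2, hζ v.2⟩ : K) / (1 - ⟨eta N v.2, hζ v.2⟩) ^ 2 else 0 := by
  rw [xI, map_sub, xSer, PowerSeries.coeff_mk, xCoeff, PowerSeries.coeff_C, if_pos rfl,
    add_sub_cancel_left]

theorem coeff_xI_succ (v : ℤ × ℤ) (n : ℕ) : PowerSeries.coeff (n + 1) (xI hζ v) =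
    xCoeff N v.1 (⟨eta N v.2, hζ v.2⟩ : K) (n + 1) := by
  rw [xI, map_sub, xSer, PowerSeries.coeff_mk, PowerSeries.coeff_C, if_neg (Nat.succ_ne_zero n),
    sub_zero]

theorem coeff_xI_mem {v : ℤ × ℤ} (h1 : (⟨eta N v.2, hζ v.2⟩ : K) ∈ R)
    (h2 : (⟨eta N v.2, hζ v.2⟩ : K)⁻¹ ∈ R)
    (h0 : PowerSeries.coeff 0 (xI hζ v) ∈ R) (n : ℕ) : PowerSeries.coeff n (xI hζ v) ∈ R := by
  cases n with
  | zero => exact h0
  | succ n => rw [coeff_xI_succ]; exact xCoeff_succ_mem R h1 h2 _ n

variable {h : ℕ} (hN : N = 2 * h)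
include hN

theorem coeff_xI_half (v : ℤ × ℤ) (hv : v = tA h ∨ v = tB h ∨ v = tC h)
    (h4 : (4 : K)⁻¹ ∈ R) (n : ℕ) : PowerSeries.coeff n (xI hζ v) ∈ R := by
  have hη : (⟨eta N v.2, hζ v.2⟩ : K) = 1 ∨ (⟨eta N v.2, hζ v.2⟩ : K) = -1 := by
    rcases hv with rfl | rfl | rfl
    · exact Or.inl (Subtype.ext (by simp [tA, eta_zero' hN]))
    · exact Or.inr (Subtype.ext (by simp [tB, eta_half hN]))
    · exact Or.inr (Subtype.ext (by simp [tC, eta_half hN]))
  refine coeff_xI_mem R hζ ?_ ?_ ?_ n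
  · rcases hη with e | e <;> rw [e]
    exacts [one_mem R, neg_mem (one_mem R)]
  · rcases hη with e | e <;> rw [e]
    · rw [inv_one]; exact one_mem R
    · rw [inv_neg, inv_one]; exact neg_mem (one_mem R)
  · rw [coeff_xI_zero]
    split_ifs with hd
    · rcases hv with rfl | rfl | rfl
      · exact absurd hd (not_dvd_half hN)
      · rw [show (⟨eta N (tB h).2, hζ _⟩ : K) = -1 from Subtype.ext (by simp [tB, eta_half hN])]
        rw [show (-1 : K) / (1 - -1) ^ 2 = -(4 : K)⁻¹ by norm_num]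
        exact neg_mem h4
      · exact absurd hd (not_dvd_half hN)
    · exact zero_mem R

/-- The denominator of `λ` has constant term `1 / 4`. -/
theorem coeff_den_zero :
    PowerSeries.coeff 0 (xI hζ (tA h) - xI hζ (tB h)) = (4 : K)⁻¹ := by
  rw [map_sub, coeff_xI_zero, coeff_xI_zero, if_neg (show ¬ (N : ℤ) ∣ (tA h).1 from not_dvd_half hN),
    if_pos (show (N : ℤ) ∣ (tB h).1 from dvd_zero _),
    show (⟨eta N (tB h).2, hζ _⟩ : K) = -1 from Subtype.ext (by simp [tB, eta_half hN])]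
  norm_num

/-- The denominator of `λ` is invertible over a ring containing `1 / 4`. -/
theorem exists_den_inv (h4 : (4 : K)⁻¹ ∈ R) : ∃ c : PowerSeries R,
    (xK K hζ (tA h) - xK K hζ (tB h))⁻¹ = ofPowerSeries ℤ K (PowerSeries.map R.subtype c) := by
  obtain ⟨d, hd⟩ := exists_power_of_mem R (xI hζ (tA h) - xI hζ (tB h)) fun n => by
    rw [map_sub]
    exact sub_mem (coeff_xI_half R hζ hN _ (Or.inl rfl) h4 n)
      (coeff_xI_half R hζ hN _ (Or.inr (Or.inl rfl)) h4 n)
  have hu : IsUnit (PowerSeries.constantCoeff d) := by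
    refine isUnit_iff_exists_inv.2 ⟨4, Subtype.ext ?_⟩
    rw [← PowerSeries.coeff_zero_eq_constantCoeff_apply]
    have e := congrArg (PowerSeries.coeff 0) hd
    rw [PowerSeries.coeff_map, coeff_den_zero hζ hN] at e
    show R.subtype _ * R.subtype 4 = R.subtype 1
    rw [e, map_ofNat, map_one]
    exact inv_mul_cancel₀ (by norm_num)
  obtain ⟨c, hc⟩ := (PowerSeries.isUnit_iff_constantCoeff.2 hu).exists_right_inv
  refine ⟨c, inv_eq_of_mul_eq_one_right ?_⟩
  rw [xK_sub_xK_ints, ← hd, ← map_mul, ← map_mul, hc, map_one, map_one]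

/-- The coefficients of `λ`. -/
theorem lam_coeff_mem (h4 : (4 : K)⁻¹ ∈ R) (i : ℤ) :
    (rSer (lam hN K hζ)).coeff i ∈ R := by
  obtain ⟨c, hc⟩ := exists_den_inv R hζ hN h4
  obtain ⟨d, hd⟩ := exists_power_of_mem R (xI hζ (tC h) - xI hζ (tB h)) fun n => by
    rw [map_sub]
    exact sub_mem (coeff_xI_half R hζ hN _ (Or.inr (Or.inr rfl)) h4 n)
      (coeff_xI_half R hζ hN _ (Or.inr (Or.inl rfl)) h4 n)
  rw [lam, rSer_ratHol, hc, xK_sub_xK_ints, ← hd, ← map_mul, ← map_mul]
  exact coeff_ofPowerSeries_mem R _ i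

end ring

/-! ### At a place over `q` -/

variable [Algebra Qb ℂ] {A : ValuationSubring Qb} {q : ℕ}

/-- The integral constants inside the constants. -/
def intK (A : ValuationSubring Qb) (q : ℕ) : Subring (constK A q) := (baseK A q).range

theorem exists_serO_eq {S : LaurentSeries (constK A q)} (h : ∀ i, S.coeff i ∈ intK A q) :
    ∃ a, serO A q a = S ∧ ∀ i, baseK A q (a.coeff i) = S.coeff i := by
  choose f hf using h
  refine ⟨{ coeff := f
            isPWO_support' := S.isPWO_support.mono fun i hi => ?_ }, ?_, hf⟩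
  · rw [HahnSeries.mem_support, ← hf i]
    exact (map_ne_zero_iff _ baseK_injective).2 hi
  · exact HahnSeries.ext (funext fun i => hf i)

/-- A root of unity among the constants is integral. -/
theorem mem_intK_of_pow {c : constK A q} {n : ℕ} (hn : n ≠ 0) (hc : c ^ n = 1) :
    c ∈ intK A q := by
  obtain ⟨x, rfl⟩ := toK_surjective A q c
  have hx : (x : Qb) ^ n = 1 := by
    have h1 := congrArg Subtype.val hc
    refine (algebraMap Qb ℂ).injective ?_
    rw [map_pow, map_one]
    exact h1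
  refine ⟨⟨x, (A.valuation_le_one_iff _).1 (FA.LocalDef.map_eq_one_of_pow_eq_one A.valuation hn hx).le, x.2⟩, ?_⟩
  rfl

theorem eta_pow_self {N : ℕ} [NeZero N] (b : ℤ) : (eta N b) ^ N = 1 := by
  rw [eta, ← Complex.exp_nat_mul, mul_div_cancel₀ _ (Nat.cast_ne_zero.mpr (NeZero.ne N)), tpi]
  exact Complex.exp_eq_one_iff.mpr ⟨b, by ring⟩

theorem eta_mem_intK {N : ℕ} [NeZero N] (hζ : ∀ b : ℤ, eta N b ∈ constK A q) (b : ℤ) :
    (⟨eta N b, hζ b⟩ : constK A q) ∈ intK A q ∧
      (⟨eta N b, hζ b⟩ : constK A q)⁻¹ ∈ intK A q := by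
  have h : (⟨eta N b, hζ b⟩ : constK A q) ^ N = 1 := Subtype.ext (by simp [eta_pow_self b])
  exact ⟨mem_intK_of_pow (NeZero.ne N) h,
    mem_intK_of_pow (NeZero.ne N) (by rw [inv_pow, h, inv_one])⟩

variable [hq : Fact q.Prime]

/-- An integer prime to `q` is a unit among the integral constants. -/
theorem isUnit_natCast_base (hA : A.LiesOverPrime q) {n : ℕ} (hn : ¬ q ∣ n) :
    IsUnit (n : baseO A (constL A q).toSubfield) := by
  have hv : A.valuation (n : Qb) = 1 := by
    have := FA.Local.natCast_eq_one_of_not_dvd (v := A.valuation) hq.out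
      ((ValuationSubring.mem_nonunits_iff _).1 hA) (n := (n : ℤ)) (by rwa [Int.natCast_dvd_natCast])
    simpa using this
  have hne : (n : Qb) ≠ 0 := A.valuation.ne_zero_iff.mp (by rw [hv]; exact one_ne_zero)
  refine isUnit_iff_exists_inv.2 ⟨⟨(n : Qb)⁻¹, (A.valuation_le_one_iff _).1
    (by rw [map_inv₀, hv, inv_one]), (constL A q).toSubfield.inv_mem (natCast_mem _ n)⟩,
    Subtype.ext ?_⟩
  show (n : Qb) * (n : Qb)⁻¹ = 1
  exact mul_inv_cancel₀ hne

theorem isUnit_four (hA : A.LiesOverPrime q) (hq2 : q ≠ 2) :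
    IsUnit (4 : baseO A (constL A q).toSubfield) := by
  have h : ¬ q ∣ 4 := fun h => hq2 ((Nat.prime_dvd_prime_iff_eq hq.out Nat.prime_two).1
    (hq.out.dvd_of_dvd_pow (show q ∣ 2 ^ 2 from h)))
  simpa using isUnit_natCast_base hA h

/-- The constants fixed by the Frobenius modulo `q`. -/
def frobFix (A : ValuationSubring Qb) (q : ℕ) [Fact q.Prime] [CharP (IsLocalRing.ResidueField A) q] :
    Subring (baseO A (constL A q).toSubfield) where
  carrier := {a | resO A q a ^ q = resO A q a}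
  one_mem' := by simp
  zero_mem' := by simp [(Fact.out : q.Prime).ne_zero]
  add_mem' {a b} ha hb := by
    simp only [Set.mem_ofPred_eq, map_add, add_pow_char] at *
    rw [ha, hb]
  mul_mem' {a b} ha hb := by
    simp only [Set.mem_ofPred_eq, map_mul, mul_pow] at *
    rw [ha, hb]
  neg_mem' {a} ha := by
    simp only [Set.mem_ofPred_eq, map_neg] at *
    rw [show (-resO A q a) ^ q = -(resO A q a ^ q) from map_neg (frobenius _ q) _, ha]

theorem charP_resField (hA : A.LiesOverPrime q) : CharP (IsLocalRing.ResidueField A) q := by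
  refine (CharP.charP_iff_prime_eq_zero hq.out).2 ?_
  rw [← map_natCast (IsLocalRing.residue A), IsLocalRing.residue_eq_zero_iff,
    IsLocalRing.mem_maximalIdeal, mem_nonunits_iff]
  intro hu
  have h1 : A.valuation (q : Qb) = 1 := by simpa using (A.valuation_eq_one_iff _).1 hu
  exact ((ValuationSubring.mem_nonunits_iff _).1 hA).ne h1

variable {N g : ℕ} [NeZero N] (hN : N = 4 * g) (hζ : ∀ b : ℤ, eta N b ∈ constK A q)

/-- **The series of `λ` is integral; modulo `q` its coefficients lie in the prime field.** -/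
theorem exists_lam_int (hA : A.LiesOverPrime q) (hq2 : q ≠ 2) :
    ∃ Λ : LaurentSeries (baseO A (constL A q).toSubfield),
      serO A q Λ = rSer (lam (two_g hN) (constK A q) hζ) ∧
      (∀ i, resO A q (Λ.coeff i) ^ q = resO A q (Λ.coeff i)) ∧
      (∀ i, i < 0 → Λ.coeff i = 0) ∧
      (∀ i, ¬ ((2 * g : ℕ) : ℤ) ∣ i → Λ.coeff i = 0) ∧
      (∀ i, i < ((2 * g : ℕ) : ℤ) → (1 - Λ).coeff i = 0) ∧
      resO A q ((1 - Λ).coeff ((2 * g : ℕ) : ℤ)) ≠ 0 := by
  haveI := charP_resField hA
  have h4u := isUnit_four (q := q) hA hq2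
  obtain ⟨u, hu⟩ := h4u.exists_right_inv
  have h4 : (4 : constK A q)⁻¹ ∈ (frobFix A q).map (baseK A q) := by
    refine ⟨u, ?_, eq_inv_of_mul_eq_one_right (by
      rw [← map_ofNat (baseK A q) 4, ← map_mul, hu, map_one])⟩
    show resO A q u ^ q = resO A q u
    have e := congrArg (resO A q) hu
    rw [map_mul, map_one, map_ofNat] at e
    have h44 : (4 : IsLocalRing.ResidueField A) ^ q = 4 := by
      simpa [frobenius_def] using map_natCast (frobenius (IsLocalRing.ResidueField A) q) 4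
    rw [eq_inv_of_mul_eq_one_right e, inv_pow, h44]
  have hmem := lam_coeff_mem ((frobFix A q).map (baseK A q)) hζ (two_g hN) h4
  obtain ⟨Λ, hΛ, hc⟩ := exists_serO_eq (S := rSer (lam (two_g hN) (constK A q) hζ)) fun i => by
    obtain ⟨a, -, ha⟩ := hmem i
    exact ⟨a, ha⟩
  have h1 : serO A q (1 - Λ) = rSer (1 - lam (two_g hN) (constK A q) hζ) := by
    rw [map_sub, map_sub, map_one, map_one, hΛ]
  have h1' : ∀ i, baseK A q ((1 - Λ).coeff i) =
      (rSer (1 - lam (two_g hN) (constK A q) hζ)).coeff i := fun i =>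
    congrArg (fun s : LaurentSeries _ => s.coeff i) h1
  refine ⟨Λ, hΛ, fun i => ?_, fun i hi => ?_, fun i hi => ?_, fun i hi => ?_, ?_⟩
  · obtain ⟨a, ha, hai⟩ := hmem i
    rw [← baseK_injective (hai.trans (hc i).symm)]
    exact ha
  · exact baseK_injective (by rw [hc, ordGE_rSer_lam (two_g hN) _ hζ i hi, map_zero])
  · refine baseK_injective ?_
    rw [hc, map_zero]
    by_contra h0
    refine hi (dvd_of_coeff_ne (two_g hN) _ hζ (f := lam (two_g hN) (constK A q) hζ)
      (fun γ hγ => rAct_lam_gamma_two (two_g hN) _ hζ hγ) 1 ?_)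
    rwa [rAct_one]
  · refine baseK_injective ?_
    rw [h1', map_zero]
    exact (rSer_one_sub_lam (two_g hN) _ hζ).1 i hi
  · rw [baseK_injective (a₁ := (1 - Λ).coeff ((2 * g : ℕ) : ℤ)) (a₂ := 4 * 4) (by
      rw [h1', (rSer_one_sub_lam (two_g hN) _ hζ).2, map_mul, map_ofNat]; norm_num)]
    exact resO_ne_of_isUnit ((isUnit_four hA hq2).mul (isUnit_four hA hq2))

end FA.Carayol

end
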