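import Fermat.Agent.Carayol.OddInf.CuspCore
import Fermat.Agent.Carayol.OddInf.CuspMove

/-!
# An odd prime: what is read off from the expansion at infinity
-/

set_option autoImplicit false
set_option linter.unusedSectionVars false

noncomputable section

namespace FA.Carayol

open CongruenceSubgroup ModularCurve FA.Level FA.Mazur.Wp
open scoped MatrixGroups

local notation "Qb" => AlgebraicClosure ℚ

/-- **The facts at infinity and at the cusps hold.** -/
theorem oddInfty [Algebra Qb ℂ] (A : ValuationSubring Qb) (q : ℕ) {N g : ℕ} [NeZero N]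
    (hN : N = 4 * g) (hζ : ∀ b : ℤ, eta N b ∈ constK A q)
    (ϖ : baseO A (constL A q).toSubfield) : OddInftyHolds A q hN hζ ϖ := by
  intro _ m hq2 hNm hqm h4 hA hC hϖv
  have hz := oddCoord hN hζ hA hq2
  obtain ⟨I, hI, h1, hloc, hu⟩ := exists_inftyPt_local hN hζ hA hNm hqm h4 hC hϖv hq2
  exact ⟨hz, oddLine hN hζ hq2 hNm hA hC hϖv, oddFrob hN hζ hq2 hNm h4 hA hC,
    cusp_of_infty hN hζ hC hz I hI h1 hloc hu⟩

end FA.Carayol

end
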