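import Fermat.Agent.Carayol.OddInf.Coord
import Fermat.Agent.Carayol.Vert.Main
import Fermat.Agent.Carayol.Model.PtDefs

/-!
# An odd prime: functions integral over the constants and `λ`

An invariant with its only poles at the cusp over `λ = ∞` which is integral at infinity is an
integral polynomial in `λ`; functions whose conjugates are such are integral.
-/

set_option autoImplicit false
set_option linter.unusedSectionVars false
set_option linter.style.haveILetI false

noncomputable section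

namespace FA.Carayol

open CongruenceSubgroup ModularCurve FA.Level FA.ModField FA.Mazur.Wp Polynomial
open scoped MatrixGroups

local notation "Qb" => AlgebraicClosure ℚ

variable [Algebra Qb ℂ] {A : ValuationSubring Qb} {q : ℕ}

/-- A polynomial over the constants times an integral constant is integral. -/
theorem exists_mul_integral (P : (constK A q)[X]) :
    ∃ (d : baseO A (constL A q).toSubfield) (P' : (baseO A (constL A q).toSubfield)[X]),
      d ≠ 0 ∧ Polynomial.C (baseK A q d) * P = P'.map (baseK A q) := by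
  induction P using Polynomial.induction_on' with
  | add p r hp hr =>
    obtain ⟨d, p', hd, h1⟩ := hp
    obtain ⟨e, r', he, h2⟩ := hr
    refine ⟨d * e, Polynomial.C e * p' + Polynomial.C d * r', mul_ne_zero hd he, ?_⟩
    rw [Polynomial.map_add, Polynomial.map_mul, Polynomial.map_mul, ← h1, ← h2, map_C, map_C,
      map_mul, map_mul]
    ring
  | monomial n x =>
    obtain ⟨u, v, hv, huv⟩ := exists_base_fraction x
    refine ⟨v, monomial n u, hv, ?_⟩
    rw [map_monomial, C_mul_monomial, ← huv, mul_comm]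

variable {N g : ℕ} [NeZero N] (hN : N = 4 * g) (hζ : ∀ b : ℤ, eta N b ∈ constK A q)
  {ϖ : baseO A (constL A q).toSubfield} (hC : ConstHyp A (constL A q).toSubfield ϖ)
  (hz : Coord A q 2 (lamF hN hζ))

include hC hz in
/-- **An invariant integral at infinity with poles only over `λ = ∞` is an integral polynomial.** -/
theorem exists_poly_int {c : rN N (constK A q)} (hinv : ∀ γ ∈ Gamma 2, rAct γ c = c)
    (h0 : OrdGE 0 (rSer (rAct (cuspRep 0) c))) (h1 : OrdGE 0 (rSer (rAct (cuspRep 1) c)))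
    (hW : toFl c ∈ inftyVal hz hC) :
    ∃ P : (baseO A (constL A q).toSubfield)[X],
      toFl c = P.eval₂ (cF A q N) (lamF hN hζ) := by
  haveI := hC.dvr
  have hg := g_pos hN
  obtain ⟨P₀, hP₀⟩ := exists_poly_of_pole (two_g hN) (constK A q) hζ
    (-(rSer (rAct (cuspRep 2) c)).order).toNat c hinv h0 h1 ((ordGE_order _).mono (by
      have h2 := Nat.le_mul_of_pos_right (-(rSer (rAct (cuspRep 2) c)).order).toNat
        (show 0 < 2 * g by omega)
      omega))
  obtain ⟨d, P', hd, hP'⟩ := exists_mul_integral P₀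
  have he : cF A q N d * toFl c = P'.eval₂ (cF A q N) (lamF hN hζ) := by
    rw [hP₀, hom_eval₂]
    have e := congrArg (fun p : (constK A q)[X] =>
      p.eval₂ ((toFl (N := N)).comp rC) (lamF hN hζ)) hP'
    simp only [eval₂_mul, eval₂_C, eval₂_map] at e
    exact e
  rcases eq_or_ne P' 0 with rfl | hne
  · refine ⟨0, ?_⟩
    rw [eval₂_zero, mul_eq_zero] at he
    rw [eval₂_zero]
    exact he.resolve_left ((map_ne_zero_iff _ (cF_injective N)).2 hd)
  obtain ⟨k, P'', hP'', ⟨⟩, j, hj⟩ := exists_poly_content hC (fun _ : Unit => P') ⟨(), hne⟩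
  obtain ⟨i, u, rfl⟩ := IsDiscreteValuationRing.eq_unit_mul_pow_irreducible hd hC.irreducible
  have hp := isVertF_inftyVal hz hC
  have hp0 : (inftyVal hz hC).valuation (cF A q N ϖ) ≠ 0 :=
    (Valuation.ne_zero_iff _).2 (cF_pi_ne_zero hC)
  have hu : (inftyVal hz hC).valuation (cF A q N (u : baseO A (constL A q).toSubfield)) = 1 := by
    have h3 := hp.2 (Polynomial.C (u : baseO A (constL A q).toSubfield))
      ⟨0, by rw [coeff_C_zero]; exact u.isUnit⟩
    rwa [eval₂_C] at h3
  have hle : i ≤ k := by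
    have h3 := congrArg (inftyVal hz hC).valuation he
    rw [show P' = Polynomial.C (ϖ ^ k) * P'' () from hP'' (), eval_C_pow hC, map_mul,
      map_mul (cF A q N), map_mul, hu, one_mul, map_pow (cF A q N), map_pow, map_mul, map_pow,
      hp.2 _ ⟨j, hj⟩, mul_one] at h3
    refine (pow_le_pow_iff_right_of_lt_one₀ (zero_lt_iff.2 hp0) hp.1).1 ?_
    rw [← h3]
    exact mul_le_of_le_one_right' ((ValuationSubring.valuation_le_one_iff _ _).2 hW)
  obtain ⟨e, rfl⟩ := Nat.exists_eq_add_of_le hle
  refine ⟨Polynomial.C (↑u⁻¹ * ϖ ^ e) * P'' (), ?_⟩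
  refine mul_left_cancel₀ ((map_ne_zero_iff _ (cF_injective N)).2 hd) ?_
  rw [he, show P' = Polynomial.C (ϖ ^ (i + e)) * P'' () from hP'' (), eval₂_mul, eval₂_mul,
    eval₂_C, eval₂_C, ← mul_assoc, ← map_mul]
  congr 2
  rw [_root_.pow_add]
  linear_combination -(ϖ ^ i * ϖ ^ e) * (Units.mul_inv u)

include hC hz in
/-- The functions regular at the finite cusps and integral at infinity. -/
theorem exists_goodRing : ∃ S : Subring (rN N (constK A q)), ∀ c, c ∈ S ↔
    OrdGE 0 (rSer (rAct (cuspRep 0) c)) ∧ OrdGE 0 (rSer (rAct (cuspRep 1) c)) ∧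
      toFl c ∈ inftyVal hz hC :=
  ⟨(nonnegSubring (constK A q)).comap (rSer.comp (rAct (cuspRep 0))) ⊓
    ((nonnegSubring (constK A q)).comap (rSer.comp (rAct (cuspRep 1))) ⊓
      (inftyVal hz hC).toSubring.comap (toFl (N := N) (K := constK A q))), fun _ => Iff.rfl⟩

include hC hz in
/-- **Integrality over the constants and `λ`.** -/
theorem mem_chartF_of_conj {x : rN N (constK A q)}
    (hx : ∀ γ ∈ Gamma 2, OrdGE 0 (rSer (rAct (cuspRep 0) (rAct γ x))) ∧
      OrdGE 0 (rSer (rAct (cuspRep 1) (rAct γ x))) ∧ toFl (rAct γ x) ∈ inftyVal hz hC) :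
    toFl x ∈ chartF A q (lamF hN hζ) := by
  classical
  obtain ⟨S, hS⟩ := exists_goodRing hN hζ hC hz
  haveI := finite_galLvl (N := N) (A := A) (q := q) (ℓ := 2)
  haveI : Fintype (galLvl (N := N) A q 2) := Fintype.ofFinite _
  have hlift : ∀ φ : galLvl (N := N) A q 2, ∃ y : S, toFl (y : rN N (constK A q)) = φ.1 (toFl x) := by
    rintro ⟨_, γ, hγ, rfl⟩
    exact ⟨⟨rAct γ⁻¹ x, (hS _).2 (hx _ (inv_mem hγ))⟩, (flAct_toFl γ⁻¹ x).symm⟩
  choose y hy using hlift
  set Q : S[X] := ∏ φ : galLvl (N := N) A q 2, (X - Polynomial.C (y φ))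
  have hQ : Q.Monic := monic_prod_of_monic _ _ fun φ _ => monic_X_sub_C _
  set Q' : (flN N (constK A q))[X] := Q.map ((toFl (N := N)).comp S.subtype)
  have hQ' : Q' = ∏ φ : galLvl (N := N) A q 2, (X - Polynomial.C (φ.1 (toFl x))) := by
    simp [Q', Q, Polynomial.map_prod, hy]
  have hfix : ∀ φ ∈ galLvl (N := N) A q 2, ∀ j, φ (Q'.coeff j) = Q'.coeff j := by
    intro φ hφ j
    have h1 : Q'.map (φ : flN N (constK A q) →+* flN N (constK A q)) = Q' := by
      rw [hQ', Polynomial.map_prod]
      simp only [Polynomial.map_sub, Polynomial.map_X, Polynomial.map_C, RingHom.coe_coe]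
      exact Fintype.prod_equiv (Equiv.mulLeft (⟨φ, hφ⟩ : galLvl (N := N) A q 2)) _ _
        fun g' => rfl
    conv_rhs => rw [← h1]
    exact (coeff_map (φ : flN N (constK A q) →+* flN N (constK A q)) (p := Q') j).symm
  have hl : Q' ∈ lifts (eval₂RingHom (cF A q N) (lamF hN hζ)) := by
    refine (lifts_iff_coeff_lifts _).2 fun j => ?_
    have hc : Q'.coeff j = toFl ((Q.coeff j : S) : rN N (constK A q)) := by
      rw [coeff_map]; rfl
    obtain ⟨h0, h1, h2⟩ := (hS _).1 (Q.coeff j).2
    obtain ⟨P, hP⟩ := exists_poly_int hN hζ hC hz (c := ((Q.coeff j : S) : rN N (constK A q)))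
      (fun γ hγ => by
        refine toFl_injective ?_
        rw [← flAct_toFl, ← hc]
        have := hfix _ ⟨γ⁻¹, inv_mem hγ, rfl⟩ j
        rwa [show flHom N (constK A q) γ⁻¹ (Q'.coeff j) = flAct γ⁻¹⁻¹ (Q'.coeff j) from rfl,
          inv_inv] at this) h0 h1 h2
    exact ⟨P, (hc.trans hP).symm⟩
  obtain ⟨R, hR, -, hRm⟩ := lifts_and_degree_eq_and_monic hl (hQ.map _)
  refine ⟨R, hRm, ?_⟩
  rw [← eval_map, hR, hQ', eval_prod]
  exact Finset.prod_eq_zero (Finset.mem_univ 1) (by simp)

end FA.Carayol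

end
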