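import Fermat.Agent.Carayol.OddInf.PolyInt
import Fermat.Agent.Carayol.Model.Rlam
import Fermat.Agent.ModField.Semistable.FrobSeries

/-!
# An odd prime: `r = λ (τ / q)` at infinity
-/

set_option autoImplicit false
set_option linter.unusedSectionVars false
set_option linter.style.haveILetI false

noncomputable section

namespace FA.Carayol

open CongruenceSubgroup HahnSeries ModularCurve FA.Level FA.ModField FA.Mazur.Wp
open scoped MatrixGroups

local notation "Qb" => AlgebraicClosure ℚ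

variable [Algebra Qb ℂ] {A : ValuationSubring Qb} {q : ℕ}

theorem zpow_mem_intK {η : constK A q} (h1 : η ∈ intK A q) (h2 : η⁻¹ ∈ intK A q) (j : ℤ) :
    η ^ j ∈ intK A q := by
  obtain ⟨n, rfl | rfl⟩ := Int.eq_nat_or_neg j
  · rw [zpow_natCast]; exact pow_mem h1 n
  · rw [zpow_neg, zpow_natCast, ← inv_pow]; exact pow_mem h2 n

theorem scaleSer_coeff_mem {h e : ℕ} (he : 0 < e) (hh : 0 < h) {η : constK A q}
    (h1 : η ∈ intK A q) (h2 : η⁻¹ ∈ intK A q) {S : LaurentSeries (constK A q)}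
    (hS : ∀ i, S.coeff i ∈ intK A q) (i : ℤ) : (scaleSer he hh η S).coeff i ∈ intK A q := by
  by_cases hd : (e : ℤ) ∣ i
  · obtain ⟨j, rfl⟩ := hd
    rw [scaleSer_coeff]
    exact mul_mem (hS _) (zpow_mem_intK h1 h2 j)
  · rw [scaleSer_coeff_of_not_dvd he hh η S hd]
    exact zero_mem _

variable [hq : Fact q.Prime] {N g : ℕ} [NeZero N] (hN : N = 4 * g)
  (hζ : ∀ b : ℤ, eta N b ∈ constK A q)

include hN in
theorem dvd_two_g {m : ℕ} (hm : N = q * m) (h4 : 4 ∣ m) : q ∣ 2 * g := by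
  obtain ⟨k, rfl⟩ := h4
  exact ⟨2 * k, by
    have h : g = q * k := Nat.eq_of_mul_eq_mul_left (by norm_num : 0 < 4)
      (hN.symm.trans (hm.trans (by ring)))
    rw [h]; ring⟩

variable (hq2 : q ≠ 2) (hqh : q ∣ 2 * g) (hA : A.LiesOverPrime q)

include hN hA in
/-- The conjugates of `r` have integral series at infinity. -/
theorem exists_rlam_int {γ : SL(2, ℤ)} (hγ : γ ∈ Gamma 2) : ∃ R,
    serO A q R = rSer (rAct γ (rlam (two_g hN) (constK A q) hζ hq2 hqh)) := by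
  obtain ⟨Λ, hΛ, -⟩ := exists_lam_int hN hζ hA hq2
  obtain ⟨e, he, c, -, hs⟩ := rSer_rAct_rlam (two_g hN) (constK A q) hζ hq2 hqh γ
  rw [rAct_lam_gamma_two (two_g hN) _ hζ hγ] at hs
  obtain ⟨R, hR, -⟩ := exists_serO_eq (S := rSer (rAct γ (rlam (two_g hN) (constK A q) hζ hq2 hqh)))
    fun i => by
      rw [hs]
      exact scaleSer_coeff_mem he _ (eta_mem_intK hζ c).1 (eta_mem_intK hζ c).2
        (fun j => ⟨Λ.coeff j, congrArg (fun s : LaurentSeries _ => s.coeff j) hΛ⟩) i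
  exact ⟨R, hR⟩

include hN hA in
/-- **`r ^ q = λ` modulo `q` at infinity.** -/
theorem exists_rlam_frob : ∃ R Λ, serO A q Λ = rSer (lam (two_g hN) (constK A q) hζ) ∧
    serO A q R = rSer (rlam (two_g hN) (constK A q) hζ hq2 hqh) ∧
    redO A q R ^ q = redO A q Λ := by
  haveI := charP_resField (q := q) hA
  haveI : NeZero q := ⟨hq.out.ne_zero⟩
  obtain ⟨Λ, hΛ, hfix, -, hsupp, -, -⟩ := exists_lam_int hN hζ hA hq2
  obtain ⟨e, he, c, hone, hs⟩ := rSer_rAct_rlam (two_g hN) (constK A q) hζ hq2 hqh 1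
  obtain ⟨heq, rfl⟩ := hone rfl
  obtain ⟨R, hR⟩ := exists_rlam_int hN hζ hq2 hqh hA (one_mem (Gamma 2))
  rw [rAct_one] at hR
  rw [rAct_one, rAct_one] at hs
  refine ⟨R, Λ, hΛ, hR, ?_⟩
  have heq' : (e : ℤ) * q = ((2 * g : ℕ) : ℤ) := by exact_mod_cast heq
  have hq0 : (q : ℤ) ≠ 0 := Int.natCast_ne_zero.2 hq.out.ne_zero
  have hcoef : ∀ i, baseK A q (R.coeff i) = (rSer (rlam (two_g hN) (constK A q) hζ hq2 hqh)).coeff i :=
    fun i => congrArg (fun s : LaurentSeries _ => s.coeff i) hR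
  have hcoefΛ : ∀ i, baseK A q (Λ.coeff i) = (rSer (lam (two_g hN) (constK A q) hζ)).coeff i :=
    fun i => congrArg (fun s : LaurentSeries _ => s.coeff i) hΛ
  have h1 : ∀ j : ℤ, R.coeff ((e : ℤ) * j) = Λ.coeff (((2 * g : ℕ) : ℤ) * j) := fun j =>
    baseK_injective (by
      rw [hcoef, hs, scaleSer_coeff, hcoefΛ,
        show (⟨eta N 0, hζ 0⟩ : constK A q) = 1 from Subtype.ext (eta_zero' (two_g hN)),
        one_zpow, mul_one])
  have h2 : ∀ i : ℤ, ¬ (e : ℤ) ∣ i → R.coeff i = 0 := fun i hi => baseK_injective (by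
    rw [hcoef, hs, scaleSer_coeff_of_not_dvd he _ _ _ hi, map_zero])
  rw [pow_char_eq_qExpand q (redO A q R)]
  refine HahnSeries.ext (funext fun i => ?_)
  by_cases hd : (q : ℤ) ∣ i
  · obtain ⟨l, rfl⟩ := hd
    rw [qExpand_coeff_mul, coeffMap_coeff, redO, coeffMap_coeff, coeffMap_coeff, frobenius_def]
    by_cases hl : (e : ℤ) ∣ l
    · obtain ⟨j, rfl⟩ := hl
      rw [show (q : ℤ) * ((e : ℤ) * j) = ((2 * g : ℕ) : ℤ) * j by rw [← heq']; ring, h1, hfix]
    · rw [h2 l hl, map_zero, zero_pow hq.out.ne_zero, hsupp _ (fun hh => hl ?_), map_zero]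
      rw [← heq', mul_comm (e : ℤ) q] at hh
      exact (mul_dvd_mul_iff_left hq0).1 hh
  · rw [qExpand_coeff_of_not_dvd _ _ hd, redO, coeffMap_coeff, hsupp i (fun hh => hd ?_),
      map_zero]
    exact dvd_trans ⟨(e : ℤ), by rw [← heq']; ring⟩ hh

variable {ϖ : baseO A (constL A q).toSubfield} (hC : ConstHyp A (constL A q).toSubfield ϖ)

include hN hA hC in
/-- **`r` is in the chart and is a root of `λ` at infinity.** -/
theorem rlam_infty (hz : Coord A q 2 (lamF hN hζ)) :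
    toFl (rlam (two_g hN) (constK A q) hζ hq2 hqh) ∈ chartF A q (lamF hN hζ) ∧
    (inftyVal hz hC).valuation
      (toFl (rlam (two_g hN) (constK A q) hζ hq2 hqh) ^ q - lamF hN hζ) < 1 := by
  have hser : ∀ f : rN N (constK A q), ser (toFl f) = rSer f := ser_rMer
  refine ⟨mem_chartF_of_conj hN hζ hC hz fun γ hγ => ?_, ?_⟩
  · have hcusp : ∀ r, OrdGE 0 (rSer (rAct (cuspRep r) (lam (two_g hN) (constK A q) hζ))) →
        OrdGE 0 (rSer (rAct (cuspRep r) (rAct γ (rlam (two_g hN) (constK A q) hζ hq2 hqh)))) := by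
      intro r hr
      rw [← rAct_mul]
      obtain ⟨e, he, c, -, hs⟩ := rSer_rAct_rlam (two_g hN) (constK A q) hζ hq2 hqh (γ * cuspRep r)
      rw [hs, rAct_mul, rAct_lam_gamma_two (two_g hN) _ hζ hγ]
      exact ordGE_scaleSer he _ _ hr
    refine ⟨hcusp 0 ?_, hcusp 1 ?_, ?_⟩
    · show OrdGE 0 (rSer (rAct 1 (lam (two_g hN) (constK A q) hζ)))
      rw [rAct_one]
      exact ordGE_rSer_lam (two_g hN) _ hζ
    · show OrdGE 0 (rSer (rAct ModularGroup.S (lam (two_g hN) (constK A q) hζ)))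
      rw [rAct_S_lam (two_g hN) _ hζ]
      exact fun i hi => (rSer_one_sub_lam (two_g hN) _ hζ).1 i (by omega)
    · obtain ⟨R, hR⟩ := exists_rlam_int hN hζ hq2 hqh hA hγ
      exact (mem_inftyVal hz hC).2 ⟨R, 1, by simp, by rw [map_one, mul_one, hR, hser]⟩
  · obtain ⟨R, Λ, hΛ, hR, hred⟩ := exists_rlam_frob hN hζ hq2 hqh hA
    refine (inftyVal_lt_iff hz hC (a := R ^ q - Λ) (b := 1) (by simp) ?_).2
      (by rw [map_sub, map_pow, hred, sub_self])
    rw [map_one, mul_one, map_sub, map_pow, lamF, hser, hser, map_sub, map_pow, hR, hΛ]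

end FA.Carayol

end
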