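import Fermat.Agent.Carayol.OddInf.Ints
import Fermat.Agent.Carayol.Vert.Infty
import Fermat.Agent.Carayol.Curve.Field

/-!
# An odd prime: values of abscissae at infinity
-/

set_option autoImplicit false
set_option linter.unusedSectionVars false
set_option linter.style.haveILetI false

noncomputable section

namespace FA.Carayol

open CongruenceSubgroup HahnSeries ModularCurve FA.Level FA.ModField FA.Mazur.Wp
open scoped MatrixGroups

local notation "Qb" => AlgebraicClosure ℚ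

variable [Algebra Qb ℂ] {A : ValuationSubring Qb} {q : ℕ}

/-- An integral power series with a unit coefficient has nonzero reduction. -/
theorem exists_red_ne {P : PowerSeries (constK A q)} (hP : ∀ n, PowerSeries.coeff n P ∈ intK A q)
    {n : ℕ} {u : baseO A (constL A q).toSubfield} (hu : resO A q u ≠ 0)
    (hn : baseK A q u = PowerSeries.coeff n P) :
    ∃ a, serO A q a = ofPowerSeries ℤ (constK A q) P ∧ redO A q a ≠ 0 := by
  obtain ⟨a, ha, hc⟩ := exists_serO_eq (S := ofPowerSeries ℤ (constK A q) P) fun i => by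
    rcases lt_or_ge i 0 with hi | hi
    · rw [ModularCurve.ofPowerSeries_coeff_of_neg _ hi]; exact zero_mem _
    · obtain ⟨n, rfl⟩ := Int.eq_ofNat_of_zero_le hi
      rw [ofPowerSeries_apply_coeff]
      exact hP n
  refine ⟨a, ha, fun h0 => hu ?_⟩
  have e : a.coeff (n : ℤ) = u := baseK_injective (by rw [hc, hn, ofPowerSeries_apply_coeff])
  have h1 := congrArg (fun s : LaurentSeries _ => s.coeff (n : ℤ)) h0
  simpa [redO, e] using h1

variable [hq : Fact q.Prime] {N g : ℕ} [NeZero N] (hN : N = 4 * g)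
  (hζ : ∀ b : ℤ, eta N b ∈ constK A q) (hA : A.LiesOverPrime q) (hq2 : q ≠ 2)

include hA hq2 in
theorem exists_quarter : ∃ u : baseO A (constL A q).toSubfield,
    IsUnit u ∧ baseK A q u = (4 : constK A q)⁻¹ := by
  obtain ⟨u, hu⟩ := (isUnit_four (q := q) hA hq2).exists_right_inv
  exact ⟨u, isUnit_iff_exists_inv'.2 ⟨4, hu⟩,
    eq_inv_of_mul_eq_one_right (by rw [← map_ofNat (baseK A q) 4, ← map_mul, hu, map_one])⟩

include hA hq2 in
theorem quarter_mem : (4 : constK A q)⁻¹ ∈ intK A q := by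
  obtain ⟨u, -, hu⟩ := exists_quarter hA hq2
  exact ⟨u, hu⟩

include hN hA hq2 in
theorem coeff_xI_half_int {v : ℤ × ℤ} (hv : v = tA (2 * g) ∨ v = tB (2 * g) ∨ v = tC (2 * g))
    (n : ℕ) : PowerSeries.coeff n (xI hζ v) ∈ intK A q :=
  coeff_xI_half _ hζ (two_g hN) v hv (quarter_mem hA hq2) n

include hN hA hq2 in
/-- The common denominator of the abscissae. -/
theorem exists_den : ∃ b, redO A q b ≠ 0 ∧
    serO A q b = xK (constK A q) hζ (tA (2 * g)) - xK (constK A q) hζ (tB (2 * g)) := by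
  obtain ⟨u, hu, hu'⟩ := exists_quarter (q := q) hA hq2
  obtain ⟨b, hb, hb'⟩ := exists_red_ne
    (P := xI hζ (tA (2 * g)) - xI hζ (tB (2 * g)))
    (fun n => by
      rw [map_sub]
      exact sub_mem (coeff_xI_half_int hN hζ hA hq2 (Or.inl rfl) n)
        (coeff_xI_half_int hN hζ hA hq2 (Or.inr (Or.inl rfl)) n))
    (n := 0) (resO_ne_of_isUnit hu) (by rw [hu', coeff_den_zero hζ (two_g hN)])
  exact ⟨b, hb', by rw [hb, xK_sub_xK_ints]⟩

include hN in
theorem den_ne_zero :
    xK (constK A q) hζ (tA (2 * g)) - xK (constK A q) hζ (tB (2 * g)) ≠ 0 := fun h0 => by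
  have h := coeff_den_zero hζ (two_g hN)
  rw [xK_sub_xK_ints, map_eq_zero_iff _ ofPowerSeries_injective] at h0
  rw [h0, map_zero] at h
  norm_num at h

/-- The numerators of `X`, `X - 1` and `X - λ`. -/
theorem ser_xF_mul {v : ℤ × ℤ} (hv : IsVec N v) :
    ser (xF hN hζ v) * (xK (constK A q) hζ (tA (2 * g)) - xK (constK A q) hζ (tB (2 * g))) =
        xK (constK A q) hζ v - xK (constK A q) hζ (tB (2 * g)) ∧
    ser (xF hN hζ v - 1) * (xK (constK A q) hζ (tA (2 * g)) - xK (constK A q) hζ (tB (2 * g))) =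
        xK (constK A q) hζ v - xK (constK A q) hζ (tA (2 * g)) ∧
    ser (xF hN hζ v - lamF hN hζ) *
        (xK (constK A q) hζ (tA (2 * g)) - xK (constK A q) hζ (tB (2 * g))) =
        xK (constK A q) hζ v - xK (constK A q) hζ (tC (2 * g)) := by
  have hs : ∀ f : rN N (constK A q), ser (toFl f) = rSer f := ser_rMer
  have hd := den_ne_zero hN hζ
  have e1 : ser (xF hN hζ v) *
      (xK (constK A q) hζ (tA (2 * g)) - xK (constK A q) hζ (tB (2 * g))) =
      xK (constK A q) hζ v - xK (constK A q) hζ (tB (2 * g)) := by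
    rw [xF_of_isVec hN hζ hv, hs, xR, xv, rSer_ratHol, mul_assoc, inv_mul_cancel₀ hd, mul_one]
  refine ⟨e1, ?_, ?_⟩
  · rw [map_sub, sub_mul, e1, map_one, one_mul]; ring
  · rw [map_sub, sub_mul, e1, lamF, hs, lam, rSer_ratHol, mul_assoc, inv_mul_cancel₀ hd, mul_one]
    ring

variable {ϖ : baseO A (constL A q).toSubfield} {z : flN N (constK A q)} {ℓ : ℕ}
  (hz : Coord A q ℓ z) (hC : ConstHyp A (constL A q).toSubfield ϖ)

include hN hA hq2 in
/-- An element whose numerator has nonzero reduction is a unit at infinity. -/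
theorem inftyVal_ratio_eq_one {x : flN N (constK A q)} {P : PowerSeries (constK A q)}
    (hP : ∀ n, PowerSeries.coeff n P ∈ intK A q)
    (hx : ser x * (xK (constK A q) hζ (tA (2 * g)) - xK (constK A q) hζ (tB (2 * g))) =
      ofPowerSeries ℤ (constK A q) P)
    {n : ℕ} {u : baseO A (constL A q).toSubfield} (hu : resO A q u ≠ 0)
    (hn : baseK A q u = PowerSeries.coeff n P) :
    (inftyVal hz hC).valuation x = 1 := by
  obtain ⟨a, ha, ha'⟩ := exists_red_ne hP hu hn
  obtain ⟨b, hb', hb⟩ := exists_den hN hζ hA hq2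
  exact inftyVal_eq_one hz hC ha' hb' (by rw [hb, hx, ha])

theorem eta_sq (b : ℤ) : eta N b ^ 2 = eta N (2 * b) := by
  rw [eta, eta, ← Complex.exp_nat_mul]
  congr 1
  push_cast
  ring

include hN in
theorem eta_g_sq {s : ℤ} (hs : ¬ 2 ∣ s) :
    (⟨eta N ((g : ℤ) * s), hζ _⟩ : constK A q) ^ 2 = -1 := by
  refine Subtype.ext ?_
  show eta N ((g : ℤ) * s) ^ 2 = -1
  obtain ⟨k, rfl⟩ : ∃ k, s = 2 * k + 1 := ⟨s / 2, by omega⟩
  rw [eta_sq, show 2 * ((g : ℤ) * (2 * k + 1)) = ((2 * g : ℕ) : ℤ) + (N : ℤ) * k by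
    rw [hN]; push_cast; ring, eta_add_mul, eta_half (two_g hN)]

include hN in
theorem coeff_xI_g {s : ℤ} (hs : ¬ 2 ∣ s) :
    PowerSeries.coeff 0 (xI hζ ((0 : ℤ), (g : ℤ) * s)) = -(2 * (4 : constK A q)⁻¹) ∧
    PowerSeries.coeff 0 (xI hζ (((2 * g : ℕ) : ℤ), (g : ℤ) * s)) = 0 ∧
    PowerSeries.coeff (2 * g) (xI hζ (((2 * g : ℕ) : ℤ), (g : ℤ) * s)) = 0 := by
  set η : constK A q := ⟨eta N ((g : ℤ) * s), hζ _⟩ with hη
  have h2 : η ^ 2 = -1 := eta_g_sq hN hζ hs
  have hη0 : η ≠ 0 := fun h0 => by rw [h0] at h2; norm_num at h2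
  have hd : (1 - η) ^ 2 = -(2 * η) := by linear_combination h2
  refine ⟨?_, ?_, ?_⟩
  · rw [coeff_xI_zero, if_pos (dvd_zero _), ← hη, hd]
    field_simp
    norm_num
  · rw [coeff_xI_zero, if_neg (not_dvd_half (two_g hN))]
  · have hg := g_pos hN
    obtain ⟨k, hk⟩ : ∃ k, 2 * g = k + 1 := ⟨2 * g - 1, by omega⟩
    conv_lhs => rw [hk, coeff_xI_succ, ← hk]
    rw [xCoeff_half (two_g hN) (constK A q) (le_refl (2 * g)), if_neg (by omega), if_pos rfl]
    show η + η⁻¹ = 0
    rw [show η⁻¹ = -η from inv_eq_of_mul_eq_one_right (by linear_combination -h2)]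
    ring

end FA.Carayol

end
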